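import Fermat.Agent.TW.MonoDefs
import Fermat.Agent.TW.ProjExtra
import Fermat.Agent.TW.GroupLemma.Main

/-!
# The permutation module on the cosets of the Borel part

When the image has a nontrivial upper unitriangular part `P`, that part is a Sylow subgroup, fixes
the base coset only and is free on the other cosets.  So the number of cosets is prime to `p`, the
permutation module has a trace-one endomorphism, and its classes are independent of the classes of
the adjoint module over the fixed field of the Borel part.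
-/

set_option autoImplicit false
set_option linter.unusedSectionVars false

open IsDedekindDomain NumberField Matrix Matrix.GeneralLinearGroup

noncomputable section

attribute [local instance] Classical.propDecidable

namespace FLTAgent.TW

open FLTAgent.Deformation

variable {k : Type} [Field k] [Finite k] {p : ℕ} [Fact p.Prime] [CharP k p]
  [Algebra (ZMod p) k]
variable {rb : Gal →* Mat k} {Smin : Finset ℕ} (h : ResidualHyp p rb Smin)

theorem ResidualHyp.rbF_mem_imageGL (c : h.fieldKF.C) : h.rbF c ∈ imageGL rb := by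
  obtain ⟨g, rfl⟩ := h.fieldKF.π_surj c
  rw [h.rbF_π]
  exact ⟨(g : Γ), rfl⟩

theorem ResidualHyp.exists_rbF_eq {g : GL (Fin 2) k} (hg : g ∈ imageGL rb) :
    ∃ c, h.rbF c = g := by
  obtain ⟨σ, rfl⟩ := hg
  exact ⟨h.fieldKF.π (h.inH σ), h.rbF_π _⟩

include h in
theorem ResidualHyp.finite_imageGL : Finite (imageGL rb) :=
  Finite.of_surjective (fun c : h.fieldKF.C => (⟨h.rbF c, h.rbF_mem_imageGL c⟩ : imageGL rb))
    fun g => by
      obtain ⟨c, hc⟩ := h.exists_rbF_eq g.2
      exact ⟨c, Subtype.ext hc⟩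

theorem ResidualHyp.natCard_imageGL : Nat.card (imageGL rb) = Nat.card h.fieldKF.C :=
  (Nat.card_eq_of_bijective
    (fun c : h.fieldKF.C => (⟨h.rbF c, h.rbF_mem_imageGL c⟩ : imageGL rb))
    ⟨fun _ _ hab => h.rbF_injective (congrArg Subtype.val hab), fun g => by
      obtain ⟨c, hc⟩ := h.exists_rbF_eq g.2
      exact ⟨c, Subtype.ext hc⟩⟩).symm

/-- The unitriangular part of the Galois group of the kernel field. -/
def ResidualHyp.unipF : Subgroup h.fieldKF.C :=
  (GroupLemma.unipSub (imageGL rb)).comap h.rbF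

theorem ResidualHyp.mem_unipF {c : h.fieldKF.C} :
    c ∈ h.unipF ↔ h.rbF c ∈ unipPart (imageGL rb) := Iff.rfl

theorem ResidualHyp.mem_borelF {c : h.fieldKF.C} :
    c ∈ h.borelF ↔ (h.rbF c : Matrix (Fin 2) (Fin 2) k) 1 0 = 0 := Iff.rfl

theorem ResidualHyp.unipF_le_borelF : h.unipF ≤ h.borelF := fun _ hc => hc.2.1

theorem ResidualHyp.natCard_unipF : Nat.card h.unipF = Nat.card (unipPart (imageGL rb)) :=
  Nat.card_eq_of_bijective (fun c : h.unipF => (⟨h.rbF c, c.2⟩ : unipPart (imageGL rb)))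
    ⟨fun _ _ hab => Subtype.ext (h.rbF_injective (congrArg Subtype.val hab)), fun g => by
      obtain ⟨c, hc⟩ := h.exists_rbF_eq g.2.1
      exact ⟨⟨c, by rw [h.mem_unipF, hc]; exact g.2⟩, Subtype.ext hc⟩⟩

theorem ResidualHyp.smul_base_of_mem_borelF {c : h.fieldKF.C} (hc : c ∈ h.borelF) :
    c • (QuotientGroup.mk 1 : h.Omega) = QuotientGroup.mk 1 :=
  QuotientGroup.eq.mpr (by
    show (c * 1)⁻¹ * 1 ∈ h.borelF
    simpa using inv_mem hc)

theorem ResidualHyp.smul_base (c : h.fieldKF.C) :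
    c • (QuotientGroup.mk 1 : h.Omega) = QuotientGroup.mk c := by
  show QuotientGroup.mk (c * 1) = _
  rw [mul_one]

section Unip

variable (hu : ∃ u ∈ unipPart (imageGL rb), u ≠ 1)

include hu

theorem ResidualHyp.index_unipF_ne_zero : (h.unipF.index : k) ≠ 0 := by
  have := h.finite_imageGL
  obtain ⟨f, -, hcard, hnd, -⟩ := GroupLemma.natCard_unip p hu
  rw [Ne, CharP.cast_eq_zero_iff k p]
  rwa [← hcard, h.natCard_imageGL, ← h.natCard_unipF, ← Subgroup.index_mul_card h.unipF,
    Nat.mul_div_cancel _ Nat.card_pos] at hnd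

theorem ResidualHyp.card_Omega_ne_zero : (Fintype.card h.Omega : k) ≠ 0 := by
  intro h0
  apply h.index_unipF_ne_zero hu
  rw [CharP.cast_eq_zero_iff k p] at h0 ⊢
  rw [← Nat.card_eq_fintype_card] at h0
  exact h0.trans (Subgroup.index_dvd_of_le h.unipF_le_borelF)

/-- A nontrivial unitriangular element fixes the base coset only. -/
theorem ResidualHyp.eq_base_of_unip_fix {c : h.fieldKF.C} (hc : h.rbF c ∈ unipPart (imageGL rb))
    (hc1 : c ≠ 1) {ω : h.Omega} (hω : c • ω = ω) : ω = QuotientGroup.mk 1 := by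
  induction ω using QuotientGroup.induction_on with
  | H g =>
  obtain ⟨-, x, hx⟩ := GroupLemma.mem_unipPart_iff.1 hc
  have hx0 : x ≠ 0 := fun h0 =>
    hc1 (h.rbF_injective (by rw [hx, GroupLemma.upper_eq_one_iff.2 h0, map_one]))
  have hfix : g⁻¹ * c * g ∈ h.borelF := by
    have h1 : (c * g)⁻¹ * g ∈ h.borelF := QuotientGroup.eq.mp hω
    have h2 := inv_mem h1
    rwa [_root_.mul_inv_rev, inv_inv, ← mul_assoc] at h2
  have h3 : h.rbF (g⁻¹ * c * g) • (OnePoint.infty : OnePoint k) = OnePoint.infty :=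
    OnePoint.smul_infty_eq_self_iff.2 hfix
  rw [map_mul, map_mul, map_inv, mul_smul, mul_smul, inv_smul_eq_iff, hx] at h3
  have h4 := GroupLemma.fixed_upper hx0 h3
  refine QuotientGroup.eq.mpr ?_
  rw [mul_one, inv_mem_iff]
  exact OnePoint.smul_infty_eq_self_iff.1 h4

/-- The permutation module has an endomorphism of trace one. -/
theorem ResidualHyp.exists_theta_adI :
    ∃ θ : h.MI →ₗ[k] h.MI,
      ∑ c : h.fieldKF.C, (h.adI c).comp (θ.comp (h.adI c⁻¹)) = LinearMap.id := by
  classical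
  set ω₀ : h.Omega := QuotientGroup.mk 1 with hω₀
  -- a choice of one point in each free orbit
  let r : h.Omega → h.Omega := fun ω =>
    (Quotient.mk (MulAction.orbitRel h.unipF h.Omega) ω).out
  let δ : h.Omega → k := fun ω => if ω ≠ ω₀ ∧ r ω = ω then 1 else 0
  have hδsum : ∀ ω, ω ≠ ω₀ → ∑ u : h.unipF, δ ((u : h.fieldKF.C)⁻¹ • ω) = 1 := by
    intro ω hω
    have hr : ∀ u : h.unipF, r ((u : h.fieldKF.C)⁻¹ • ω) = r ω := fun u =>
      congrArg Quotient.out (Quotient.sound (MulAction.orbitRel_apply.mpr ⟨u⁻¹, rfl⟩))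
    obtain ⟨v, hv⟩ : r ω ∈ MulAction.orbit h.unipF ω :=
      MulAction.orbitRel_apply.mp (Quotient.mk_out (s := MulAction.orbitRel h.unipF h.Omega) ω)
    have hne : ∀ u : h.unipF, (u : h.fieldKF.C)⁻¹ • ω ≠ ω₀ := fun u he => hω (by
      rw [inv_smul_eq_iff, hω₀, h.smul_base_of_mem_borelF (h.unipF_le_borelF u.2)] at he
      exact he)
    have hv' : (v : h.fieldKF.C) • ω = r ω := hv
    rw [Finset.sum_eq_single v⁻¹]
    · refine if_pos ⟨hne _, ?_⟩
      rw [hr, Subgroup.coe_inv, inv_inv, hv']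
    · refine fun u _ hu' => if_neg fun hh => hu' ?_
      have h1 : ((v : h.fieldKF.C)⁻¹ * (u : h.fieldKF.C)⁻¹) • ω = ω := by
        rw [mul_smul, ← hh.2, hr, ← hv', inv_smul_smul]
      by_contra h2
      refine hω (h.eq_base_of_unip_fix hu (c := (v : h.fieldKF.C)⁻¹ * (u : h.fieldKF.C)⁻¹)
        (mul_mem (inv_mem v.2) (inv_mem u.2)) (fun h3 => h2 (Subtype.ext ?_)) h1)
      rw [Subgroup.coe_inv]
      rw [eq_inv_of_mul_eq_one_left h3, inv_inv]
    · exact fun hn => (hn (Finset.mem_univ _)).elim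
  let S : (h.Omega → sl2 k) →ₗ[k] sl2 k := ∑ ω, δ ω • LinearMap.proj ω
  let F : (h.Omega → sl2 k) →ₗ[k] (h.Omega → sl2 k) :=
    LinearMap.pi fun ω => δ ω • LinearMap.proj ω - if ω = ω₀ then S else 0
  have hF : ∀ Y, F Y ∈ h.MI := fun Y => by
    rw [h.mem_MI]
    simp only [F, LinearMap.pi_apply, LinearMap.sub_apply, LinearMap.smul_apply,
      LinearMap.proj_apply, Finset.sum_sub_distrib]
    have hite : ∀ ω, (if ω = ω₀ then S else 0 : (h.Omega → sl2 k) →ₗ[k] sl2 k) Y =
        if ω = ω₀ then S Y else 0 := fun ω => by split_ifs <;> rfl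
    simp only [hite, Finset.sum_ite_eq', Finset.mem_univ, if_true]
    simp [S, LinearMap.sum_apply]
  let θ₀ : h.MI →ₗ[k] h.MI := (F.comp h.MI.subtype).codRestrict h.MI fun Y => hF _
  -- the partial trace over the unitriangular part
  have hP : ∀ Y : h.MI, ∑ u : h.unipF, h.adI (u : h.fieldKF.C) (θ₀ (h.adI (u : h.fieldKF.C)⁻¹ Y))
      = Y := by
    intro Y
    have hoff : ∀ ω, ω ≠ ω₀ →
        ((∑ u : h.unipF, h.adI (u : h.fieldKF.C) (θ₀ (h.adI (u : h.fieldKF.C)⁻¹ Y)) : h.MI) :
          h.Omega → sl2 k) ω = (Y : h.Omega → sl2 k) ω := by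
      intro ω hω
      rw [Submodule.coe_sum, Finset.sum_apply]
      conv_rhs => rw [← one_smul k ((Y : h.Omega → sl2 k) ω), ← hδsum ω hω, Finset.sum_smul]
      refine Finset.sum_congr rfl fun u _ => ?_
      have hne : (u : h.fieldKF.C)⁻¹ • ω ≠ ω₀ := fun he => hω (by
        rw [inv_smul_eq_iff, hω₀, h.smul_base_of_mem_borelF (h.unipF_le_borelF u.2)] at he
        exact he)
      rw [h.coe_adI]
      show adGL _ (F _ ((u : h.fieldKF.C)⁻¹ • ω)) = _
      simp only [F, LinearMap.pi_apply, LinearMap.sub_apply, LinearMap.smul_apply,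
        LinearMap.proj_apply, if_neg hne, LinearMap.zero_apply, sub_zero, Submodule.subtype_apply, h.coe_adI,
        map_smul, inv_inv, smul_inv_smul, map_inv, Representation.self_inv_apply]
    refine Subtype.ext (funext fun ω => ?_)
    by_cases hω : ω = ω₀
    · subst hω
      have h1 := h.mem_MI.mp
        (∑ u : h.unipF, h.adI (u : h.fieldKF.C) (θ₀ (h.adI (u : h.fieldKF.C)⁻¹ Y))).2
      have h2 := h.mem_MI.mp Y.2
      rw [← Finset.add_sum_erase _ _ (Finset.mem_univ ω₀)] at h1 h2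
      rw [Finset.sum_congr rfl fun ω hω => hoff ω (Finset.ne_of_mem_erase hω)] at h1
      exact add_right_cancel (h1.trans h2.symm)
    · exact hoff ω hω
  refine ⟨(h.unipF.index : k)⁻¹ • θ₀, LinearMap.ext fun Y => ?_⟩
  rw [LinearMap.sum_apply, LinearMap.id_apply]
  have := Fintype.ofFinite (h.fieldKF.C ⧸ h.unipF)
  have hbij : Function.Bijective
      (fun x : (h.fieldKF.C ⧸ h.unipF) × h.unipF => x.1.out * (x.2 : h.fieldKF.C)) := by
    refine ⟨fun x y hxy => ?_, fun g => ?_⟩
    · have h1 := congrArg (fun z => (QuotientGroup.mk z : h.fieldKF.C ⧸ h.unipF)) hxy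
      simp only [QuotientGroup.mk_mul_of_mem _ x.2.2, QuotientGroup.mk_mul_of_mem _ y.2.2,
        QuotientGroup.out_eq'] at h1
      simp only [h1] at hxy
      exact Prod.ext h1 (Subtype.ext (mul_left_cancel hxy))
    · exact ⟨(QuotientGroup.mk g, ⟨(QuotientGroup.mk g : h.fieldKF.C ⧸ h.unipF).out⁻¹ * g,
        QuotientGroup.eq.mp (QuotientGroup.out_eq' _)⟩), mul_inv_cancel_left _ _⟩
  rw [← hbij.sum_comp, Fintype.sum_prod_type]
  have hterm : ∀ q : h.fieldKF.C ⧸ h.unipF, ∑ u : h.unipF,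
      ((h.adI (q.out * (u : h.fieldKF.C))).comp
        (((h.unipF.index : k)⁻¹ • θ₀).comp (h.adI (q.out * (u : h.fieldKF.C))⁻¹))) Y =
        (h.unipF.index : k)⁻¹ • Y := by
    intro q
    calc _ = (h.unipF.index : k)⁻¹ • h.adI q.out (∑ u : h.unipF, h.adI (u : h.fieldKF.C)
          (θ₀ (h.adI (u : h.fieldKF.C)⁻¹ (h.adI q.out⁻¹ Y)))) := by
          rw [map_sum, Finset.smul_sum]
          refine Finset.sum_congr rfl fun u _ => ?_
          simp only [LinearMap.comp_apply, LinearMap.smul_apply, _root_.mul_inv_rev, map_mul,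
            Module.End.mul_apply, map_smul]
      _ = _ := by rw [hP, Representation.self_inv_apply]
  rw [Finset.sum_congr rfl fun q _ => hterm q, Finset.sum_const, Finset.card_univ,
    ← Nat.card_eq_fintype_card, ← Subgroup.index_eq_card, ← Nat.cast_smul_eq_nsmul k, smul_smul,
    mul_inv_cancel₀ (h.index_unipF_ne_zero hu), one_smul]

theorem ResidualHyp.isRelProj_rhoI : IsRelProj (W := h.MI) h.rhoI := by
  obtain ⟨θ, hθ⟩ := h.exists_theta_adI hu
  refine ⟨θ, LinearMap.ext fun Y => ?_⟩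
  rw [LinearMap.sum_apply, LinearMap.id_apply]
  conv_rhs => rw [← LinearMap.id_apply (R := k) Y, ← hθ, LinearMap.sum_apply]
  refine Finset.sum_congr rfl fun c _ => ?_
  show algebraMap (ZMod p) k _ • h.adI c (θ (algebraMap (ZMod p) k _ • h.adI c⁻¹ Y)) =
    h.adI c (θ (h.adI c⁻¹ Y))
  rw [map_smul, map_smul, smul_smul, ← map_mul, ← Units.val_mul, ← map_mul, mul_inv_cancel,
    map_one, Units.val_one, map_one, one_smul]

theorem ResidualHyp.invariants_rhoI_eq_bot (hp : p ≠ 2)
    (hq : 3 < Nat.card (unipPart (imageGL rb))) :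
    Representation.invariants (V := h.MI) h.rhoI = ⊥ := by
  have := h.finite_imageGL
  rw [eq_bot_iff]
  intro Y hY
  rw [Submodule.mem_bot]
  set ω₀ : h.Omega := QuotientGroup.mk 1 with hω₀
  set X : sl2 k := (Y : h.Omega → sl2 k) ω₀ with hX
  have hfix : ∀ c : h.fieldKF.C, algebraMap (ZMod p) k ((h.fieldKF.eps c)⁻¹ : (ZMod p)ˣ) •
      h.adI c Y = Y := fun c => hY c
  have hev : ∀ c : h.fieldKF.C, (Y : h.Omega → sl2 k) (c • ω₀) =
      algebraMap (ZMod p) k ((h.fieldKF.eps c)⁻¹ : (ZMod p)ˣ) • adGL (h.rbF c) X := fun c => by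
    conv_lhs => rw [← hfix c]
    show algebraMap (ZMod p) k _ • ((h.adI c Y : h.MI) : h.Omega → sl2 k) (c • ω₀) = _
    rw [h.coe_adI, inv_smul_smul]
  -- determinant one elements of the Borel part fix `X`
  have hone : ∀ g : GL (Fin 2) k, g ∈ imageGL rb → (g : Mat k).det = 1 → (g : Mat k) 1 0 = 0 →
      (g : Mat k) * (X : Mat k) = (X : Mat k) * (g : Mat k) := by
    intro g hg hdet h10
    obtain ⟨c, rfl⟩ := h.exists_rbF_eq hg
    have heps : h.fieldKF.eps c = 1 :=
      Units.ext ((algebraMap (ZMod p) k).injective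
        (by rw [h.algebraMap_eps, hdet, Units.val_one, map_one]))
    have h1 := hev c
    rw [h.smul_base_of_mem_borelF (show c ∈ h.borelF from h10), heps, inv_one, Units.val_one,
      map_one, one_smul, ← hX] at h1
    have h2 := congrArg (fun Z : sl2 k => (Z : Mat k) * (h.rbF c : Mat k)) h1
    simp only [coe_adGL, mul_assoc, ← Units.val_mul, inv_mul_cancel, Units.val_one, mul_one] at h2
    exact h2.symm
  obtain ⟨x, hx0, hxG⟩ := GroupLemma.exists_upper_mem hu
  obtain ⟨t, ht, ht10, htne⟩ :=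
    GroupLemma.exists_chi_ne_one p hp h.split h.irred hu hq
  rw [GroupLemma.mem_detOne] at ht
  have hU := hone _ hxG (GroupLemma.upper_trace_det x).2 (by simp)
  have hT := hone t ht.1 ht.2 ht10
  have htr : (X : Mat k) 0 0 + (X : Mat k) 1 1 = 0 := by
    have := X.2
    rwa [mem_sl2_iff, Matrix.trace_fin_two] at this
  have h00 := congrFun (congrFun hU 0) 0
  have h01 := congrFun (congrFun hU 0) 1
  have t01 := congrFun (congrFun hT 0) 1
  simp [Matrix.mul_apply, Fin.sum_univ_two] at h00 h01 t01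
  have hc : (X : Mat k) 1 0 = 0 := h00.resolve_left hx0
  have ha : (X : Mat k) 0 0 = 0 := by
    have h2 : (2 : k) * (X : Mat k) 0 0 * x = 0 := by linear_combination x * htr - h01
    exact (mul_eq_zero.mp ((mul_eq_zero.mp h2).resolve_right hx0)).resolve_left
      (two_ne_zero_of_charP hp)
  have hd : (X : Mat k) 1 1 = 0 := by rw [ha, zero_add] at htr; exact htr
  have hb : (X : Mat k) 0 1 = 0 := by
    have h2 : ((t : Mat k) 0 0 - (t : Mat k) 1 1) * (X : Mat k) 0 1 = 0 := by
      linear_combination t01 - (t : Mat k) 0 1 * hd + (t : Mat k) 0 1 * ha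
    exact (mul_eq_zero.mp h2).resolve_left (sub_ne_zero.mpr htne)
  have hX0 : X = 0 := Subtype.ext (Matrix.ext fun i j => by
    fin_cases i <;> fin_cases j <;> simp [hc, ha, hd, hb])
  refine Subtype.ext (funext fun ω => ?_)
  induction ω using QuotientGroup.induction_on with
  | H c =>
    rw [← h.smul_base c, hev, hX0, map_zero, smul_zero]
    rfl

/-- The classes of `M` and of `MI` are independent over the fixed field of the Borel part. -/
theorem ResidualHyp.eq_zero_of_evBase_add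
    {c : h.fieldKF.H → sl2 k} (hc : IsCocycle h.fieldKF.π h.adF c)
    {b : h.fieldKF.H → h.MI} (hb : IsCocycle h.fieldKF.π h.adI b) {X : sl2 k}
    (hX : ∀ g : borelΓ rb, c (h.inH (g : Γ)) + h.evBase b g =
      adGL (rbGL rb (g : Γ)) X - X) :
    (∀ n : h.fieldKF.H, h.fieldKF.π n = 1 → b n = 0) ∧
      ∃ Y : sl2 k, c = cobd h.fieldKF.π h.adF Y := by
  set π := h.fieldKF.π
  let A : h.fieldKF.H → sl2 k →ₗ[k] sl2 k := fun g => adGL (h.rbF (π g))
  have hA : ∀ g g' Z, A (g * g') Z = A g (A g' Z) := fun g g' Z => by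
    simp [A, Module.End.mul_apply]
  -- the sum of the two classes as functions on the cosets
  let e : h.fieldKF.H → h.Omega → sl2 k := fun g ω => c g + (b g : h.Omega → sl2 k) ω
  have he : ∀ g g' ω, e (g * g') ω = e g ω + A g (e g' ((π g)⁻¹ • ω)) := fun g g' ω => by
    simp only [e]
    rw [hc g g', hb g g', Submodule.coe_add, Pi.add_apply, h.coe_adI, map_add]
    show c g + A g (c g') + _ = _
    abel
  have hbase : ∀ g, π g ∈ h.borelF → e g (QuotientGroup.mk 1) = A g X - X := fun g hg => by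
    have hgB : (g : Γ) ∈ borelΓ rb := by
      have hg' : h.rbF (π g) ∈ borelGL k := hg
      rwa [h.rbF_π] at hg'
    have h1 := hX ⟨g, hgB⟩
    rw [← h.rbF_π g] at h1
    exact h1
  let s : h.fieldKF.C → h.fieldKF.H := Function.surjInv h.fieldKF.π_surj
  have hs : ∀ a, π (s a) = a := Function.surjInv_eq h.fieldKF.π_surj
  let Y : h.Omega → sl2 k := fun ω => A (s ω.out) X - e (s ω.out) ω
  have hY : ∀ g, Y (QuotientGroup.mk (π g)) = A g X - e g (QuotientGroup.mk (π g)) := fun g => by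
    set ω : h.Omega := QuotientGroup.mk (π g) with hω
    set g₁ := s ω.out with hg₁
    have hmem : π (g₁⁻¹ * g) ∈ h.borelF := by
      rw [map_mul, map_inv, hg₁, hs]
      exact QuotientGroup.eq.mp (QuotientGroup.out_eq' ω)
    have h1 : g = g₁ * (g₁⁻¹ * g) := (mul_inv_cancel_left _ _).symm
    have hωe : (π g₁)⁻¹ • ω = QuotientGroup.mk 1 := by
      rw [inv_smul_eq_iff, h.smul_base, hg₁, hs, QuotientGroup.out_eq']
    show A g₁ X - e g₁ ω = _
    conv_rhs => rw [h1]
    rw [he, hωe, hbase _ hmem, map_sub, hA]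
    abel
  have he' : ∀ g ω, e g ω = A g (Y ((π g)⁻¹ • ω)) - Y ω := fun g ω => by
    obtain ⟨a, ha⟩ := QuotientGroup.mk_surjective ((π g)⁻¹ • ω)
    obtain ⟨g', rfl⟩ := h.fieldKF.π_surj a
    have hω : ω = QuotientGroup.mk (π (g * g')) := by
      rw [inv_smul_eq_iff.mp ha.symm, map_mul]
      rfl
    rw [← ha, hY, hω, hY, he, hA, map_sub]
    have : (π g)⁻¹ • (QuotientGroup.mk (π (g * g')) : h.Omega) = QuotientGroup.mk (π g') := by
      rw [← hω, ← ha]
    rw [this]
    abel
  have hsum : ∀ g, (Fintype.card h.Omega : k) • c g =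
      A g (∑ ω, Y ω) - ∑ ω, Y ω := fun g => by
    have h1 : ∑ ω, e g ω = (Fintype.card h.Omega : k) • c g := by
      simp only [e, Finset.sum_add_distrib, Finset.sum_const, Finset.card_univ,
        h.mem_MI.mp (b g).2, add_zero, Nat.cast_smul_eq_nsmul]
    rw [← h1, Finset.sum_congr rfl fun ω _ => he' g ω, Finset.sum_sub_distrib, ← map_sum]
    exact congrArg (fun Z => A g Z - ∑ ω, Y ω)
      (Fintype.sum_equiv (MulAction.toPerm (π g)⁻¹) _ _ fun _ => rfl)
  have hcY : ∀ g, c g = A g ((Fintype.card h.Omega : k)⁻¹ • ∑ ω, Y ω) -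
      (Fintype.card h.Omega : k)⁻¹ • ∑ ω, Y ω := fun g => by
    have h1 := congrArg (fun Z => (Fintype.card h.Omega : k)⁻¹ • Z) (hsum g)
    simp only [smul_smul, inv_mul_cancel₀ (h.card_Omega_ne_zero hu), one_smul] at h1
    rw [map_smul]
    exact h1.trans (smul_sub _ _ _)
  refine ⟨fun n hn => Subtype.ext (funext fun ω => ?_), _, funext hcY⟩
  have hAn : ∀ Z, A n Z = Z := fun Z => by
    show adGL (h.rbF (π n)) Z = Z
    rw [hn, map_one, map_one]
    rfl
  have h1 := he' n ω
  have h2 := hcY n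
  rw [hn, inv_one, one_smul, hAn, sub_self] at h1
  rw [hAn, sub_self] at h2
  simpa [e, h2] using h1

end Unip

end FLTAgent.TW
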