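import Fermat.Agent.TW.Mono.Perm
import Fermat.Agent.TW.Restrict
import Fermat.Agent.TW.TWPrimes
import Fermat.Agent.TW.EqFunTools
import Fermat.Agent.TW.SelmerCount
import Fermat.Agent.TW.LocSum
import Fermat.Agent.TW.Counts.Units
import Fermat.Agent.TW.Counts.Local
import Mathlib.FieldTheory.Galois.Infinite

/-!
# Counts over the diagonal field and for the permutation module
-/

set_option autoImplicit false
set_option linter.unusedSectionVars false
set_option synthInstance.maxHeartbeats 200000

open IsDedekindDomain NumberField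
open scoped Pointwise Classical

noncomputable section

namespace FLTAgent.TW

open FLTAgent.Deformation

/-- Subadditivity over a family of stable sets. -/
theorem finrank_eqFunOn_le_sum {k : Type} [Field k] {C : Type} [Group C] [Fintype C] {W : Type}
    [AddCommGroup W] [Module k W] [Finite W] [Module.Finite k W] {X : Type} [MulAction C X]
    (ρ : Representation k C W) {α : Type} (s : Finset α) (V : α → Set X)
    (hV : ∀ a ∈ s, ∀ (c : C), ∀ x ∈ V a, c • x ∈ V a) (hfin : ∀ a ∈ s, (V a).Finite)
    {U : Set X} (hU : U ⊆ ⋃ a ∈ s, V a) :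
    Module.finrank k (eqFunOn ρ U) ≤ ∑ a ∈ s, Module.finrank k (eqFunOn ρ (V a)) := by
  induction s using Finset.induction generalizing U with
  | empty =>
    have : eqFunOn ρ U = ⊥ := eq_bot_iff.mpr fun T hT => by
      rw [Submodule.mem_bot]
      exact funext fun x => (mem_eqFunOn.mp hT).2 x fun hx => by simpa using hU hx
    rw [this, finrank_bot]
    exact Nat.zero_le _
  | insert a s ha ih =>
    rw [Finset.sum_insert ha]
    refine (finrank_eqFunOn_le_add ρ (U₂ := ⋃ b ∈ s, V b) (hV a (Finset.mem_insert_self a s))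
      (hfin a (Finset.mem_insert_self a s))
      (s.finite_toSet.biUnion fun b hb => hfin b (Finset.mem_insert_of_mem hb)) fun x hx => ?_).trans
      (Nat.add_le_add_left (ih (fun b hb => hV b (Finset.mem_insert_of_mem hb))
        (fun b hb => hfin b (Finset.mem_insert_of_mem hb)) (Set.Subset.refl _)) _)
    have := hU hx
    rw [Finset.set_biUnion_insert] at this
    exact this

section generic

variable {p : ℕ} [Fact p.Prime] (S : KField p) {k : Type} [Field k] [Algebra (ZMod p) k]
variable {W : Type} [AddCommGroup W] [Module k W] [Module (ZMod p) W] [IsScalarTower (ZMod p) k W]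
  [Finite W]

/-- The units bound the equivariant homomorphisms from below. -/
theorem KField.cnt_units_le_finrank_eqHom {ρ : Representation k S.C W} (hρ : IsRelProj ρ)
    (T : Finset (Ext.Place S.K)) (hT : S.IsStable (T : Set (Ext.Place S.K)))
    (hp : ∀ v : Ext.Place S.K, (p : 𝓞 S.K) ∈ v.asIdeal → v ∈ (T : Set (Ext.Place S.K))) :
    cnt ρ (modPRep p (KField.unitsTAct hT)) ≤
      Module.finrank k (S.eqHom ρ (T : Set (Ext.Place S.K))) := by
  rw [KField.finrank_eqHom hT hp]
  have h1 : ∀ c a, KField.unitsToXT _ (modPRep p (KField.unitsTAct hT) c a) =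
      KField.xtRep hT c (KField.unitsToXT _ a) := fun c a => by
    obtain ⟨b, rfl⟩ := toModP_surjective p a
    rfl
  have : Finite (ModP p (S.unitsT (T : Set (Ext.Place S.K)))) := (xiFin_of_fg (p := p)).1
  rw [cnt_eq_cntRange_add hρ (KField.unitsToXT _) (KField.clMap _) h1
    (KField.clMap_equivariant hT) (KField.exact_unitsToXT_clMap _),
    cntRange_of_injective hρ _ h1 (KField.unitsToXT_injective _)]
  exact Nat.le_add_right _ _

/-- The count at all places over a set of primes containing `p`. -/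
theorem KField.cnt_locK_eq_sum {ρ : Representation k S.C W} (hρ : IsRelProj ρ) {P : Finset ℕ}
    (hP : ∀ l ∈ P, l.Prime) (hp : p ∈ P) {d : ℕ}
    (hd : Module.finrank ℚ S.K * Module.finrank k W = Fintype.card S.C * d) :
    cnt ρ (KField.locRep (S.placesOver_stable P)) =
      ∑ l ∈ P, (Module.finrank k (eqFunOn ρ (S.placesOver {l} : Set (Ext.Place S.K))) +
        Module.finrank k (eqFunOn (twistRep S.eps ρ)
          (S.placesOver {l} : Set (Ext.Place S.K)))) + d := by
  rw [S.cnt_locK_finset hρ P hP, ← Finset.add_sum_erase _ _ hp, ← Finset.add_sum_erase _ _ hp,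
    Finset.sum_congr rfl fun l hl => S.cnt_locK_ne hρ (hP l (Finset.mem_of_mem_erase hl))
      (Finset.ne_of_mem_erase hl)]
  have h := S.cnt_locK_p hρ
  rw [hd, ← Nat.mul_add, ← Nat.mul_add] at h
  rw [Nat.eq_of_mul_eq_mul_left Fintype.card_pos h]
  unfold eqFunOn
  omega

end generic

variable {k : Type} [Field k] [Finite k] {p : ℕ} [hpf : Fact p.Prime] [CharP k p]
  [Algebra (ZMod p) k]
variable {rb : Gal →* Mat k} {Smin : Finset ℕ} (h : ResidualHyp p rb Smin)

theorem ResidualHyp.toMono_surjective : Function.Surjective h.toMono := fun c => by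
  obtain ⟨g, rfl⟩ := h.monoKF.π_surj c
  exact ⟨⟨_, h.mem_borelF' g.2⟩, h.toMono_π g⟩

theorem ResidualHyp.ker_toMono : h.toMono.ker = h.unipF.subgroupOf h.borelF := by
  ext b
  obtain ⟨g, hg⟩ := h.fieldKF.π_surj (b : h.fieldKF.C)
  have hgB : (g : Γ) ∈ borelΓ rb := by
    show rbGL rb (g : Γ) ∈ borelGL k
    rw [← h.rbF_π, hg]; exact b.2
  have hb : b = ⟨h.fieldKF.π (h.inH (g : Γ)), h.mem_borelF' hgB⟩ := Subtype.ext hg.symm
  rw [hb, MonoidHom.mem_ker, h.toMono_π ⟨(g : Γ), hgB⟩, h.monoKF.π_ker, h.mem_monoKF_fixing,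
    Subgroup.mem_subgroupOf, h.mem_unipF, h.rbF_π]
  exact ⟨fun H => ⟨⟨g, rfl⟩, H⟩, fun H => H.2⟩

/-- The degree of the diagonal field. -/
theorem ResidualHyp.finrank_monoKF :
    Module.finrank ℚ h.monoKF.K = Fintype.card h.monoKF.C * Fintype.card h.Omega := by
  have : IsGalois ℚ Qb := inferInstance
  have hcomap : h.monoKF.K.fixingSubgroup =
      h.unipF.comap (h.fieldKF.π.comp (MonoidHom.mk' h.inH fun a b => rfl)) := by
    ext g
    rw [h.mem_monoKF_fixing, Subgroup.mem_comap, h.mem_unipF]
    show _ ↔ h.rbF (h.fieldKF.π (h.inH g)) ∈ _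
    rw [h.rbF_π]
    exact ⟨fun H => ⟨⟨g, rfl⟩, H⟩, fun H => H.2⟩
  rw [IntermediateField.finrank_eq_fixingSubgroup_index, hcomap,
    Subgroup.index_comap_of_surjective _ fun c => by
      obtain ⟨g, rfl⟩ := h.fieldKF.π_surj c
      exact ⟨(g : Γ), rfl⟩,
    ← Subgroup.relIndex_mul_index h.unipF_le_borelF]
  congr 1
  · rw [Subgroup.relIndex, ← h.ker_toMono, Subgroup.index_ker,
      MonoidHom.range_eq_top.mpr h.toMono_surjective, Subgroup.card_top, Nat.card_eq_fintype_card]
  · rw [Subgroup.index_eq_card, Nat.card_eq_fintype_card]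

/-- The dimension of `MI`. -/
theorem ResidualHyp.finrank_MI : Module.finrank k h.MI + 3 = 3 * Fintype.card h.Omega := by
  have h1 := LinearMap.finrank_range_add_finrank_ker
    (V := h.Omega → sl2 k) (∑ ω : h.Omega, LinearMap.proj (R := k) (φ := fun _ => ↥(sl2 k)) ω)
  rw [LinearMap.range_eq_top.mpr fun X => ⟨Pi.single (QuotientGroup.mk 1) X, by
      rw [LinearMap.sum_apply]
      simp only [LinearMap.proj_apply]
      exact Finset.sum_pi_single' (QuotientGroup.mk 1) X Finset.univ |>.trans
        (if_pos (Finset.mem_univ _))⟩,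
    finrank_top, finrank_sl2, Module.finrank_pi_fintype, Finset.sum_const, Finset.card_univ,
    finrank_sl2, smul_eq_mul] at h1
  unfold ResidualHyp.MI
  omega

/-- The local count over the diagonal field. -/
theorem ResidualHyp.cnt_locK_mono (j : Fin 3) :
    cnt (h.rhoX j) (KField.locRep (h.monoKF.placesOver_stable Smin)) =
      ∑ l ∈ Smin, (Module.finrank k (eqFunOn (h.rhoX j)
          (h.monoKF.placesOver {l} : Set (Ext.Place h.monoKF.K))) +
        Module.finrank k (eqFunOn (h.adX j)
          (h.monoKF.placesOver {l} : Set (Ext.Place h.monoKF.K)))) + Fintype.card h.Omega := by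
  rw [h.monoKF.cnt_locK_eq_sum (ρ := h.rhoX j) (h.isRelProj_chRep _) h.prime h.mem_p
    (d := Fintype.card h.Omega) (by rw [h.finrank_monoKF, Module.finrank_self, mul_one]),
    h.twist_rhoX]

/-- The local count for the permutation module. -/
theorem ResidualHyp.cnt_locK_rhoI (hu : ∃ u ∈ unipPart (imageGL rb), u ≠ 1) :
    cnt (W := h.MI) h.rhoI (KField.locRep (h.fieldKF.placesOver_stable Smin)) =
      ∑ l ∈ Smin, (Module.finrank k (eqFunOn (W := h.MI) h.rhoI
          (h.fieldKF.placesOver {l} : Set (Ext.Place h.fieldKF.K))) +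
        Module.finrank k (eqFunOn (W := h.MI) h.adI
          (h.fieldKF.placesOver {l} : Set (Ext.Place h.fieldKF.K)))) + Module.finrank k h.MI := by
  have hcard : Module.finrank ℚ h.fieldKF.K = Fintype.card h.fieldKF.C := by
    have : Normal ℚ h.fieldKF.K := h.normal_fieldKF
    have : IsGalois ℚ h.fieldKF.K := ⟨⟩
    rw [← IsGalois.card_aut_eq_finrank ℚ h.fieldKF.K, ← Nat.card_eq_fintype_card]
    rfl
  rw [h.fieldKF.cnt_locK_eq_sum (W := h.MI) (ρ := h.rhoI) (h.isRelProj_rhoI hu) h.prime h.mem_p
    (d := Module.finrank k h.MI) (by rw [hcard]), h.twist_rhoI]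

end FLTAgent.TW
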