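import Fermat.Agent.TW.Mono.Perm
import Fermat.Agent.TW.EqFunTools
import Fermat.Agent.TW.TWPrimes
import Fermat.Agent.TW.Local.Generation

/-!
# The graded pieces at infinity, at the Taylor–Wiles primes and at the auxiliary primes
-/

set_option autoImplicit false
set_option linter.unusedSectionVars false

open IsDedekindDomain NumberField
open scoped Pointwise

noncomputable section

namespace FLTAgent.TW

open FLTAgent.Deformation FLTAgent.Frobenius

open scoped Classical

variable {k : Type} [Field k] [Finite k] {p : ℕ} [hpf : Fact p.Prime] [CharP k p]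
  [Algebra (ZMod p) k]
variable {rb : Gal →* Mat k} {Smin : Finset ℕ} (h : ResidualHyp p rb Smin)

/-- The inclusion of the diagonal field into the kernel field. -/
def ResidualHyp.inclMono : h.monoKF.K →+* h.fieldKF.K :=
  (IntermediateField.inclusion h.monoKF_K_le).toRingHom

theorem ResidualHyp.coe_inclMono (x : h.monoKF.K) :
    ((h.inclMono x : h.fieldKF.K) : Qb) = (x : Qb) := rfl

/-- A weight for a finite stabiliser of order prime to `p`. -/
theorem ResidualHyp.exists_weight_const (D : Subgroup h.fieldKF.C)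
    (hD : (Fintype.card D : k) ≠ 0) :
    ∀ ω ∈ (Set.univ : Set h.Omega),
      ∑ d : D, (fun _ : h.Omega => (Fintype.card D : k)⁻¹) ((d : h.fieldKF.C)⁻¹ • ω) = 1 :=
  fun ω _ => by
    rw [Finset.sum_const, Finset.card_univ, nsmul_eq_mul, mul_inv_cancel₀ hD]

section infinite

theorem ResidualHyp.exists_smul_infinitePlace (w w' : InfinitePlace h.fieldKF.K) :
    ∃ c : h.fieldKF.C, c • w = w' := by
  have : Normal ℚ h.fieldKF.K := h.normal_fieldKF
  have : IsGalois ℚ h.fieldKF.K := ⟨⟩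
  obtain ⟨σ, hσ⟩ := InfinitePlace.exists_smul_eq_of_comap_eq (k := ℚ) (w := w) (w' := w')
    (Subsingleton.elim _ _)
  obtain ⟨g, hg⟩ := AlgEquiv.restrictNormalHom_surjective (F := ℚ) (K₁ := h.fieldKF.K) Qb σ
  refine ⟨h.fieldKF.π (h.inH g), ?_⟩
  rw [← hσ]
  refine Subtype.ext (AbsoluteValue.ext fun x => ?_)
  show w ((h.fieldKF.act (h.fieldKF.π (h.inH g))).symm x) = w (σ.symm x)
  congr 1
  apply (h.fieldKF.act (h.fieldKF.π (h.inH g))).injective
  rw [RingEquiv.apply_symm_apply]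
  refine (Subtype.ext ?_).symm
  rw [h.fieldKF.coe_act_π]
  show g ((σ.symm x : h.fieldKF.K) : Qb) = (x : Qb)
  rw [apply_coe_eq h.fieldKF.K g]
  show ((AlgEquiv.restrictNormalHom h.fieldKF.K g (σ.symm x) : h.fieldKF.K) : Qb) = _
  rw [hg, AlgEquiv.apply_symm_apply]

theorem ResidualHyp.finrank_eqFun_infinite_eq {W : Type} [AddCommGroup W] [Module k W] [Finite W]
    (ρ : Representation k h.fieldKF.C W) (w : InfinitePlace h.fieldKF.K) :
    Module.finrank k (eqFun ρ (InfinitePlace h.fieldKF.K)) =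
      Module.finrank k (fixedBy' ρ (MulAction.stabilizer h.fieldKF.C w : Set h.fieldKF.C)) := by
  rw [← eqFunOn_univ, finrank_eqFunOn_orbit ρ w (Set.mem_univ w) (fun _ _ _ => Set.mem_univ _)
    (fun w' _ => h.exists_smul_infinitePlace w w')]

theorem ResidualHyp.card_stabilizer_infinite_ne_zero (hp : p ≠ 2)
    (w : InfinitePlace h.fieldKF.K) :
    (Fintype.card (MulAction.stabilizer h.fieldKF.C w) : k) ≠ 0 := by
  have : Normal ℚ h.fieldKF.K := h.normal_fieldKF
  have : IsGalois ℚ h.fieldKF.K := ⟨⟩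
  have hle : Fintype.card (MulAction.stabilizer h.fieldKF.C w) =
      Nat.card (MulAction.stabilizer (h.fieldKF.K ≃ₐ[ℚ] h.fieldKF.K) w) := by
    rw [← Nat.card_eq_fintype_card]
    refine Nat.card_congr (Equiv.subtypeEquiv
      (⟨fun c => c, h.toC, fun _ => rfl, fun _ => rfl⟩ :
        h.fieldKF.C ≃ (h.fieldKF.K ≃ₐ[ℚ] h.fieldKF.K)) fun c => ?_)
    obtain ⟨g, rfl⟩ := h.fieldKF.π_surj c
    refine Eq.congr ?_ rfl
    refine Subtype.ext (AbsoluteValue.ext fun x => congrArg w ?_)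
    show (h.fieldKF.act (h.fieldKF.π g)).symm x = (KField.resTo h.fieldKF.K (g : Γ)).symm x
    apply (h.fieldKF.act (h.fieldKF.π g)).injective
    rw [RingEquiv.apply_symm_apply]
    refine Subtype.ext ?_
    rw [h.fieldKF.coe_act_π]
    set y := (KField.resTo h.fieldKF.K (g : Γ)).symm x
    show (x : Qb) = (g : Γ) (y : Qb)
    rw [apply_coe_eq h.fieldKF.K (g : Γ) y]
    exact congrArg Subtype.val ((KField.resTo h.fieldKF.K (g : Γ)).apply_symm_apply x).symm
  rw [hle]
  rcases InfinitePlace.nat_card_stabilizer_eq_one_or_two ℚ w with h1 | h1 <;> rw [h1]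
  · simp
  · exact_mod_cast two_ne_zero_of_charP (k := k) hp

/-- The graded pieces at infinity. -/
theorem ResidualHyp.sum_piece_infinite_le (hp : p ≠ 2) :
    ∑ j : Fin 3, Module.finrank k (eqFun (h.rhoX j) (InfinitePlace h.monoKF.K)) ≤
      2 + Module.finrank k (eqFun (W := h.MI) h.rhoI (InfinitePlace h.fieldKF.K)) := by
  obtain ⟨w⟩ := (inferInstance : Nonempty (InfinitePlace h.fieldKF.K))
  let v : h.fieldKF.C → InfinitePlace h.monoKF.K := fun x => (x • w).comap h.inclMono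
  have hvb : ∀ (b : h.borelF) (x : h.fieldKF.C),
      v ((b : h.fieldKF.C) * x) = h.toMono b • v x := fun b x => by
    obtain ⟨g, hg⟩ := h.fieldKF.π_surj (b : h.fieldKF.C)
    have hgB : (g : Γ) ∈ borelΓ rb := by
      show rbGL rb (g : Γ) ∈ borelGL k
      rw [← h.rbF_π, hg]; exact b.2
    have hb : b = ⟨h.fieldKF.π (h.inH (g : Γ)), h.mem_borelF' hgB⟩ := Subtype.ext hg.symm
    rw [hb, h.toMono_π ⟨(g : Γ), hgB⟩]
    refine Subtype.ext (AbsoluteValue.ext fun y => ?_)
    show (((h.fieldKF.π (h.inH (g : Γ))) * x) • w) (h.inclMono y) =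
      (x • w) (h.inclMono ((h.monoKF.act (h.monoKF.π ⟨(g : Γ), hgB⟩)).symm y))
    rw [mul_smul]
    show (x • w) ((h.fieldKF.act (h.fieldKF.π (h.inH (g : Γ)))).symm (h.inclMono y)) = _
    congr 1
    apply (h.fieldKF.act (h.fieldKF.π (h.inH (g : Γ)))).injective
    rw [RingEquiv.apply_symm_apply]
    refine Subtype.ext ?_
    rw [h.fieldKF.coe_act_π, h.coe_inclMono, h.coe_inclMono]
    set z := (h.monoKF.act (h.monoKF.π ⟨(g : Γ), hgB⟩)).symm y
    show (y : Qb) = (g : Γ) (z : Qb)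
    rw [← h.monoKF.coe_act_π ⟨(g : Γ), hgB⟩ z, RingEquiv.apply_symm_apply]
  have hsum := h.sum_piece_le v (MulAction.stabilizer h.fieldKF.C w) Set.univ
    (fun _ => (Fintype.card (MulAction.stabilizer h.fieldKF.C w) : k)⁻¹) hvb
    (fun x d hd => by
      show ((x * d) • w).comap h.inclMono = (x • w).comap h.inclMono
      rw [mul_smul, MulAction.mem_stabilizer_iff.mp hd])
    (fun _ _ _ _ => Set.mem_univ _)
    (h.exists_weight_const _ (h.card_stabilizer_infinite_ne_zero hp w))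
  have hU : v '' {x | x⁻¹ • h.base ∈ (Set.univ : Set h.Omega)} = Set.univ := by
    refine Set.eq_univ_of_forall fun u => ?_
    let _ : Algebra h.monoKF.K h.fieldKF.K := h.inclMono.toAlgebra
    have : Algebra.IsAlgebraic h.monoKF.K h.fieldKF.K :=
      Algebra.IsAlgebraic.tower_top (K := ℚ) h.monoKF.K
    obtain ⟨w', rfl⟩ := InfinitePlace.comap_surjective (k := h.monoKF.K) (K := h.fieldKF.K) u
    obtain ⟨x, rfl⟩ := h.exists_smul_infinitePlace w w'
    exact ⟨x, Set.mem_univ _, rfl⟩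
  rw [hU] at hsum
  rw [Fin.sum_univ_three, eqFunOn_univ, eqFunOn_univ, eqFunOn_univ] at hsum
  rw [Fin.sum_univ_three]
  have h2 := h.finrank_fixed_rhoΩ_le (MulAction.stabilizer h.fieldKF.C w : Set h.fieldKF.C)
  rw [← h.finrank_eqFun_infinite_eq h.rho w, ← h.finrank_eqFun_infinite_eq (W := h.MI) h.rhoI w]
    at h2
  have h3 := h.finrank_eqFun_infinite_le hp
  omega

end infinite

section finite

variable {B : ValuationSubring Qb} {l : ℕ} (hl : l.Prime) (hB : B.LiesOverPrime l)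

/-- The place of the diagonal field below the translate of a place by `x`. -/
def ResidualHyp.placeV (x : h.fieldKF.C) : Ext.Place h.monoKF.K :=
  placeIn h.monoKF.K
    (((Function.surjInv h.fieldKF.π_surj x : h.fieldKF.H) : Γ) • B) hl (liesOverPrime_smul hB _)

theorem ResidualHyp.placeV_π (g : Γ) :
    h.placeV hl hB (h.fieldKF.π (h.inH g)) =
      placeIn h.monoKF.K (g • B) hl (liesOverPrime_smul hB g) := by
  set s : Γ := ((Function.surjInv h.fieldKF.π_surj (h.fieldKF.π (h.inH g)) : h.fieldKF.H) : Γ)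
  have hτ : s * g⁻¹ ∈ h.fieldKF.K.fixingSubgroup := by
    refine (h.fieldKF.π_ker (Function.surjInv h.fieldKF.π_surj (h.fieldKF.π (h.inH g)) *
      (h.inH g)⁻¹)).mp ?_
    rw [map_mul, map_inv, Function.surjInv_eq h.fieldKF.π_surj, mul_inv_cancel]
  have h1 := placeIn_smul_fix (K := h.monoKF.K) (A := g • B) (hl := hl)
    (hA := liesOverPrime_smul hB g) (h.fieldKF_fixing_le hτ)
  refine Eq.trans ?_ h1
  refine HeightOneSpectrum.ext ?_
  show centreIn h.monoKF.K (s • B) = centreIn h.monoKF.K ((s * g⁻¹) • g • B)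
  rw [← mul_smul, inv_mul_cancel_right]

theorem ResidualHyp.placeV_borel (b : h.borelF) (x : h.fieldKF.C) :
    h.placeV hl hB ((b : h.fieldKF.C) * x) = h.toMono b • h.placeV hl hB x := by
  obtain ⟨g, hg⟩ := h.fieldKF.π_surj (b : h.fieldKF.C)
  have hgB : (g : Γ) ∈ borelΓ rb := by
    show rbGL rb (g : Γ) ∈ borelGL k
    rw [← h.rbF_π, hg]; exact b.2
  obtain ⟨y, rfl⟩ := h.fieldKF.π_surj x
  have hb : b = ⟨h.fieldKF.π (h.inH (g : Γ)), h.mem_borelF' hgB⟩ := Subtype.ext hg.symm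
  rw [hb, h.toMono_π ⟨(g : Γ), hgB⟩]
  show h.placeV hl hB (h.fieldKF.π (h.inH (g : Γ)) * h.fieldKF.π (h.inH (y : Γ))) =
    h.monoKF.π ⟨(g : Γ), hgB⟩ • h.placeV hl hB (h.fieldKF.π (h.inH (y : Γ)))
  rw [← map_mul, show h.inH (g : Γ) * h.inH (y : Γ) = h.inH ((g : Γ) * (y : Γ)) from rfl,
    h.placeV_π hl hB, h.placeV_π hl hB, ← h.monoKF.placeIn_smul_π ⟨(g : Γ), hgB⟩ hl]
  refine HeightOneSpectrum.ext ?_
  show centreIn h.monoKF.K (((g : Γ) * (y : Γ)) • B) = centreIn h.monoKF.K ((g : Γ) • (y : Γ) • B)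
  rw [mul_smul]

theorem ResidualHyp.placeV_stabilizer (x : h.fieldKF.C) {d : h.fieldKF.C}
    (hd : d ∈ MulAction.stabilizer h.fieldKF.C (placeIn h.fieldKF.K B hl hB)) :
    h.placeV hl hB (x * d) = h.placeV hl hB x := by
  obtain ⟨g, hg, rfl⟩ := h.exists_decomposition_of_stabilizer hl hB hd
  obtain ⟨y, rfl⟩ := h.fieldKF.π_surj x
  show h.placeV hl hB (h.fieldKF.π (h.inH (y : Γ)) * h.fieldKF.π (h.inH g)) =
    h.placeV hl hB (h.fieldKF.π (h.inH (y : Γ)))
  rw [← map_mul, show h.inH (y : Γ) * h.inH g = h.inH ((y : Γ) * g) from rfl, h.placeV_π hl hB,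
    h.placeV_π hl hB]
  refine HeightOneSpectrum.ext ?_
  show centreIn h.monoKF.K (((y : Γ) * g) • B) = centreIn h.monoKF.K ((y : Γ) • B)
  rw [mul_smul, MulAction.mem_stabilizer_iff.mp hg]

theorem ResidualHyp.exists_placeV {v : Ext.Place h.monoKF.K}
    (hv : v ∈ h.monoKF.placesOver {l}) : ∃ x, h.placeV hl hB x = v := by
  obtain ⟨q, hq, -, hqv⟩ := h.monoKF.mem_placesOver.mp hv
  rw [Finset.mem_singleton] at hq
  subst hq
  obtain ⟨B', hB', rfl⟩ := exists_placeIn h.monoKF.K v hl hqv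
  obtain ⟨g, rfl⟩ := exists_smul_eq hl hB hB'
  exact ⟨h.fieldKF.π (h.inH g), h.placeV_π hl hB g⟩

/-- The stabiliser at an unramified place is generated by a Frobenius. -/
theorem ResidualHyp.mem_zpowers_frobenius (hlS : l ∉ Smin) {φ : Γ} (hφ : B.IsFrobeniusAt φ l)
    {d : h.fieldKF.C}
    (hd : d ∈ MulAction.stabilizer h.fieldKF.C (placeIn h.fieldKF.K B hl hB)) :
    d ∈ Subgroup.zpowers (h.fieldKF.π (h.inH φ)) := by
  obtain ⟨g, hg, rfl⟩ := h.exists_decomposition_of_stabilizer hl hB hd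
  have : Normal ℚ h.fieldKF.K := h.normal_fieldKF
  obtain ⟨n, ι, hι, hgι⟩ := Local.exists_frobenius_pow_mul hl hB hφ h.fieldKF.K hg
  have h1 : h.fieldKF.π (h.inH ι) = 1 :=
    (h.fieldKF.π_ker _).mpr (h.mem_kerField.mpr (h.unramified l hl hlS B hB ι hι))
  have h2 : h.fieldKF.π (h.inH g) = h.fieldKF.π (h.inH (φ ^ n * ι)) := by
    rw [← h.resTo_eq, ← h.resTo_eq]
    refine congrArg h.toC (AlgEquiv.ext fun x => Subtype.ext ?_)
    show ((AlgEquiv.restrictNormalHom h.fieldKF.K g x : h.fieldKF.K) : Qb) =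
      ((AlgEquiv.restrictNormalHom h.fieldKF.K (φ ^ n * ι) x : h.fieldKF.K) : Qb)
    rw [← apply_coe_eq h.fieldKF.K g x, ← apply_coe_eq h.fieldKF.K (φ ^ n * ι) x]
    exact hgι _ x.2
  rw [h2, show h.inH (φ ^ n * ι) = h.inH φ ^ n * h.inH ι from Subtype.ext (by simp), map_mul, h1,
    mul_one, map_pow]
  exact pow_mem (Subgroup.mem_zpowers _) n

theorem ResidualHyp.frobenius_mem_stabilizer {φ : Γ} (hφ : B.IsFrobeniusAt φ l) :
    h.fieldKF.π (h.inH φ) ∈
      MulAction.stabilizer h.fieldKF.C (placeIn h.fieldKF.K B hl hB) :=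
  h.smul_placeIn_of_decomposition hl hB hφ.mem_decompositionSubgroup

include hl hB in
/-- The graded pieces at a Taylor–Wiles prime. -/
theorem ResidualHyp.sum_piece_tw_le (hp : p ≠ 2) (hlS : l ∉ Smin) {φ : Γ}
    (hφ : B.IsFrobeniusAt φ l) (hP : h.IsTW (h.fieldKF.π (h.inH φ))) (hdet : (rb φ).det = 1) :
    ∑ j : Fin 3, Module.finrank k
        (eqFunOn (h.rhoX j) (h.monoKF.placesOver {l} : Set (Ext.Place h.monoKF.K))) ≤
      1 + Module.finrank k
        (eqFunOn (W := h.MI) h.rhoI (h.fieldKF.placesOver {l} : Set (Ext.Place h.fieldKF.K))) := by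
  set D := MulAction.stabilizer h.fieldKF.C (placeIn h.fieldKF.K B hl hB)
  set u := h.fieldKF.π (h.inH φ)
  have hu2 : h.rbF (u * u) = -1 := Units.ext (by
    rw [map_mul, Units.val_mul, Units.val_neg, Units.val_one]; exact hP)
  have hu4 : u ^ 4 = 1 := h.rbF_injective (by
    rw [map_one, show (4 : ℕ) = 2 * 2 from rfl, pow_mul, map_pow, pow_two, pow_two, hu2,
      neg_one_mul, neg_neg])
  have hle : D ≤ Subgroup.zpowers u := fun d hd => h.mem_zpowers_frobenius hl hB hlS hφ hd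
  have hcard : (Fintype.card D : k) ≠ 0 := by
    have h1 : Fintype.card D ∣ 4 := by
      rw [← Nat.card_eq_fintype_card]
      refine (Subgroup.card_dvd_of_le hle).trans ?_
      rw [Nat.card_zpowers]
      exact orderOf_dvd_of_pow_eq_one hu4
    obtain ⟨m, hm⟩ := h1
    intro h0
    have h4 : ((4 : ℕ) : k) = 0 := by rw [hm, Nat.cast_mul, h0, zero_mul]
    have h4' : (2 : k) * 2 = 0 := by rw [← h4]; norm_num
    exact mul_ne_zero (two_ne_zero_of_charP (k := k) hp) (two_ne_zero_of_charP (k := k) hp) h4'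
  have hsum := h.sum_piece_le (h.placeV hl hB) D Set.univ
    (fun _ => (Fintype.card D : k)⁻¹) (h.placeV_borel hl hB)
    (fun x d hd => h.placeV_stabilizer hl hB x hd) (fun _ _ _ _ => Set.mem_univ _)
    (h.exists_weight_const D hcard)
  have hU : ∀ j, Module.finrank k
      (eqFunOn (h.rhoX j) (h.monoKF.placesOver {l} : Set (Ext.Place h.monoKF.K))) ≤
      Module.finrank k (eqFunOn (h.rhoX j)
        (h.placeV hl hB '' {x | x⁻¹ • h.base ∈ (Set.univ : Set h.Omega)})) := fun j =>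
    finrank_eqFunOn_mono _ ((Set.toFinite _).image _) fun v hv => by
      obtain ⟨x, hx⟩ := h.exists_placeV hl hB hv
      exact ⟨x, Set.mem_univ _, hx⟩
  have h2 := h.finrank_fixed_rhoΩ_le (D : Set h.fieldKF.C)
  rw [← h.finrank_eqFunOn_over hl hB h.rho, ← h.finrank_eqFunOn_over hl hB (W := h.MI) h.rhoI]
    at h2
  have h3 := h.finrank_eqFunOn_tw_le hp hl hB hφ hP hdet
  exact ((Finset.sum_le_sum fun j _ => hU j).trans hsum).trans
    (h2.trans (Nat.add_le_add_right h3 _))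

/-- The orbit of the distinguished place over an auxiliary prime. -/
def ResidualHyp.auxOrbit : Set (Ext.Place h.monoKF.K) :=
  MulAction.orbit h.monoKF.C (placeIn h.monoKF.K B hl hB)

include hl hB in
/-- The graded pieces at an auxiliary prime with unipotent Frobenius. -/
theorem ResidualHyp.sum_piece_aux_le (hlS : l ∉ Smin) {φ : Γ} (hφ : B.IsFrobeniusAt φ l)
    (hu : ∃ u ∈ unipPart (imageGL rb), u ≠ 1)
    (h10 : rb φ 1 0 = 0) (h00 : rb φ 0 0 = 1) (h11 : rb φ 1 1 = 1) (h01 : rb φ 0 1 ≠ 0)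
    (hp : p ≠ 2) :
    Module.finrank k (eqFunOn (h.rhoX 0)
        ((h.monoKF.placesOver {l} : Set (Ext.Place h.monoKF.K)) \ h.auxOrbit hl hB)) +
      Module.finrank k (eqFunOn (h.rhoX 1)
        ((h.monoKF.placesOver {l} : Set (Ext.Place h.monoKF.K)) \ h.auxOrbit hl hB)) +
      Module.finrank k
        (eqFunOn (h.rhoX 2) (h.monoKF.placesOver {l} : Set (Ext.Place h.monoKF.K))) ≤
      1 + Module.finrank k
        (eqFunOn (W := h.MI) h.rhoI (h.fieldKF.placesOver {l} : Set (Ext.Place h.fieldKF.K))) := by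
  set D := MulAction.stabilizer h.fieldKF.C (placeIn h.fieldKF.K B hl hB)
  set u := h.fieldKF.π (h.inH φ) with hudef
  have huU : u ∈ h.unipF := by
    rw [h.mem_unipF, hudef, h.rbF_π]
    exact ⟨⟨φ, rfl⟩, h10, h00, h11⟩
  have hDU : D ≤ h.unipF := fun d hd =>
    (Subgroup.zpowers_le.mpr huU) (h.mem_zpowers_frobenius hl hB hlS hφ hd)
  set Ω₁ : Set h.Omega := {ω | ω ≠ h.base}
  have hstab : ∀ d ∈ D, ∀ ω ∈ Ω₁, d • ω ∈ Ω₁ := fun d hd ω hω he => hω (by
    rw [← inv_smul_smul d ω, he]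
    exact h.smul_base_of_mem_borelF (inv_mem (h.unipF_le_borelF (hDU hd))))
  let r : h.Omega → h.Omega := fun ω => (Quotient.mk (MulAction.orbitRel D h.Omega) ω).out
  let w : h.Omega → k := fun ω => if r ω = ω then 1 else 0
  have hw : ∀ ω ∈ Ω₁, ∑ d : D, w ((d : h.fieldKF.C)⁻¹ • ω) = 1 := by
    intro ω hω
    have hr : ∀ d : D, r ((d : h.fieldKF.C)⁻¹ • ω) = r ω := fun d =>
      congrArg Quotient.out (Quotient.sound (MulAction.orbitRel_apply.mpr ⟨d⁻¹, rfl⟩))
    obtain ⟨e, he⟩ : r ω ∈ MulAction.orbit D ω :=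
      MulAction.orbitRel_apply.mp (Quotient.mk_out (s := MulAction.orbitRel D h.Omega) ω)
    have he' : (e : h.fieldKF.C) • ω = r ω := he
    rw [Finset.sum_eq_single e⁻¹]
    · refine if_pos ?_
      rw [hr, Subgroup.coe_inv, inv_inv, he']
    · refine fun d _ hd => if_neg fun hh => hd ?_
      rw [hr, ← he', eq_inv_smul_iff, ← mul_smul] at hh
      by_contra h2
      refine hω (h.eq_base_of_unip_fix hu (c := (d : h.fieldKF.C) * e) (hDU (mul_mem d.2 e.2))
        (fun h3 => h2 (Subtype.ext ?_)) hh)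
      rw [Subgroup.coe_inv]
      exact eq_inv_of_mul_eq_one_left h3
    · exact fun hn => (hn (Finset.mem_univ _)).elim
  have hUfin : (h.placeV hl hB '' {x | x⁻¹ • h.base ∈ Ω₁}).Finite := (Set.toFinite _).image _
  have hsub : (h.monoKF.placesOver {l} : Set (Ext.Place h.monoKF.K)) \ h.auxOrbit hl hB ⊆
      h.placeV hl hB '' {x | x⁻¹ • h.base ∈ Ω₁} := fun v hv => by
    obtain ⟨x, rfl⟩ := h.exists_placeV hl hB hv.1
    refine ⟨x, fun he => hv.2 ?_, rfl⟩
    have hb : x ∈ h.borelF := inv_mem_iff.mp (h.mem_borelF_of_smul_base he)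
    refine ⟨h.toMono ⟨x, hb⟩, ?_⟩
    show h.toMono ⟨x, hb⟩ • placeIn h.monoKF.K B hl hB = h.placeV hl hB x
    have h1 : h.placeV hl hB 1 = placeIn h.monoKF.K B hl hB := by
      rw [← map_one h.fieldKF.π, show (1 : h.fieldKF.H) = h.inH 1 from rfl, h.placeV_π hl hB]
      exact HeightOneSpectrum.ext (by
        show centreIn h.monoKF.K ((1 : Γ) • B) = _
        rw [one_smul]; rfl)
    rw [← h1, ← h.placeV_borel hl hB, mul_one]
  have hfix : ∀ d ∈ D, d ∈ h.borelF ∧ h.rho d (coordVec 2) = coordVec 2 := fun d hd => by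
    refine ⟨h.unipF_le_borelF (hDU hd), ?_⟩
    obtain ⟨-, e10, e00, e11⟩ := hDU hd
    rw [h.rho_of_det_one (by rw [Matrix.det_fin_two, e10, e00, e11]; simp)]
    have he : ((h.rbF d : GL (Fin 2) k) : Mat k) * Matrix.single 0 1 (1 : k) =
        Matrix.single 0 1 (1 : k) * ((h.rbF d : GL (Fin 2) k) : Mat k) := by
      ext i j
      fin_cases i <;> fin_cases j <;> simp [Matrix.mul_apply, Fin.sum_univ_two, e10, e00, e11]
    refine Subtype.ext ?_
    rw [coe_adGL]
    show _ * Matrix.single 0 1 (1 : k) * _ = Matrix.single 0 1 (1 : k)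
    rw [he, mul_assoc, ← Units.val_mul, mul_inv_cancel, Units.val_one, mul_one]
  have hsum := h.sum_piece_succ_le (h.placeV hl hB) D Ω₁ w (h.placeV_borel hl hB)
    (fun x d hd => h.placeV_stabilizer hl hB x hd) hstab hw (fun hb => hb rfl) hfix
  rw [Fin.sum_univ_three] at hsum
  have hN : Module.finrank k
      (eqFunOn (h.rhoX 2) (h.monoKF.placesOver {l} : Set (Ext.Place h.monoKF.K))) ≤
      Module.finrank k (eqFunOn (h.rhoX 2) (h.placeV hl hB '' {x | x⁻¹ • h.base ∈ Ω₁})) + 1 := by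
    have hO : (h.auxOrbit hl hB).Finite := Set.finite_range _
    have hO1 : Module.finrank k (eqFunOn (h.rhoX 2) (h.auxOrbit hl hB)) ≤ 1 := by
      rw [finrank_eqFunOn_orbit (h.rhoX 2) (U := h.auxOrbit hl hB) (placeIn h.monoKF.K B hl hB)
        (MulAction.mem_orbit_self _)
        (fun c y hy => MulAction.mem_orbit_of_mem_orbit c hy) (fun y hy => hy)]
      exact (Submodule.finrank_le _).trans_eq (Module.finrank_self k)
    refine (finrank_eqFunOn_le_add (h.rhoX 2) (U₁ := h.auxOrbit hl hB)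
      (fun c y hy => MulAction.mem_orbit_of_mem_orbit c hy) hO hUfin
      fun v hv => ?_).trans (by omega)
    by_cases hvo : v ∈ h.auxOrbit hl hB
    · exact Or.inl hvo
    · exact Or.inr (hsub ⟨hv, hvo⟩)
  have hC := finrank_eqFunOn_mono (h.rhoX 0) hUfin hsub
  have hT := finrank_eqFunOn_mono (h.rhoX 1) hUfin hsub
  have h2 := h.finrank_fixed_rhoΩ_le (D : Set h.fieldKF.C)
  rw [← h.finrank_eqFunOn_over hl hB h.rho, ← h.finrank_eqFunOn_over hl hB (W := h.MI) h.rhoI]
    at h2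
  have h3 : Module.finrank k
      (eqFunOn h.rho (h.fieldKF.placesOver {l} : Set (Ext.Place h.fieldKF.K))) ≤ 1 := by
    rw [h.finrank_eqFunOn_over hl hB h.rho]
    set N := fixedBy' h.rho (D : Set h.fieldKF.C)
    have hinj : Function.Injective ((coord (k := k) 2).comp N.subtype) := by
      refine (injective_iff_map_eq_zero _).mpr fun X hX => Subtype.ext ?_
      have hfx := X.2 u (h.frobenius_mem_stabilizer hl hB hφ)
      rw [hudef, h.rho_of_det_one (by
        rw [h.coe_rbF_π, Matrix.det_fin_two, h10, h00, h11]; simp), h.rbF_π] at hfx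
      have hm := congrArg (fun Z : sl2 k => (Z : Mat k) * rb φ) hfx
      simp only [coe_adGL] at hm
      rw [mul_assoc, show rb φ = (rbGL rb φ : Mat k) from rfl, ← Units.val_mul, inv_mul_cancel,
        Units.val_one, mul_one] at hm
      have hm' : rb φ * ((X : sl2 k) : Mat k) = ((X : sl2 k) : Mat k) * rb φ := hm
      have e00 := congrFun (congrFun hm' 0) 0
      have e01 := congrFun (congrFun hm' 0) 1
      simp [Matrix.mul_apply, Fin.sum_univ_two, h10, h00, h11, sl2_diag_neg] at e00 e01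
      have c0 : ((X : sl2 k) : Mat k) 1 0 = 0 := e00.resolve_left h01
      have c2 : ((X : sl2 k) : Mat k) 0 1 = 0 := hX
      rw [c2, zero_add, add_zero] at e01
      have c1 : ((X : sl2 k) : Mat k) 0 0 = 0 := by
        have h5 : (2 : k) * ((X : sl2 k) : Mat k) 0 0 * rb φ 0 1 = 0 := by
          linear_combination -e01
        exact (mul_eq_zero.mp ((mul_eq_zero.mp h5).resolve_right h01)).resolve_left
          (two_ne_zero_of_charP (k := k) hp)
      refine sl2_ext fun j => ?_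
      fin_cases j <;> simp [coord_zero_apply, coord_one_apply, coord_two_apply, c0, c1, c2]
    exact (LinearMap.finrank_le_finrank_of_injective hinj).trans_eq (Module.finrank_self k)
  omega

end finite

end FLTAgent.TW
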