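import Fermat.Agent.TW.Mono.Setting
import Fermat.Agent.TW.TWPrimes

/-!
# The choice of primes for the monomial count

The primes kill the ray characters of the twisted adjoint module over the kernel field and those of
the three twisted pieces over the field of the diagonal.  For `p = 3` the third piece needs
auxiliary primes independent of the level, at which Frobenius is a nontrivial unitriangular element.
-/

set_option autoImplicit false
set_option linter.unusedSectionVars false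

open IsDedekindDomain NumberField
open scoped Pointwise

noncomputable section

namespace FLTAgent.TW

open FLTAgent.Deformation FLTAgent.Frobenius

variable {p : ℕ} [hpf : Fact p.Prime]

theorem KField.NoChar.mono {S : KField p} {k : Type} [Field k] [Algebra (ZMod p) k] {W : Type}
    [AddCommGroup W] [Module k W] [Module (ZMod p) W] [IsScalarTower (ZMod p) k W] [Finite W]
    {ρ : Representation k S.C W} {m : Ideal (𝓞 S.K)} {Q Q' : Set (Ext.Place S.K)}
    (hQ : S.NoChar ρ m Q) (hsub : Q ⊆ Q') : S.NoChar ρ m Q' :=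
  fun χ heq hvan => hQ χ heq fun v hv => hvan v (hsub hv)

/-- Ray characters with equal values at a determining set are equal. -/
theorem rayHom_eq_of_determining {K : Type} [Field K] [NumberField K] {m : Ideal (𝓞 K)}
    {Fi : Finset (Ideal (𝓞 K))}
    (hFi : ∀ {V : Type} [AddCommGroup V] (χ : RayHom m V), (∀ I ∈ Fi, χ.toFun I = 0) →
      ∀ I, χ.toFun I = 0)
    {V : Type} [AddCommGroup V] (χ ψ : RayHom m V) (he : ∀ I ∈ Fi, χ.toFun I = ψ.toFun I)
    (I : Ideal (𝓞 K)) : χ.toFun I = ψ.toFun I := by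
  let δ : RayHom m V :=
    { toFun := fun J => χ.toFun J - ψ.toFun J
      map_mul := fun J J' a b c d => by rw [χ.map_mul J J' a b c d, ψ.map_mul J J' a b c d]; abel
      map_ray := fun x a b => by rw [χ.map_ray x a b, ψ.map_ray x a b, sub_zero]
      eq_zero := fun J hJ => by rw [χ.eq_zero J hJ, ψ.eq_zero J hJ, sub_zero] }
  exact sub_eq_zero.mp (hFi δ (fun J hJ => sub_eq_zero.mpr (he J hJ)) I)

variable {k : Type} [Field k] [Finite k] [CharP k p] [Algebra (ZMod p) k]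
variable {rb : Gal →* Mat k} {Smin : Finset ℕ} (h : ResidualHyp p rb Smin)

theorem ResidualHyp.mem_fieldKF_fixing {g : Γ} :
    g ∈ h.fieldKF.K.fixingSubgroup ↔ rbGL rb g = 1 := by
  rw [← h.rbF_π (h.inH g), map_eq_one_iff _ h.rbF_injective]
  exact (h.fieldKF.π_ker (h.inH g)).symm

theorem ResidualHyp.rbGL_mem_unipPart {σ : Γ} (hσ : σ ∈ h.monoKF.K.fixingSubgroup) :
    rbGL rb σ ∈ unipPart (imageGL rb) :=
  ⟨⟨σ, rfl⟩, h.mem_monoKF_fixing.mp hσ⟩

theorem ResidualHyp.exists_lift_unip {u : GL (Fin 2) k} (hu : u ∈ unipPart (imageGL rb)) :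
    ∃ τ : h.monoKF.K.fixingSubgroup, rbGL rb (τ : Γ) = u := by
  obtain ⟨⟨σ, rfl⟩, h1⟩ := hu
  exact ⟨⟨σ, h.mem_monoKF_fixing.mpr h1⟩, rfl⟩

theorem ResidualHyp.pow_mem_fieldKF {σ : Γ} (hσ : σ ∈ h.monoKF.K.fixingSubgroup) :
    σ ^ p ∈ h.fieldKF.K.fixingSubgroup := by
  obtain ⟨x, hx⟩ := (GroupLemma.mem_unipPart_iff.1 (h.rbGL_mem_unipPart hσ)).2
  rw [h.mem_fieldKF_fixing, map_pow, hx, ← AddChar.map_nsmul_eq_pow, nsmul_eq_mul,
    CharP.cast_eq_zero, zero_mul, AddChar.map_zero_eq_one]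

theorem ResidualHyp.comm_mem_fieldKF {σ τ : Γ} (hσ : σ ∈ h.monoKF.K.fixingSubgroup)
    (hτ : τ ∈ h.monoKF.K.fixingSubgroup) : σ * τ * σ⁻¹ * τ⁻¹ ∈ h.fieldKF.K.fixingSubgroup := by
  obtain ⟨x, hx⟩ := (GroupLemma.mem_unipPart_iff.1 (h.rbGL_mem_unipPart hσ)).2
  obtain ⟨y, hy⟩ := (GroupLemma.mem_unipPart_iff.1 (h.rbGL_mem_unipPart hτ)).2
  rw [h.mem_fieldKF_fixing, map_mul, map_mul, map_mul, map_inv, map_inv, hx, hy,
    ← AddChar.map_add_eq_mul, ← AddChar.map_neg_eq_inv, ← AddChar.map_add_eq_mul,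
    ← AddChar.map_neg_eq_inv, ← AddChar.map_add_eq_mul,
    show x + y + -x + -y = 0 by ring, AddChar.map_zero_eq_one]

theorem ResidualHyp.dual_rhoX_apply (j : Fin 3) (c : h.monoKF.C) (x : Module.Dual k k) (v : k) :
    (h.rhoX j).dual c x v = ((h.chR j c : kˣ) : k)⁻¹ * x v := by
  rw [Representation.dual_apply, Module.Dual.transpose_apply, LinearMap.comp_apply,
    ResidualHyp.rhoX, chRep_apply, map_inv, Units.val_inv_eq_inv_val, ← smul_eq_mul, map_smul,
    smul_eq_mul]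

/-- The value by which an element of the Borel part acts on the dual of a twisted piece. -/
theorem ResidualHyp.inv_chR {σ : Γ} (hσ : σ ∈ borelΓ rb) (j : Fin 3) :
    ((h.chR j (h.monoKF.π (h.inB hσ)) : kˣ) : k)⁻¹ =
      (rb σ).det / ((diagChar k j (diagΓ rb ⟨σ, hσ⟩) : kˣ) : k) := by
  have hdet : (rb σ).det = ((diagDet k (diagΓ rb ⟨σ, hσ⟩) : kˣ) : k) := by
    have h10 : rb σ 1 0 = 0 := hσ
    rw [Matrix.det_fin_two, h10, mul_zero, sub_zero]
    rfl
  show ((diagChar k j (diagΓ rb ⟨σ, hσ⟩) / diagDet k (diagΓ rb ⟨σ, hσ⟩) : kˣ) : k)⁻¹ = _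
  rw [Units.val_div_eq_div_val, inv_div, hdet]

section Mono

variable (hp : p ≠ 2) (hu : ∃ u ∈ unipPart (imageGL rb), u ≠ 1)
  (hq : 3 < Nat.card (unipPart (imageGL rb)))

include hp hu hq

/-- An equivariant character vanishing over the kernel field vanishes, unless `p = 3` and the
piece is the upper one. -/
theorem ResidualHyp.eq_zero_of_vanAt_piece {j : Fin 3} (hj : j ≠ 2 ∨ p ≠ 3)
    {m : Ideal (𝓞 h.monoKF.K)} (hm : m ≠ ⊥) (χ : RayHom m (Module.Dual k k))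
    (heq : ∀ (c : h.monoKF.C) (v : Ext.Place h.monoKF.K),
      χ.toFun (c • v).asIdeal = (h.rhoX j).dual c (χ.toFun v.asIdeal))
    (hvan : h.monoKF.VanAt χ h.fieldKF.K) : ∀ I, χ.toFun I = 0 := by
  classical
  have := h.finite_imageGL
  have := h.normal_fieldKF
  refine h.monoKF.eq_zero_of_vanAt (h.monoKF.dualAct (h.rhoX j)) hp h.monoKF_K_le
    (fun σ hσ => h.pow_mem_fieldKF hσ) (fun σ hσ τ hτ => h.comm_mem_fieldKF hσ hτ)
    (fun g hadd hkill heqv => ?_) hm χ heq hvan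
  let f : GL (Fin 2) k → k := fun u =>
    if hx : ∃ τ : h.monoKF.K.fixingSubgroup, rbGL rb (τ : Γ) = u then g hx.choose 1 else 0
  have hf : ∀ τ : h.monoKF.K.fixingSubgroup, f (rbGL rb (τ : Γ)) = g τ 1 := fun τ => by
    have hx : ∃ τ' : h.monoKF.K.fixingSubgroup, rbGL rb (τ' : Γ) = rbGL rb (τ : Γ) := ⟨τ, rfl⟩
    simp only [f, dif_pos hx]
    have hs := hx.choose_spec
    generalize hx.choose = τ' at hs ⊢
    have h0 : g (τ⁻¹ * τ') = 0 := hkill _ (h.mem_fieldKF_fixing.mpr (by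
      rw [Subgroup.coe_mul, Subgroup.coe_inv, map_mul, map_inv, hs, inv_mul_cancel]))
    have h1 := hadd τ (τ⁻¹ * τ')
    rw [mul_inv_cancel_left, h0, add_zero] at h1
    rw [h1]
  have fadd : ∀ u ∈ unipPart (imageGL rb), ∀ v ∈ unipPart (imageGL rb),
      f (u * v) = f u + f v := fun u hu' v hv' => by
    obtain ⟨a, rfl⟩ := h.exists_lift_unip hu'
    obtain ⟨b, rfl⟩ := h.exists_lift_unip hv'
    rw [← map_mul, ← Subgroup.coe_mul, hf, hf, hf, hadd, LinearMap.add_apply]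
  have fconj : ∀ t ∈ borelPart (imageGL rb), ∀ u ∈ unipPart (imageGL rb),
      ∃ σ, ∃ hσ : σ ∈ borelΓ rb, rbGL rb σ = t ∧ f (t * u * t⁻¹) =
        (rb σ).det / ((diagChar k j (diagΓ rb ⟨σ, hσ⟩) : kˣ) : k) * f u := fun t ht u hu' => by
    obtain ⟨⟨σ, rfl⟩, h10⟩ := ht
    obtain ⟨a, rfl⟩ := h.exists_lift_unip hu'
    have hσ : σ ∈ borelΓ rb := h10
    refine ⟨σ, hσ, rfl, ?_⟩
    have e1 := congrArg (fun x : Module.Dual k k => x 1) (heqv (h.inB hσ) a)
    change g _ 1 = (h.rhoX j).dual _ (g a) 1 at e1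
    rw [h.dual_rhoX_apply, h.inv_chR] at e1
    rw [hf a, ← e1, ← map_inv, ← map_mul, ← map_mul]
    exact hf (h.monoKF.conjK (h.inB hσ) a)
  have hval : ∀ {σ : Γ} (hσ : σ ∈ borelΓ rb),
      (((diagΓ rb ⟨σ, hσ⟩).1 : kˣ) : k) = rb σ 0 0 ∧ (((diagΓ rb ⟨σ, hσ⟩).2 : kˣ) : k) = rb σ 1 1 :=
    fun _ => ⟨rfl, rfl⟩
  have hzero : ∀ u ∈ unipPart (imageGL rb), f u = 0 := by
    fin_cases j
    · refine eq_zero_of_equivariant_det_mul p (imageGL rb) hp h.split h.irred h.hasCyclotomicDet hu hq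
        f fadd fun t ht u hu' => ?_
      obtain ⟨σ, hσ, rfl, e⟩ := fconj t ht u hu'
      rw [e]
      show (rb σ).det / ((diagChar k 0 (diagΓ rb ⟨σ, hσ⟩) : kˣ) : k) * _ =
        (rb σ).det * (rb σ 0 0 / rb σ 1 1) * _
      rw [diagChar_zero, Units.val_div_eq_div_val, (hval hσ).1, (hval hσ).2, div_div_eq_mul_div,
        mul_div_assoc]
    · refine eq_zero_of_equivariant_det p (imageGL rb) hp h.split h.irred h.hasCyclotomicDet hu hq
        f fadd fun t ht u hu' => ?_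
      obtain ⟨σ, hσ, rfl, e⟩ := fconj t ht u hu'
      rw [e]
      show (rb σ).det / ((diagChar k 1 (diagΓ rb ⟨σ, hσ⟩) : kˣ) : k) * _ = (rb σ).det * _
      rw [diagChar_one, Units.val_one, div_one]
    · have hp5 : 5 ≤ p := by
        rcases hj with hj | hj
        · exact absurd rfl hj
        · have h2 := hpf.out.two_le
          have h4 : p ≠ 4 := fun e => (by decide : ¬ Nat.Prime 4) (e ▸ hpf.out)
          omega
      refine eq_zero_of_equivariant_det_div p (imageGL rb) hp h.split h.irred h.hasCyclotomicDet hu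
        hp5 hq f fadd fun t ht u hu' => ?_
      obtain ⟨σ, hσ, rfl, e⟩ := fconj t ht u hu'
      rw [e]
      show (rb σ).det / ((diagChar k 2 (diagΓ rb ⟨σ, hσ⟩) : kˣ) : k) * _ =
        (rb σ).det / (rb σ 0 0 / rb σ 1 1) * _
      rw [diagChar_two, Units.val_div_eq_div_val, (hval hσ).1, (hval hσ).2]
  intro τ
  refine LinearMap.ext_ring ?_
  rw [← hf τ, hzero _ (h.rbGL_mem_unipPart τ.2), LinearMap.zero_apply]

/-- An equivariant character vanishing over the kernel field and at all nontrivially unitriangular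
Frobenius places vanishes, so finitely many such places detect it. -/
theorem ResidualHyp.exists_aux_primes (j : Fin 3) (bad : Finset ℕ)
    {m : Ideal (𝓞 h.monoKF.K)} (hm : m ≠ ⊥) :
    ∃ A₀ : Finset ℕ, (∀ a ∈ A₀, a.Prime ∧ a ∉ bad ∧ ∃ (B : ValuationSubring Qb) (φ : Γ),
        B.LiesOverPrime a ∧ B.IsFrobeniusAt φ a ∧ rb φ 1 0 = 0 ∧ rb φ 0 0 = 1 ∧ rb φ 1 1 = 1 ∧
          rb φ 0 1 ≠ 0) ∧
      ∀ χ : RayHom m (Module.Dual k k),
        (∀ (c : h.monoKF.C) (v : Ext.Place h.monoKF.K),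
          χ.toFun (c • v).asIdeal = (h.rhoX j).dual c (χ.toFun v.asIdeal)) →
        (∀ v ∈ (h.monoKF.placesOver A₀ : Set (Ext.Place h.monoKF.K)), χ.toFun v.asIdeal = 0) →
        h.monoKF.VanAt χ h.fieldKF.K → ∀ I, χ.toFun I = 0 := by
  classical
  obtain ⟨Fi, hFi⟩ := RayHom.exists_determining hm
  have : Finite (Module.Dual k k) := Finite.of_injective _ DFunLike.coe_injective
  -- one detecting prime for each nonzero character
  have hdet : ∀ χ : RayHom m (Module.Dual k k), h.monoKF.VanAt χ h.fieldKF.K →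
      (∃ I, χ.toFun I ≠ 0) → ∃ a : ℕ, (a.Prime ∧ a ∉ bad ∧ ∃ (B : ValuationSubring Qb) (φ : Γ),
        B.LiesOverPrime a ∧ B.IsFrobeniusAt φ a ∧ rb φ 1 0 = 0 ∧ rb φ 0 0 = 1 ∧ rb φ 1 1 = 1 ∧
          rb φ 0 1 ≠ 0) ∧
        ∃ v : Ext.Place h.monoKF.K, (a : 𝓞 h.monoKF.K) ∈ v.asIdeal ∧ χ.toFun v.asIdeal ≠ 0 := by
    rintro χ ⟨badF, hvanF⟩ ⟨I, hI⟩
    by_contra hcon
    refine hI (RayHom.eq_zero_of_frobenius (p := p) hm χ (badF ∪ bad)
      (fun A l hl hA hlb φ hφ hfrob => ?_) I)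
    simp only [Finset.mem_union, not_or] at hlb
    by_contra hne
    obtain ⟨h10, h00, h11⟩ := h.mem_monoKF_fixing.mp hφ
    refine hcon ⟨l, ⟨hl, hlb.2, A, φ, hA, hfrob, h10, h00, h11, fun h01 => hne ?_⟩,
      placeIn h.monoKF.K A hl hA, natCast_mem_placeIn, hne⟩
    refine hvanF A l hl hA hlb.1 φ (h.mem_fieldKF_fixing.mpr (Units.ext ?_)) hfrob
    show rb φ = 1
    exact Matrix.ext fun i i' => by fin_cases i <;> fin_cases i' <;> simp [h10, h00, h11, h01]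
  let X : Set (Fi → Module.Dual k k) :=
    {f | ∃ χ : RayHom m (Module.Dual k k), h.monoKF.VanAt χ h.fieldKF.K ∧
      (∃ I, χ.toFun I ≠ 0) ∧ f = fun I : Fi => χ.toFun I.1}
  have hX : ∀ f : X, ∃ a : ℕ, (a.Prime ∧ a ∉ bad ∧ ∃ (B : ValuationSubring Qb) (φ : Γ),
      B.LiesOverPrime a ∧ B.IsFrobeniusAt φ a ∧ rb φ 1 0 = 0 ∧ rb φ 0 0 = 1 ∧ rb φ 1 1 = 1 ∧
        rb φ 0 1 ≠ 0) ∧ ∃ χ : RayHom m (Module.Dual k k), f.1 = (fun I : Fi => χ.toFun I.1) ∧
      ∃ v : Ext.Place h.monoKF.K, (a : 𝓞 h.monoKF.K) ∈ v.asIdeal ∧ χ.toFun v.asIdeal ≠ 0 := by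
    rintro ⟨f, χ, h1, h2, h3⟩
    obtain ⟨a, ha, hv⟩ := hdet χ h1 h2
    exact ⟨a, ha, χ, h3, hv⟩
  choose a ha χ' hχ' v hav hv using hX
  have := Fintype.ofFinite X
  refine ⟨Finset.univ.image a, fun b hb => ?_, fun χ _ hvan hvF I => ?_⟩
  · obtain ⟨f, -, rfl⟩ := Finset.mem_image.mp hb
    exact ha f
  · by_contra hI
    let f : X := ⟨fun J : Fi => χ.toFun J.1, χ, hvF, ⟨I, hI⟩, rfl⟩
    refine hv f ?_
    rw [rayHom_eq_of_determining hFi (χ' f) χ (fun J hJ => (congrFun (hχ' f) ⟨J, hJ⟩).symm)]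
    exact hvan _ (Finset.mem_coe.mpr (h.monoKF.mem_placesOver.mpr
      ⟨a f, Finset.mem_image.mpr ⟨f, Finset.mem_univ _, rfl⟩, (ha f).1, hav f⟩))

/-- The primes of the monomial count. -/
theorem ResidualHyp.exists_mono_primes (S : Finset ℕ) :
    ∃ (d : ℕ) (A₀ : Finset ℕ), (A₀ = ∅ ∨ p = 3) ∧
      (∀ a ∈ A₀, a.Prime ∧ a ∉ Smin ∧ ∃ (B : ValuationSubring Qb) (φ : Γ), B.LiesOverPrime a ∧
        B.IsFrobeniusAt φ a ∧ rb φ 1 0 = 0 ∧ rb φ 0 0 = 1 ∧ rb φ 1 1 = 1 ∧ rb φ 0 1 ≠ 0) ∧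
      ∀ n : ℕ, ∃ Q : Finset ℕ, Q.card ≤ d ∧ h.TWSet n (S ∪ Smin ∪ A₀) Q ∧
        h.fieldKF.NoChar h.rho (h.fieldKF.modulus Smin)
          (h.fieldKF.placesOver Q : Set (Ext.Place h.fieldKF.K)) ∧
        ∀ j : Fin 3, h.monoKF.NoChar (h.rhoX j) (h.monoKF.modulus Smin)
          (h.monoKF.placesOver (if j = 2 then Q ∪ A₀ else Q) : Set (Ext.Place h.monoKF.K)) := by
  classical
  have := h.normal_fieldKF
  -- the auxiliary primes
  obtain ⟨A₀, hA₀3, hA₀, hA₀det⟩ : ∃ A₀ : Finset ℕ, (A₀ = ∅ ∨ p = 3) ∧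
      (∀ a ∈ A₀, a.Prime ∧ a ∉ S ∪ Smin ∧ ∃ (B : ValuationSubring Qb) (φ : Γ), B.LiesOverPrime a ∧
        B.IsFrobeniusAt φ a ∧ rb φ 1 0 = 0 ∧ rb φ 0 0 = 1 ∧ rb φ 1 1 = 1 ∧ rb φ 0 1 ≠ 0) ∧
      ∀ χ : RayHom (h.monoKF.modulus Smin) (Module.Dual k k),
        (∀ (c : h.monoKF.C) (v : Ext.Place h.monoKF.K),
          χ.toFun (c • v).asIdeal = (h.rhoX 2).dual c (χ.toFun v.asIdeal)) →
        (∀ v ∈ (h.monoKF.placesOver A₀ : Set (Ext.Place h.monoKF.K)), χ.toFun v.asIdeal = 0) →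
        h.monoKF.VanAt χ h.fieldKF.K → ∀ I, χ.toFun I = 0 := by
    by_cases hp3 : p = 3
    · obtain ⟨A₀, h1, h2⟩ := h.exists_aux_primes hp hu hq 2 (S ∪ Smin) (KField.modulus_ne_bot h.prime)
      exact ⟨A₀, Or.inr hp3, h1, h2⟩
    · exact ⟨∅, Or.inl rfl, by simp, fun χ heq _ hvF =>
        h.eq_zero_of_vanAt_piece hp hu hq (Or.inr hp3) (KField.modulus_ne_bot h.prime) χ heq hvF⟩
  obtain ⟨z, s, t, hz, hss, -, hst, hs0, ht0, hzc, hz1, hz2, hs, ht, hs2, ht2, hst2, hPsq⟩ :=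
    h.exists_tw_data hp
  -- the run over the kernel field
  have hdet1 : ∀ g : Γ, rb g * rb g = -1 → g ∈ (muField p).fixingSubgroup →
      ∀ X, h.rho (h.fieldKF.π (h.inH g)) X = adGL (rbGL rb g) X := fun g _ hg X => by
    rw [h.rho_of_det_one (by rw [h.coe_rbF_π]; exact (h.det_eq_one_iff g).mpr hg), h.rbF_π]
  have hinv : ∀ x : Module.Dual k (sl2 k), (∀ c, h.rho.dual c x = x) → x = 0 := fun x hx => by
    have key : ∀ c X, x (h.rho c X) = x X := fun c X => by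
      have h1 := LinearMap.congr_fun (hx c⁻¹) X
      rwa [Representation.dual_apply, Module.Dual.transpose_apply, LinearMap.comp_apply,
        inv_inv] at h1
    obtain ⟨s', t', hs', ht', hss', htt', hst', hs0', -, -⟩ := h.exists_klein_lifts hp
    refine dual_eq_zero_of_klein_fixed hp (s := rbGL rb s') (t := rbGL rb t') hss' hs0' hst'
      (fun X => ?_) (fun X => ?_)
    · rw [← hdet1 s' hss' hs' X, key]
    · rw [← hdet1 t' htt' ht' X, key]
  have hzinv : rb z⁻¹ = -1 := by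
    have h1 := map_mul rb z z⁻¹
    rw [mul_inv_cancel, map_one, hz, neg_mul, one_mul] at h1
    exact neg_eq_iff_eq_neg.mp h1.symm
  have hzact : ∀ x, h.rho.dual (h.fieldKF.π ⟨z, Subgroup.mem_top z⟩) x = x := fun x => by
    refine LinearMap.ext fun X => ?_
    rw [Representation.dual_apply, Module.Dual.transpose_apply, LinearMap.comp_apply,
      ← map_inv h.fieldKF.π, show (⟨z, Subgroup.mem_top z⟩ : h.fieldKF.H)⁻¹ = h.inH z⁻¹ from rfl]
    rw [h.rho_of_det_one (by rw [h.coe_rbF_π, hzinv]; simp [Matrix.det_fin_two])]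
    congr 1
    refine Subtype.ext ?_
    rw [coe_adGL, h.rbF_π, ← map_inv (rbGL rb), show ((h.inH z⁻¹ : h.fieldKF.H) : Γ)⁻¹ = z from
      inv_inv z]
    show rb z⁻¹ * (X : Mat k) * rb z = X
    rw [hz, hzinv]
    simp
  obtain ⟨d₀, hd₀⟩ := KField.exists_primes_noChar (S := h.fieldKF) (F := h.fieldKF.K) hp le_rfl
    h.rho hinv (KField.modulus_ne_bot h.prime) ∅
    (fun χ heq _ hvan => h.fieldKF.eq_zero_of_vanAt (h.fieldKF.dualAct h.rho) hp le_rfl
      (fun σ hσ => pow_mem hσ p)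
      (fun σ hσ τ hτ => mul_mem (mul_mem (mul_mem hσ hτ) (inv_mem hσ)) (inv_mem hτ))
      (fun f _ hf _ τ => hf τ τ.2) (KField.modulus_ne_bot h.prime) χ heq hvan)
    (Subgroup.mem_top z) hzact hzc hz1 hz2 hs ht hs2 ht2 hst2 h.twP h.twP_conj hPsq
  -- the three runs over the field of the diagonal
  have hz10 : z ∈ borelΓ rb := by
    show rb z 1 0 = 0
    rw [hz]; simp
  have hrun : ∀ j : Fin 3, ∃ d : ℕ, ∀ (n : ℕ) (bad : Finset ℕ), ∃ Q : Finset ℕ, Q.card ≤ d ∧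
      (∀ l ∈ Q, KField.GoodPrime (p := p) h.twP n bad l) ∧
      h.monoKF.NoChar (h.rhoX j) (h.monoKF.modulus Smin)
        ((h.monoKF.placesOver Q : Set (Ext.Place h.monoKF.K)) ∪
          (if j = 2 then (h.monoKF.placesOver A₀ : Set (Ext.Place h.monoKF.K)) else ∅)) := fun j => by
    refine KField.exists_primes_noChar (S := h.monoKF) (F := h.fieldKF.K) hp h.monoKF_K_le
      (h.rhoX j) (fun x hx => ?_) (KField.modulus_ne_bot h.prime) _
      (fun χ heq hvanA hvan => ?_) (show z ∈ h.monoKF.H from hz10) (fun x => ?_) hzc hz1 hz2 hs ht hs2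
      ht2 hst2 h.twP h.twP_conj hPsq
    · obtain ⟨c, hc⟩ : ∃ c, h.chR j c ≠ 1 := by
        by_contra hall
        push Not at hall
        exact h.chR_ne_one hp hu hq j (MonoidHom.ext hall)
      refine LinearMap.ext_ring ?_
      have h1 := LinearMap.congr_fun (hx c) 1
      rw [h.dual_rhoX_apply] at h1
      have h2 : (((h.chR j c : kˣ) : k)⁻¹ - 1) * x 1 = 0 := by linear_combination h1
      exact (mul_eq_zero.mp h2).resolve_left
        (sub_ne_zero.mpr fun e => hc (Units.ext (inv_eq_one.mp e)))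
    · by_cases hj : j = 2
      · subst hj
        exact hA₀det χ heq (by simpa using hvanA) hvan
      · exact h.eq_zero_of_vanAt_piece hp hu hq (Or.inl hj) (KField.modulus_ne_bot h.prime) χ heq hvan
    · refine LinearMap.ext fun v => ?_
      rw [h.dual_rhoX_apply, show (⟨z, hz10⟩ : h.monoKF.H) = h.inB hz10 from rfl, h.inv_chR hz10]
      have e1 : diagΓ rb ⟨z, hz10⟩ = (-1, -1) := by
        refine Prod.ext (Units.ext ?_) (Units.ext ?_)
        · show rb z 0 0 = _; simp [hz]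
        · show rb z 1 1 = _; simp [hz]
      have e2 : diagChar k j (diagΓ rb ⟨z, hz10⟩) = 1 := by
        rw [e1]
        fin_cases j
        · exact div_self' _
        · rfl
        · exact div_self' _
      rw [e2, hz, Units.val_one, div_one]
      simp [Matrix.det_fin_two]
  choose d hd using hrun
  refine ⟨d₀ + ∑ j, d j, A₀, hA₀3,
    fun a ha => ⟨(hA₀ a ha).1, fun hm => (hA₀ a ha).2.1 (Finset.mem_union_right _ hm), (hA₀ a ha).2.2⟩,
    fun n => ?_⟩
  obtain ⟨Q₀, hc₀, hQ₀, hno₀⟩ := hd₀ n (S ∪ Smin ∪ A₀)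
  choose Qj hcj hQj hnoj using fun j => hd j n (S ∪ Smin ∪ A₀)
  refine ⟨Q₀ ∪ Finset.univ.biUnion Qj, ?_, fun l hl => ?_, hno₀.mono fun v hv => ?_,
    fun j => (hnoj j).mono fun v hv => ?_⟩
  · exact (Finset.card_union_le _ _).trans (add_le_add hc₀
      (Finset.card_biUnion_le.trans (Finset.sum_le_sum fun j _ => hcj j)))
  · rcases Finset.mem_union.mp hl with hl | hl
    · exact hQ₀ l hl
    · obtain ⟨j, -, hlj⟩ := Finset.mem_biUnion.mp hl
      exact hQj j l hlj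
  · rcases hv with hv | hv
    · obtain ⟨l, hl, h'⟩ := h.fieldKF.mem_placesOver.mp hv
      exact h.fieldKF.mem_placesOver.mpr ⟨l, Finset.mem_union_left _ hl, h'⟩
    · exact hv.elim
  · have hQsub : ∀ {l}, l ∈ Qj j → l ∈ Q₀ ∪ Finset.univ.biUnion Qj := fun {l} hl =>
      Finset.mem_union_right _ (Finset.mem_biUnion.mpr ⟨j, Finset.mem_univ _, hl⟩)
    refine Finset.mem_coe.mpr ?_
    rw [h.monoKF.mem_placesOver]
    rcases hv with hv | hv
    · obtain ⟨l, hl, h'⟩ := h.monoKF.mem_placesOver.mp hv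
      refine ⟨l, ?_, h'⟩
      split_ifs
      · exact Finset.mem_union_left _ (hQsub hl)
      · exact hQsub hl
    · by_cases hj : j = 2
      · rw [if_pos hj] at hv ⊢
        obtain ⟨l, hl, h'⟩ := h.monoKF.mem_placesOver.mp hv
        exact ⟨l, Finset.mem_union_right _ hl, h'⟩
      · rw [if_neg hj] at hv
        exact hv.elim

end Mono

end FLTAgent.TW
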