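import Fermat.Agent.TW.Restrict
import Fermat.Agent.TW.MonoDefs

/-!
# The filtration of the trace zero matrices by the upper triangular group

The coordinates `(1,0)`, `(0,0)`, `(0,1)` cut out a filtration stable under the upper triangular
matrices, which act on the three graded pieces through `d/a`, `1`, `a/d`.
-/

set_option autoImplicit false
set_option linter.unusedSectionVars false

noncomputable section

open Matrix

namespace FLTAgent.TW

open FLTAgent.Deformation

variable {k : Type} [Field k]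

theorem borel_diag_ne_zero (g : borelGL k) :
    ((g : GL (Fin 2) k) : Mat k) 0 0 ≠ 0 ∧ ((g : GL (Fin 2) k) : Mat k) 1 1 ≠ 0 := by
  have h := ((g : GL (Fin 2) k).isUnit.map (Matrix.detMonoidHom (n := Fin 2) (R := k))).ne_zero
  rw [Matrix.coe_detMonoidHom, Matrix.det_fin_two, g.2, mul_zero, sub_zero] at h
  exact ⟨left_ne_zero_of_mul h, right_ne_zero_of_mul h⟩

/-- The diagonal of an upper triangular matrix. -/
def borelDiag (k : Type) [Field k] : borelGL k →* kˣ × kˣ where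
  toFun g := (Units.mk0 _ (borel_diag_ne_zero g).1, Units.mk0 _ (borel_diag_ne_zero g).2)
  map_one' := Prod.ext (Units.ext (by simp)) (Units.ext (by simp))
  map_mul' g g' := by
    have h : ((g : GL (Fin 2) k) : Mat k) 1 0 = 0 := g.2
    have h' : ((g' : GL (Fin 2) k) : Mat k) 1 0 = 0 := g'.2
    refine Prod.ext (Units.ext ?_) (Units.ext ?_) <;>
      simp [Matrix.mul_apply, Fin.sum_univ_two, h, h']

@[simp] theorem borelDiag_fst (g : borelGL k) :
    (((borelDiag k g).1 : kˣ) : k) = ((g : GL (Fin 2) k) : Mat k) 0 0 := rfl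

@[simp] theorem borelDiag_snd (g : borelGL k) :
    (((borelDiag k g).2 : kˣ) : k) = ((g : GL (Fin 2) k) : Mat k) 1 1 := rfl

/-- The determinant of a diagonal. -/
def diagDet (k : Type) [Field k] : kˣ × kˣ →* kˣ := MonoidHom.fst _ _ * MonoidHom.snd _ _

theorem diagDet_apply (x : kˣ × kˣ) : diagDet k x = x.1 * x.2 := rfl

/-- The characters of the graded pieces. -/
def diagChar (k : Type) [Field k] : Fin 3 → (kˣ × kˣ →* kˣ) :=
  ![MonoidHom.snd _ _ / MonoidHom.fst _ _, 1, MonoidHom.fst _ _ / MonoidHom.snd _ _]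

theorem diagChar_zero (x : kˣ × kˣ) : diagChar k 0 x = x.2 / x.1 := rfl

theorem diagChar_one (x : kˣ × kˣ) : diagChar k 1 x = 1 := rfl

theorem diagChar_two (x : kˣ × kˣ) : diagChar k 2 x = x.1 / x.2 := rfl

/-- The entry of the coordinate. -/
def coordPos : Fin 3 → Fin 2 × Fin 2 := ![(1, 0), (0, 0), (0, 1)]

/-- The coordinates. -/
def coord (j : Fin 3) : sl2 k →ₗ[k] k :=
  ((LinearMap.proj (coordPos j).2).comp (LinearMap.proj (coordPos j).1 :
    (Mat k) →ₗ[k] (Fin 2 → k))).comp (sl2 k).subtype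

theorem coord_zero_apply (X : sl2 k) : coord 0 X = (X : Mat k) 1 0 := rfl

theorem coord_one_apply (X : sl2 k) : coord 1 X = (X : Mat k) 0 0 := rfl

theorem coord_two_apply (X : sl2 k) : coord 2 X = (X : Mat k) 0 1 := rfl

theorem sl2_diag_neg (X : sl2 k) : (X : Mat k) 1 1 = -(X : Mat k) 0 0 := by
  have h := X.2
  rw [mem_sl2_iff, Matrix.trace_fin_two] at h
  exact eq_neg_of_add_eq_zero_right h

/-- Trace zero matrices are determined by their coordinates. -/
theorem sl2_ext {X Y : sl2 k} (h : ∀ j, coord j X = coord j Y) : X = Y := by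
  have h0 : (X : Mat k) 1 0 = (Y : Mat k) 1 0 := h 0
  have h1 : (X : Mat k) 0 0 = (Y : Mat k) 0 0 := h 1
  have h2 : (X : Mat k) 0 1 = (Y : Mat k) 0 1 := h 2
  refine Subtype.ext (Matrix.ext fun i j => ?_)
  fin_cases i <;> fin_cases j <;> simp [h0, h1, h2, sl2_diag_neg]

/-- The steps of the filtration. -/
def lev (k : Type) [Field k] (n : ℕ) : Submodule k (sl2 k) :=
  ⨅ i : Fin 3, ⨅ _ : (i : ℕ) < n, LinearMap.ker (coord i)

theorem mem_lev {n : ℕ} {X : sl2 k} : X ∈ lev k n ↔ ∀ i : Fin 3, (i : ℕ) < n → coord i X = 0 := by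
  simp [lev, Submodule.mem_iInf]

theorem lev_zero : lev k 0 = ⊤ := by
  ext X; simp [mem_lev]

theorem lev_three : lev k 3 = ⊥ := by
  refine eq_bot_iff.mpr fun X hX => ?_
  rw [Submodule.mem_bot]
  exact sl2_ext fun j => by rw [map_zero]; exact mem_lev.mp hX j j.isLt

theorem mem_lev_succ {j : Fin 3} {X : sl2 k} :
    X ∈ lev k ((j : ℕ) + 1) ↔ X ∈ lev k (j : ℕ) ∧ coord j X = 0 := by
  simp only [mem_lev]
  constructor
  · exact fun h => ⟨fun i hi => h i (hi.trans (Nat.lt_succ_self _)), h j (Nat.lt_succ_self _)⟩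
  · rintro ⟨h, hj⟩ i hi
    rcases Nat.lt_succ_iff_lt_or_eq.mp hi with h' | h'
    · exact h i h'
    · rw [Fin.ext h']; exact hj

theorem lev_antitone {m n : ℕ} (hmn : m ≤ n) : lev k n ≤ lev k m := fun _ hX =>
  mem_lev.mpr fun i hi => mem_lev.mp hX i (lt_of_lt_of_le hi hmn)

/-- The basis vectors of the coordinates. -/
def coordVec (j : Fin 3) : sl2 k :=
  (![⟨Matrix.single 1 0 1, by simp [mem_sl2_iff, Matrix.trace_fin_two]⟩,
    ⟨Matrix.single 0 0 1 - Matrix.single 1 1 1, by simp [mem_sl2_iff, Matrix.trace_fin_two]⟩,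
    ⟨Matrix.single 0 1 1, by simp [mem_sl2_iff, Matrix.trace_fin_two]⟩] : Fin 3 → sl2 k) j

theorem coord_coordVec (i j : Fin 3) : coord i (coordVec (k := k) j) = if i = j then 1 else 0 := by
  fin_cases i <;> fin_cases j <;>
    simp [coordVec, coord_zero_apply, coord_one_apply, coord_two_apply]

theorem coordVec_mem_lev (j : Fin 3) : coordVec (k := k) j ∈ lev k (j : ℕ) :=
  mem_lev.mpr fun i hi => by
    rw [coord_coordVec, if_neg fun h : i = j => (lt_irrefl _) (h ▸ hi)]

/-- The action on a graded piece. -/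
theorem coord_adGL (g : borelGL k) (j : Fin 3) {X : sl2 k} (hX : X ∈ lev k (j : ℕ)) :
    coord j (adGL (g : GL (Fin 2) k) X) =
      (diagChar k j (borelDiag k g) : kˣ) * coord j X := by
  obtain ⟨h00, h11⟩ := borel_diag_ne_zero g
  have hg : ((g : GL (Fin 2) k) : Mat k) 1 0 = 0 := g.2
  have hi : (((g : GL (Fin 2) k)⁻¹ : GL (Fin 2) k) : Mat k) 1 0 = 0 := (g⁻¹).2
  have hi00 : (((g : GL (Fin 2) k)⁻¹ : GL (Fin 2) k) : Mat k) 0 0 =
      (((g : GL (Fin 2) k) : Mat k) 0 0)⁻¹ := by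
    rw [← Subgroup.coe_inv, ← borelDiag_fst, map_inv, Prod.fst_inv, Units.val_inv_eq_inv_val,
      borelDiag_fst]
  have hi11 : (((g : GL (Fin 2) k)⁻¹ : GL (Fin 2) k) : Mat k) 1 1 =
      (((g : GL (Fin 2) k) : Mat k) 1 1)⁻¹ := by
    rw [← Subgroup.coe_inv, ← borelDiag_snd, map_inv, Prod.snd_inv, Units.val_inv_eq_inv_val,
      borelDiag_snd]
  fin_cases j
  · show (((g : GL (Fin 2) k) : Mat k) * (X : Mat k) *
      (((g : GL (Fin 2) k)⁻¹ : GL (Fin 2) k) : Mat k)) 1 0 =
      ((diagChar k 0 (borelDiag k g) : kˣ) : k) * (X : Mat k) 1 0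
    simp [-Matrix.coe_units_inv, Matrix.mul_apply, Fin.sum_univ_two, diagChar_zero, hg, hi, hi00, Units.val_div_eq_div_val]
    field_simp
  · have h10 : (X : Mat k) 1 0 = 0 := mem_lev.mp hX 0 Nat.zero_lt_one
    show (((g : GL (Fin 2) k) : Mat k) * (X : Mat k) *
      (((g : GL (Fin 2) k)⁻¹ : GL (Fin 2) k) : Mat k)) 0 0 =
      ((diagChar k 1 (borelDiag k g) : kˣ) : k) * (X : Mat k) 0 0
    simp [-Matrix.coe_units_inv, Matrix.mul_apply, Fin.sum_univ_two, diagChar_one, hi, hi00, h10]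
    field_simp
  · have h10 : (X : Mat k) 1 0 = 0 := mem_lev.mp hX 0 (by decide)
    have h0 : (X : Mat k) 0 0 = 0 := mem_lev.mp hX 1 (by decide)
    show (((g : GL (Fin 2) k) : Mat k) * (X : Mat k) *
      (((g : GL (Fin 2) k)⁻¹ : GL (Fin 2) k) : Mat k)) 0 1 =
      ((diagChar k 2 (borelDiag k g) : kˣ) : k) * (X : Mat k) 0 1
    simp [-Matrix.coe_units_inv, Matrix.mul_apply, Fin.sum_univ_two, diagChar_two, hi11, h10, h0, sl2_diag_neg,
      Units.val_div_eq_div_val]
    field_simp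

/-- The filtration is stable. -/
theorem adGL_mem_lev (g : borelGL k) {n : ℕ} {X : sl2 k} (hX : X ∈ lev k n) :
    adGL (g : GL (Fin 2) k) X ∈ lev k n :=
  mem_lev.mpr fun i hi => by
    rw [coord_adGL g i (lev_antitone hi.le hX), mem_lev.mp hX i hi, mul_zero]

end FLTAgent.TW
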