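import Fermat.Agent.TW.Mono.Induced
import Fermat.Agent.TW.Mono.Coord

/-!
# The adjoint module when the unitriangular part has three elements

For a unitriangular part of order three the adjoint module is projective relative to the trivial
subgroup: the partial trace of `X ↦ (X₁₀ + X₀₁/λ²) e₁₀` over that part is the identity.
-/

set_option autoImplicit false
set_option linter.unusedSectionVars false

open Matrix Matrix.GeneralLinearGroup

noncomputable section

namespace FLTAgent.TW

open FLTAgent.Deformation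

section Average

variable {k : Type} [Field k] {C : Type} [Group C] [Fintype C]
variable {W : Type} [AddCommGroup W] [Module k W]

open scoped Classical in
/-- A partial trace over a subgroup of invertible index gives a trace-one endomorphism. -/
theorem exists_theta_of_partial (ρ : Representation k C W) (P : Subgroup C) [Fintype P]
    (hi : (P.index : k) ≠ 0) (θ : W →ₗ[k] W)
    (hθ : ∀ X, ∑ u : P, ρ (u : C) (θ (ρ (u : C)⁻¹ X)) = X) :
    ∃ θ' : W →ₗ[k] W, ∑ c : C, (ρ c).comp (θ'.comp (ρ c⁻¹)) = LinearMap.id := by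
  refine ⟨(P.index : k)⁻¹ • θ, LinearMap.ext fun Y => ?_⟩
  rw [LinearMap.sum_apply, LinearMap.id_apply]
  have := Fintype.ofFinite (C ⧸ P)
  have hbij : Function.Bijective (fun x : (C ⧸ P) × P => x.1.out * (x.2 : C)) := by
    refine ⟨fun x y hxy => ?_, fun g => ?_⟩
    · have h1 := congrArg (fun z => (QuotientGroup.mk z : C ⧸ P)) hxy
      simp only [QuotientGroup.mk_mul_of_mem _ x.2.2, QuotientGroup.mk_mul_of_mem _ y.2.2,
        QuotientGroup.out_eq'] at h1
      simp only [h1] at hxy
      exact Prod.ext h1 (Subtype.ext (mul_left_cancel hxy))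
    · exact ⟨(QuotientGroup.mk g, ⟨(QuotientGroup.mk g : C ⧸ P).out⁻¹ * g,
        QuotientGroup.eq.mp (QuotientGroup.out_eq' _)⟩), mul_inv_cancel_left _ _⟩
  rw [← hbij.sum_comp, Fintype.sum_prod_type]
  have hterm : ∀ q : C ⧸ P, ∑ u : P, ((ρ (q.out * (u : C))).comp
      (((P.index : k)⁻¹ • θ).comp (ρ (q.out * (u : C))⁻¹))) Y = (P.index : k)⁻¹ • Y := by
    intro q
    calc _ = (P.index : k)⁻¹ • ρ q.out (∑ u : P, ρ (u : C) (θ (ρ (u : C)⁻¹ (ρ q.out⁻¹ Y)))) := by
          rw [map_sum, Finset.smul_sum]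
          refine Finset.sum_congr rfl fun u _ => ?_
          simp only [LinearMap.comp_apply, LinearMap.smul_apply, _root_.mul_inv_rev, map_mul,
            Module.End.mul_apply, map_smul]
      _ = _ := by rw [hθ, Representation.self_inv_apply]
  rw [Finset.sum_congr rfl fun q _ => hterm q, Finset.sum_const, Finset.card_univ,
    ← Nat.card_eq_fintype_card, ← Subgroup.index_eq_card, ← Nat.cast_smul_eq_nsmul k, smul_smul,
    mul_inv_cancel₀ hi, one_smul]

end Average

section Three

variable {k : Type} [Field k]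

theorem coord_adGL_upper (t : k) (Z : sl2 k) :
    coord 0 (adGL (upperRightHom t) Z) = coord 0 Z ∧
      coord 1 (adGL (upperRightHom t) Z) = coord 1 Z + t * coord 0 Z ∧
      coord 2 (adGL (upperRightHom t) Z) = coord 2 Z - 2 * t * coord 1 Z - t ^ 2 * coord 0 Z := by
  have hi : (upperRightHom t : GL (Fin 2) k)⁻¹ = upperRightHom (-t) :=
    (AddChar.map_neg_eq_inv _ _).symm
  simp only [coord_zero_apply, coord_one_apply, coord_two_apply, coe_adGL, hi]
  refine ⟨?_, ?_, ?_⟩ <;>
    simp [Matrix.mul_apply, Matrix.vecMul, dotProduct, Fin.sum_univ_two, sl2_diag_neg] <;> ring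

/-- The endomorphism `X ↦ (X₁₀ + X₀₁/λ²) e₁₀`. -/
def thetaThree (l : k) : sl2 k →ₗ[k] sl2 k :=
  (coord 0 + (l ^ 2)⁻¹ • coord 2).smulRight (coordVec 0)

theorem thetaThree_apply (l : k) (X : sl2 k) :
    thetaThree l X = (coord 0 X + (l ^ 2)⁻¹ * coord 2 X) • coordVec 0 := rfl

/-- The partial trace is the identity. -/
theorem sum_thetaThree [CharP k 3] {l : k} (hl : l ≠ 0) (X : sl2 k) :
    ∑ i : Fin 3, adGL (upperRightHom ((i : ℕ) * l))
      (thetaThree l (adGL (upperRightHom (-(((i : ℕ) : k) * l))) X)) = X := by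
  have h3 : (3 : k) = 0 := by exact_mod_cast CharP.cast_eq_zero k 3
  refine sl2_ext fun j => ?_
  simp only [Fin.sum_univ_three, map_add, thetaThree_apply, map_smul, smul_eq_mul]
  fin_cases j <;>
    simp only [Fin.isValue, (coord_adGL_upper _ _).1, (coord_adGL_upper _ _).2.1,
      (coord_adGL_upper _ _).2.2, coord_coordVec, Fin.zero_eta, Fin.mk_one, Fin.reduceFinMk,
      Fin.val_zero, Fin.val_one, Fin.val_two, Nat.cast_zero, Nat.cast_one, Nat.cast_ofNat,
      if_true, Fin.reduceEq, if_false] <;>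
    field_simp <;> grind

end Three

variable {k : Type} [Field k] [Finite k] {p : ℕ} [hpf : Fact p.Prime] [CharP k p]
  [Algebra (ZMod p) k]
variable {rb : Gal →* Mat k} {Smin : Finset ℕ} (h : ResidualHyp p rb Smin)

/-- With at most three unitriangular elements the twisted adjoint module is relatively
projective. -/
theorem ResidualHyp.isRelProj_rho_of_card_unip (hp : p ≠ 2)
    (hu : ∃ u ∈ unipPart (imageGL rb), u ≠ 1) (hq : ¬ 3 < Nat.card (unipPart (imageGL rb))) :
    IsRelProj h.rho := by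
  classical
  have := h.finite_imageGL
  obtain ⟨f, hf, hcard, -, -⟩ := GroupLemma.natCard_unip p hu
  have hple : p ≤ p ^ f := by
    calc p = p ^ 1 := (pow_one p).symm
      _ ≤ p ^ f := Nat.pow_le_pow_right hpf.out.pos hf
  have hp3 : p = 3 := by
    have := hpf.out.two_le
    omega
  subst hp3
  have hP : Nat.card h.unipF = 3 := by rw [h.natCard_unipF]; omega
  obtain ⟨u, hu', hu1⟩ := hu
  obtain ⟨c₁, hc₁⟩ := h.exists_rbF_eq hu'.1
  obtain ⟨-, l, hl⟩ := GroupLemma.mem_unipPart_iff.1 hu'
  have hl0 : l ≠ 0 := fun e => hu1 (hl.trans (GroupLemma.upper_eq_one_iff.2 e))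
  have hc₁P : c₁ ∈ h.unipF := by rw [h.mem_unipF, hc₁]; exact hu'
  have hpow : ∀ i : ℕ, h.rbF (c₁ ^ i) = upperRightHom ((i : k) * l) := fun i => by
    rw [map_pow, hc₁, hl, ← nsmul_eq_mul, AddChar.map_nsmul_eq_pow]
  let g : Fin 3 → h.unipF := fun i => ⟨c₁ ^ (i : ℕ), pow_mem hc₁P _⟩
  have hinj : Function.Injective g := fun i j e => by
    have e1 := congrArg (fun c : h.unipF => h.rbF (c : h.fieldKF.C)) e
    simp only [g, hpow] at e1
    have e2 : ((i : ℕ) : k) * l = (j : ℕ) * l := by
      have := congrArg (fun M : GL (Fin 2) k => (M : Mat k) 0 1) e1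
      simpa using this
    have e3 := (CharP.natCast_eq_natCast k 3).1 (mul_right_cancel₀ hl0 e2)
    exact Fin.ext (Nat.ModEq.eq_of_lt_of_lt e3 i.2 j.2)
  have hbij : Function.Bijective g :=
    (Fintype.bijective_iff_injective_and_card g).2 ⟨hinj, by
      rw [Fintype.card_fin, ← Nat.card_eq_fintype_card, hP]⟩
  obtain ⟨θ, hθ⟩ := exists_theta_of_partial h.adF h.unipF (h.index_unipF_ne_zero ⟨u, hu', hu1⟩)
    (thetaThree l) fun X => by
      rw [← hbij.sum_comp]
      conv_rhs => rw [← sum_thetaThree hl0 X]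
      refine Finset.sum_congr rfl fun i _ => ?_
      simp only [g, h.adF_apply, map_inv, hpow, ← AddChar.map_neg_eq_inv]
  refine ⟨θ, LinearMap.ext fun Y => ?_⟩
  rw [LinearMap.sum_apply, LinearMap.id_apply]
  conv_rhs => rw [← LinearMap.id_apply (R := k) Y, ← hθ, LinearMap.sum_apply]
  refine Finset.sum_congr rfl fun c _ => ?_
  show algebraMap (ZMod 3) k _ • h.adF c (θ (algebraMap (ZMod 3) k _ • h.adF c⁻¹ Y)) =
    h.adF c (θ (h.adF c⁻¹ Y))
  rw [map_smul, map_smul, smul_smul, ← map_mul, ← Units.val_mul, ← map_mul, mul_inv_cancel,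
    map_one, Units.val_one, map_one, one_smul]

end FLTAgent.TW
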