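import Fermat.Agent.TW.FPlaces
import Fermat.Agent.TW.Cocycle
import Fermat.Agent.TW.KummerLocal
import Fermat.Agent.TW.Local.Generation
import Mathlib.LinearAlgebra.Dual.Lemmas

/-!
# A global class with prescribed residue at an auxiliary prime (`p = 3`)

Divisors with values in the twisted adjoint module are exhausted by ray divisors, divisors over
`Smin ∪ Q` and the kernel of the norm, as there is no ray character.  The Kummer characters of
such ray elements, made equivariant by corestriction, give the class.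
-/

set_option autoImplicit false
set_option linter.unusedSectionVars false

open IsDedekindDomain NumberField
open scoped Pointwise

noncomputable section

namespace FLTAgent.TW

open FLTAgent.Deformation FLTAgent.Frobenius

section generic

variable {k : Type} [Field k] {D : Type} [Group D] {C : Type} [Group C] [Fintype C]
variable {V : Type} [AddCommGroup V] [Module k V]

/-- If `f` kills the kernel part of all conjugates of a subgroup, the corestriction is a
coboundary on that subgroup. -/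
theorem exists_corCocycle_eq_cobd {π : D →* C} (hπ : Function.Surjective π)
    (ρ : Representation k C V) (θ : V →ₗ[k] V) {f : D → V}
    (hf : ∀ m n, π m = 1 → π n = 1 → f (m * n) = f m + f n) (D₀ : Subgroup D)
    (h0 : ∀ t, ∀ n ∈ D₀, π n = 1 → f (t⁻¹ * n * t) = 0) :
    ∃ X : V, ∀ g ∈ D₀, corCocycle ρ hπ θ f g = cobd π ρ X g := by
  classical
  set P : Subgroup C := D₀.map π with hP
  set s := Function.surjInv hπ with hsdef
  have hs : ∀ y, π (s y) = y := Function.surjInv_eq hπ
  let r : C → C := fun y => (Quotient.mk (QuotientGroup.rightRel P) y).out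
  have hr : ∀ y, y * (r y)⁻¹ ∈ P := fun y =>
    QuotientGroup.rightRel_apply.mp (Quotient.exact (Quotient.out_eq _))
  have hrmul : ∀ q ∈ P, ∀ y, r (q * y) = r y := fun q hq y => by
    refine congrArg Quotient.out (Quotient.sound (QuotientGroup.rightRel_apply.mpr ?_))
    simpa [mul_inv_rev, ← mul_assoc] using inv_mem hq
  choose d hd hdπ using fun y => Subgroup.mem_map.mp (hr y)
  let n : C → D := fun y => (s y)⁻¹ * (d y * s (r y))
  have hn : ∀ y, π (n y) = 1 := fun y => by
    simp only [n, map_mul, map_inv, hdπ, hs, inv_mul_cancel_right, inv_mul_cancel]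
  refine ⟨-∑ y, ρ y (θ (f (n y))), fun g hg => ?_⟩
  have hgP : π g ∈ P := ⟨g, hg, rfl⟩
  have key : ∀ y, f (kerPart hπ g y) = f (n (π g * y)) - f (n y) := fun y => by
    set w := (d (π g * y))⁻¹ * g * d y with hw
    have hwD : w ∈ D₀ := mul_mem (mul_mem (inv_mem (hd _)) hg) (hd _)
    have hwπ : π w = 1 := by
      simp only [hw, map_mul, map_inv, hdπ, hrmul _ hgP y]
      group
    have h1 : kerPart hπ g y * n y = n (π g * y) * ((s (r y))⁻¹ * w * s (r y)) := by
      simp only [kerPart, n, hw, hrmul _ hgP y, ← hsdef]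
      group
    have h2 : π ((s (r y))⁻¹ * w * s (r y)) = 1 := by
      rw [map_mul, map_mul, hwπ, map_inv, mul_one, inv_mul_cancel]
    have h3 := congrArg f h1
    rw [hf _ _ (map_kerPart hπ g y) (hn y), hf _ _ (hn _) h2, h0 _ w hwD hwπ, add_zero] at h3
    rw [← h3, add_sub_cancel_right]
  simp only [corCocycle, key, map_sub, Finset.sum_sub_distrib, cobd_apply, map_neg, map_sum]
  rw [show ∑ x, ρ (π g * x) (θ (f (n (π g * x)))) = ∑ x, ρ x (θ (f (n x))) from
    Equiv.sum_comp (Equiv.mulLeft (π g)) (fun x => ρ x (θ (f (n x))))]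
  simp only [map_mul, Module.End.mul_apply]
  abel

end generic

section residue

variable {k : Type} [Field k] {p : ℕ} [hpf : Fact p.Prime] [CharP k p] [Algebra (ZMod p) k]

theorem intCast_eq_algebraMap (n : ℤ) : (n : k) = algebraMap (ZMod p) k n := (map_intCast _ n).symm

variable {rb : Gal →* Mat k} {Smin : Finset ℕ} (h : ResidualHyp p rb Smin)

/-- The elements of the ray modulo the modulus at `Smin`. -/
abbrev ResidualHyp.RayElt : Type :=
  {x : h.fieldKF.Kˣ // ∃ y : 𝓞 h.fieldKF.K,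
    (x : h.fieldKF.K) = y ∧ y - 1 ∈ h.fieldKF.modulus Smin}

/-- The sum over the conjugates of a divisor with values in the twisted adjoint module. -/
def ResidualHyp.normDiv (v : Ext.Place h.fieldKF.K) :
    (Ext.Place h.fieldKF.K →₀ sl2 k) →ₗ[k] sl2 k :=
  ∑ y : h.fieldKF.C, (h.rho y).comp (Finsupp.lapply (y⁻¹ • v))

theorem ResidualHyp.normDiv_apply (v : Ext.Place h.fieldKF.K)
    (D : Ext.Place h.fieldKF.K →₀ sl2 k) :
    h.normDiv v D = ∑ y : h.fieldKF.C, h.rho y (D (y⁻¹ • v)) := by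
  simp [ResidualHyp.normDiv, LinearMap.sum_apply]

/-- The divisor of a ray element with a coefficient. -/
def ResidualHyp.rayDiv : (h.RayElt →₀ sl2 k) →ₗ[k] (Ext.Place h.fieldKF.K →₀ sl2 k) :=
  Finsupp.lsum k fun x => ∑ v ∈ (divisor x.1).support, (divisor x.1 v : k) • Finsupp.lsingle v

theorem ResidualHyp.rayDiv_apply (g : h.RayElt →₀ sl2 k) (u : Ext.Place h.fieldKF.K) :
    h.rayDiv g u = g.sum fun x X => (Ext.ord u (x.1 : h.fieldKF.K) : k) • X := by
  classical
  rw [ResidualHyp.rayDiv, Finsupp.lsum_apply, Finsupp.sum, Finsupp.finset_sum_apply, Finsupp.sum]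
  refine Finset.sum_congr rfl fun x _ => ?_
  simp only [LinearMap.sum_apply, LinearMap.smul_apply, Finsupp.finset_sum_apply,
    Finsupp.smul_apply, Finsupp.lsingle_apply]
  rw [Finset.sum_eq_single u]
  · rw [Finsupp.single_eq_same, divisor_apply]
  · intro v _ hv
    rw [Finsupp.single_eq_of_ne (Ne.symm hv), smul_zero]
  · intro hu
    rw [Finsupp.notMem_support_iff.mp hu, Int.cast_zero, zero_smul]

/-- With no ray character, every norm is the norm of a ray divisor away from `Smin ∪ Q`. -/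
theorem ResidualHyp.exists_ray_normDiv_eq [Finite k] (Q : Finset ℕ)
    (hno : h.fieldKF.NoChar h.rho (h.fieldKF.modulus Smin)
      (h.fieldKF.placesOver Q : Set (Ext.Place h.fieldKF.K)))
    (D : Ext.Place h.fieldKF.K →₀ sl2 k) :
    ∃ g : h.RayElt →₀ sl2 k, ∀ v, v ∉ h.fieldKF.placesOver Smin → v ∉ h.fieldKF.placesOver Q →
      h.normDiv v (h.rayDiv g) = h.normDiv v D := by
  classical
  let Z : Submodule k (Ext.Place h.fieldKF.K →₀ sl2 k) :=
    ⨅ v ∈ {v | v ∉ h.fieldKF.placesOver Smin ∧ v ∉ h.fieldKF.placesOver Q}, LinearMap.ker (h.normDiv v)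
  have memZ : ∀ {E}, E ∈ Z ↔ ∀ v, v ∉ h.fieldKF.placesOver Smin → v ∉ h.fieldKF.placesOver Q →
      h.normDiv v E = 0 := by
    intro E
    simp only [Z, Submodule.mem_iInf, Set.mem_setOf_eq, LinearMap.mem_ker, and_imp]
  have htop : LinearMap.range h.rayDiv ⊔ Z = ⊤ := by
    rw [eq_top_iff]
    intro E _
    by_contra hE
    obtain ⟨Φ, hΦE, hΦ⟩ := Submodule.exists_dual_map_eq_bot_of_notMem (R := k)
      (M := Ext.Place h.fieldKF.K →₀ sl2 k) (p := LinearMap.range h.rayDiv ⊔ Z) (x := E) hE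
      inferInstance
    have hΦ0 : ∀ E' ∈ LinearMap.range h.rayDiv ⊔ Z, Φ E' = 0 := fun E' hE' =>
      (Submodule.mem_bot k).mp (hΦ ▸ Submodule.mem_map_of_mem hE')
    let φ : Ext.Place h.fieldKF.K → Module.Dual k (sl2 k) := fun v => Φ.comp (Finsupp.lsingle v)
    have hout : ∀ v, v ∈ h.fieldKF.placesOver Smin ∨ v ∈ h.fieldKF.placesOver Q → φ v = 0 := fun v hv =>
      LinearMap.ext fun X => hΦ0 _ (Submodule.mem_sup_right (memZ.mpr fun u hu hu' => by
        rw [h.normDiv_apply]
        refine Finset.sum_eq_zero fun y _ => ?_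
        rw [Finsupp.lsingle_apply, Finsupp.single_eq_of_ne, map_zero]
        intro he
        rcases hv with hv | hv
        · refine hu ?_
          rw [← smul_inv_smul y u, he]
          exact h.fieldKF.placesOver_stable Smin y v hv
        · refine hu' ?_
          rw [← smul_inv_smul y u, he]
          exact h.fieldKF.placesOver_stable Q y v hv))
    have hequiv : ∀ (c : h.fieldKF.C) (v : Ext.Place h.fieldKF.K), φ (c • v) = h.rho.dual c (φ v) := fun c v => by
      refine LinearMap.ext fun X => ?_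
      rw [Representation.dual_apply]
      show Φ (Finsupp.single (c • v) X) = Φ (Finsupp.single v (h.rho c⁻¹ X))
      rw [← sub_eq_zero, ← map_sub]
      refine hΦ0 _ (Submodule.mem_sup_right (memZ.mpr fun u _ _ => ?_))
      rw [map_sub, sub_eq_zero, h.normDiv_apply, h.normDiv_apply]
      refine Fintype.sum_equiv (Equiv.mulRight c) _ _ fun y => ?_
      show h.rho y (Finsupp.single (c • v) X (y⁻¹ • u)) =
        h.rho (y * c) (Finsupp.single v (h.rho c⁻¹ X) ((y * c)⁻¹ • u))
      have hiff : c • v = y⁻¹ • u ↔ v = (y * c)⁻¹ • u := by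
        rw [mul_inv_rev, mul_smul]
        exact ⟨fun e => by rw [← e, inv_smul_smul], fun e => by rw [e, smul_inv_smul]⟩
      by_cases he : c • v = y⁻¹ • u
      · rw [← he, ← hiff.mp he, Finsupp.single_eq_same, Finsupp.single_eq_same, map_mul,
          Module.End.mul_apply, ← Module.End.mul_apply (h.rho c), ← map_mul h.rho c c⁻¹,
          mul_inv_cancel, map_one, Module.End.one_apply]
      · rw [Finsupp.single_eq_of_ne (Ne.symm he),
          Finsupp.single_eq_of_ne (Ne.symm (mt hiff.mpr he)), map_zero, map_zero]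
    have hray : ∀ x : h.fieldKF.Kˣ, (∃ y : 𝓞 h.fieldKF.K, (x : h.fieldKF.K) = y ∧ y - 1 ∈ h.fieldKF.modulus Smin) →
        ((divisor x).sum fun v n => n • φ v) = 0 := fun x hx => by
      refine LinearMap.ext fun X => ?_
      have := hΦ0 _ (Submodule.mem_sup_left ⟨Finsupp.single ⟨x, hx⟩ X, rfl⟩)
      rw [ResidualHyp.rayDiv, Finsupp.lsum_single, LinearMap.sum_apply, map_sum] at this
      rw [LinearMap.zero_apply, Finsupp.sum, LinearMap.sum_apply, ← this]
      refine Finset.sum_congr rfl fun v _ => ?_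
      rw [LinearMap.smul_apply, LinearMap.smul_apply, map_smul, Int.cast_smul_eq_zsmul]
      rfl
    let η := rayHomOfPlaces (h.fieldKF.modulus Smin) φ hray
    have hη : ∀ v : Ext.Place h.fieldKF.K, η.toFun v.asIdeal = φ v := fun v => by
      by_cases hv : IsCoprime v.asIdeal (h.fieldKF.modulus Smin)
      · exact rayHomOfPlaces_asIdeal _ φ _ v hv
      · rw [η.eq_zero _ (Or.inr hv), hout v (Or.inl (KField.mem_placesOver_of_modulus_le h.prime
          ((not_isCoprime_iff_le _ v).mp hv)))]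
    have hφ0 : ∀ v, φ v = 0 := fun v => by
      rw [← hη]
      exact hno η (fun c u => by rw [hη, hη, hequiv])
        (fun u hu => by rw [hη, hout u (Or.inr hu)]) v
    refine hΦE ?_
    rw [show Φ = 0 from Finsupp.lhom_ext fun v X => LinearMap.congr_fun (hφ0 v) X,
      LinearMap.zero_apply]
  obtain ⟨E, ⟨g, rfl⟩, z, hz, hsum⟩ := Submodule.mem_sup.mp (htop ▸ Submodule.mem_top (x := D))
  refine ⟨g, fun v hv hv' => ?_⟩
  rw [← hsum, map_add, memZ.mp hz v hv hv', add_zero]

/-- An element of the kernel as an element of the fixing subgroup. -/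
abbrev ResidualHyp.kerFix {n : h.fieldKF.H} (hn : h.fieldKF.π n = 1) :
    h.fieldKF.K.fixingSubgroup := ⟨(n : Γ), (h.fieldKF.π_ker n).mp hn⟩

open scoped Classical in
/-- The Kummer homomorphism of a family of ray elements with coefficients. -/
def ResidualHyp.kumFun (g : h.RayElt →₀ sl2 k) (n : h.fieldKF.H) : sl2 k :=
  if hn : h.fieldKF.π n = 1 then
    g.sum fun x X => algebraMap (ZMod p) k (kum p h.fieldKF.ζ x.1 (h.kerFix hn)) • X
  else 0

theorem ResidualHyp.kumFun_mul (g : h.RayElt →₀ sl2 k) (m n : h.fieldKF.H)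
    (hm : h.fieldKF.π m = 1) (hn : h.fieldKF.π n = 1) :
    h.kumFun g (m * n) = h.kumFun g m + h.kumFun g n := by
  have hmn : h.fieldKF.π (m * n) = 1 := by rw [map_mul, hm, hn, one_mul]
  rw [ResidualHyp.kumFun, ResidualHyp.kumFun, ResidualHyp.kumFun, dif_pos hm, dif_pos hn,
    dif_pos hmn, ← Finsupp.sum_add]
  refine Finsupp.sum_congr fun x _ => ?_
  rw [show h.kerFix hmn = h.kerFix hm * h.kerFix hn from Subtype.ext rfl,
    kum_mul_right h.fieldKF.hζ, map_add, add_smul]

/-- The class of a family of ray elements with coefficients. -/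
def ResidualHyp.rayClass (g : h.RayElt →₀ sl2 k) (σ : Gal) : Mat k :=
  ((corCocycle h.adF h.fieldKF.π_surj LinearMap.id (h.kumFun g) (h.inH σ) : sl2 k) : Mat k)

theorem ResidualHyp.rayClass_mul (g : h.RayElt →₀ sl2 k) (σ τ : Gal) :
    h.rayClass g (σ * τ) = h.rayClass g σ + adAct rb σ (h.rayClass g τ) := by
  rw [ResidualHyp.rayClass, show h.inH (σ * τ) = h.inH σ * h.inH τ from rfl,
    isCocycle_corCocycle h.fieldKF.π_surj _ (h.kumFun_mul g) (h.inH σ) (h.inH τ),
    Submodule.coe_add, h.coe_adF_π]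
  rfl

/-- The class on the kernel. -/
theorem ResidualHyp.corCocycle_kumFun_of_ker (g : h.RayElt →₀ sl2 k) {n : h.fieldKF.H}
    (hn : h.fieldKF.π n = 1) :
    corCocycle h.adF h.fieldKF.π_surj LinearMap.id (h.kumFun g) n =
      ∑ y : h.fieldKF.C, g.sum fun x X => algebraMap (ZMod p) k (kum p h.fieldKF.ζ
        (Units.map (h.fieldKF.act y).toRingHom.toMonoidHom x.1) (h.kerFix hn)) • h.rho y X := by
  refine Finset.sum_congr rfl fun y _ => ?_
  rw [hn, one_mul, LinearMap.id_apply, ResidualHyp.kumFun, dif_pos (map_kerPart h.fieldKF.π_surj n y),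
    map_finsuppSum]
  refine Finsupp.sum_congr fun x _ => ?_
  set s := Function.surjInv h.fieldKF.π_surj y with hs
  have hsy : h.fieldKF.π s = y := Function.surjInv_eq h.fieldKF.π_surj y
  have hconj : h.kerFix (map_kerPart h.fieldKF.π_surj n y) = h.fieldKF.conjK s⁻¹ (h.kerFix hn) := by
    refine Subtype.ext ?_
    rw [h.fieldKF.coe_conjK]
    show ((kerPart h.fieldKF.π_surj n y : h.fieldKF.H) : Γ) = _
    rw [kerPart, hn, one_mul, ← hs]
    push_cast
    rw [inv_inv]
  have hx : x.1 = Units.map (h.fieldKF.act (h.fieldKF.π s⁻¹)).toRingHom.toMonoidHom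
      (Units.map (h.fieldKF.act y).toRingHom.toMonoidHom x.1) := by
    refine Units.ext ?_
    show _ = (h.fieldKF.act (h.fieldKF.π s⁻¹) * h.fieldKF.act y) (x.1 : h.fieldKF.K)
    rw [← map_mul, map_inv, hsy, inv_mul_cancel, map_one]
    rfl
  rw [map_smul, hconj]
  conv_lhs => rw [hx, h.fieldKF.kum_act, map_inv h.fieldKF.π, hsy, map_mul, mul_comm, mul_smul]
  rw [ResidualHyp.rho, twistRep_apply, map_inv h.fieldKF.eps, MonoidHom.inv_apply]

theorem ResidualHyp.rayClass_isLevel (g : h.RayElt →₀ sl2 k) :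
    ∃ M : IntermediateField ℚ (AlgebraicClosure ℚ), FiniteDimensional ℚ M ∧
      ∀ σ s : Gal, (∀ x ∈ M, s x = x) → h.rayClass g (σ * s) = h.rayClass g σ := by
  classical
  let T : Finset Qb := (g.support ×ˢ (Finset.univ : Finset h.fieldKF.C)).image fun xy =>
    proot p ((Units.map (h.fieldKF.act xy.2).toRingHom.toMonoidHom xy.1.1 : h.fieldKF.K) : Qb)
  let M : IntermediateField ℚ Qb := h.fieldKF.K ⊔ IntermediateField.adjoin ℚ (T : Set Qb)
  have : FiniteDimensional ℚ (IntermediateField.adjoin ℚ (T : Set Qb)) :=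
    IntermediateField.finiteDimensional_adjoin fun x _ =>
      ((AlgebraicClosure.isAlgebraic ℚ).isAlgebraic x).isIntegral
  refine ⟨M, IntermediateField.finiteDimensional_sup _ _, fun σ s hs => ?_⟩
  have hs1 : h.fieldKF.π (h.inH s) = 1 := (h.fieldKF.π_ker _).mpr ((IntermediateField.mem_fixingSubgroup_iff _ _).mpr
    fun x hx => hs x (le_sup_left (b := IntermediateField.adjoin ℚ (T : Set Qb)) hx))
  have h0 : h.rayClass g s = 0 := by
    rw [ResidualHyp.rayClass, h.corCocycle_kumFun_of_ker g hs1]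
    refine (congrArg Subtype.val (Finset.sum_eq_zero fun y _ => Finset.sum_eq_zero fun x hx => ?_)
      : _ = ((0 : sl2 k) : Mat k))
    have hk : kum p h.fieldKF.ζ (Units.map (h.fieldKF.act y).toRingHom.toMonoidHom x.1) (h.kerFix hs1) = 0 :=
      (kum_eq_zero_iff h.fieldKF.hζ (proot_pow _)).mpr (hs _ ((le_sup_right (a := h.fieldKF.K))
        (IntermediateField.subset_adjoin ℚ _ (Finset.mem_coe.mpr (Finset.mem_image.mpr
          ⟨(x, y), Finset.mem_product.mpr ⟨hx, Finset.mem_univ y⟩, rfl⟩)))))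
    simp only [hk, map_zero, zero_smul]
  rw [h.rayClass_mul, h0, adAct, mul_zero, zero_mul, add_zero]

/-- The class at an inertia element away from `p`. -/
theorem ResidualHyp.rayClass_inertia (g : h.RayElt →₀ sl2 k) {l : ℕ} (hl : l.Prime)
    (hlS : l ∉ Smin) {B : ValuationSubring Qb} (hB : B.LiesOverPrime l) {π₀ : h.fieldKF.Kˣ}
    (hπ₀ : Ext.ord (placeIn h.fieldKF.K B hl hB) (π₀ : h.fieldKF.K) = 1) {σ : Gal}
    (hσ : σ ∈ B.inertiaSubgroupIn ℚ) (hσK : σ ∈ h.fieldKF.K.fixingSubgroup) :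
    h.rayClass g σ = algebraMap (ZMod p) k (kum p h.fieldKF.ζ π₀ ⟨σ, hσK⟩) •
      ((h.normDiv (placeIn h.fieldKF.K B hl hB) (h.rayDiv g) : sl2 k) : Mat k) := by
  classical
  set v := placeIn h.fieldKF.K B hl hB
  have hlp : l ≠ p := fun e => hlS (e ▸ h.mem_p)
  have hσ1 : h.fieldKF.π (h.inH σ) = 1 := (h.fieldKF.π_ker _).mpr hσK
  have hkum : ∀ z : h.fieldKF.Kˣ, kum p h.fieldKF.ζ z ⟨σ, hσK⟩ =
      (Ext.ord v (z : h.fieldKF.K) : ZMod p) * kum p h.fieldKF.ζ π₀ ⟨σ, hσK⟩ := by
    intro z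
    have h1 : kum p h.fieldKF.ζ (z / π₀ ^ Ext.ord v (z : h.fieldKF.K)) ⟨σ, hσK⟩ = 0 := by
      refine kum_eq_zero_of_dvd_ord h.fieldKF.hζ (hl := hl) (hA := hB) hlp ?_ _ hσ
      rw [Units.val_div_eq_div_val, Ext.ord_div v z.ne_zero (Units.ne_zero _),
        Units.val_zpow_eq_zpow_val, Ext.ord_zpow, hπ₀, mul_one, sub_self]
      exact dvd_zero _
    conv_lhs => rw [← div_mul_cancel z (π₀ ^ Ext.ord v (z : h.fieldKF.K))]
    rw [kum_mul h.fieldKF.hζ, h1, zero_add, ← zsmul_eq_mul]
    exact congrFun (map_zsmul (kumPairing h.fieldKF.hζ) (Ext.ord v (z : h.fieldKF.K)) (Additive.ofMul π₀))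
      ⟨σ, hσK⟩
  have key : corCocycle h.adF h.fieldKF.π_surj LinearMap.id (h.kumFun g) (h.inH σ) =
      algebraMap (ZMod p) k (kum p h.fieldKF.ζ π₀ ⟨σ, hσK⟩) • h.normDiv v (h.rayDiv g) := by
    rw [h.corCocycle_kumFun_of_ker g hσ1, h.normDiv_apply, Finset.smul_sum]
    refine Finset.sum_congr rfl fun y _ => ?_
    rw [h.rayDiv_apply, map_finsuppSum, Finsupp.smul_sum]
    refine Finsupp.sum_congr fun x _ => ?_
    rw [map_smul, smul_smul, show h.kerFix hσ1 = (⟨σ, hσK⟩ : h.fieldKF.K.fixingSubgroup) from rfl, hkum,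
      map_mul, map_intCast, mul_comm]
    congr 2
    rw [← h.fieldKF.ord_smul y (y⁻¹ • v) (x.1 : h.fieldKF.K), smul_inv_smul]
    rfl
  rw [ResidualHyp.rayClass, key, Submodule.coe_smul]

/-- The class is a coboundary at the primes of `Smin`. -/
theorem ResidualHyp.rayClass_local (g : h.RayElt →₀ sl2 k) {l : ℕ} (hl : l ∈ Smin)
    {A : ValuationSubring Qb} (hA : A.LiesOverPrime l) :
    ∃ X ∈ sl2 k, ∀ σ ∈ A.decompositionSubgroup ℚ, h.rayClass g σ = adAct rb σ X - X := by
  obtain ⟨X, hX⟩ := exists_corCocycle_eq_cobd h.fieldKF.π_surj h.adF LinearMap.id (h.kumFun_mul g)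
    ((A.decompositionSubgroup ℚ).comap h.fieldKF.H.subtype) (fun t n hn hn1 => by
      have hl' := h.prime l hl
      have ht : h.fieldKF.π (t⁻¹ * n * t) = 1 := by
        rw [map_mul, map_mul, hn1, mul_one, map_inv, inv_mul_cancel]
      rw [ResidualHyp.kumFun, dif_pos ht]
      refine Finset.sum_eq_zero fun x _ => ?_
      have hA' : (((t : Γ))⁻¹ • A).LiesOverPrime l := liesOverPrime_smul hA _
      have hk : kum p h.fieldKF.ζ x.1 (h.kerFix ht) = 0 := by
        refine kum_eq_zero_of_splitSub h.fieldKF.hζ (hl := hl') (hA := hA') ?_ _ ?_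
        · obtain ⟨y, hxy, hy⟩ := x.2
          refine Ext.near_le_splitSub h.fieldKF.hζ _ (show (placeIn h.fieldKF.K ((t : Γ)⁻¹ • A) hl' hA').valuation h.fieldKF.K
            ((x.1 : h.fieldKF.K) - 1) < _ from ?_)
          rw [hxy, show ((y : h.fieldKF.K) - 1) = (((y - 1 : 𝓞 h.fieldKF.K)) : h.fieldKF.K) by simp]
          exact KField.valuation_lt_thr_of_mem_modulus
            (Finset.mem_coe.mpr (h.fieldKF.mem_placesOver.mpr ⟨l, hl, hl', natCast_mem_placeIn⟩)) hy
        · show (t : Γ)⁻¹ * (n : Γ) * (t : Γ) ∈ _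
          refine MulAction.mem_stabilizer_iff.mpr ?_
          rw [mul_smul, mul_smul, smul_inv_smul,
            MulAction.mem_stabilizer_iff.mp (show (n : Γ) ∈ A.decompositionSubgroup ℚ from hn)]
      simp only [hk, map_zero, zero_smul])
  refine ⟨X, X.2, fun σ hσ => ?_⟩
  rw [ResidualHyp.rayClass, hX (h.inH σ) hσ, cobd_apply, Submodule.coe_sub, h.coe_adF_π]

/-- A global class with prescribed nonzero residue at an auxiliary prime. -/
theorem ResidualHyp.exists_residue_class [Finite k] (hp3 : p = 3)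
    (A : ℕ → ValuationSubring (AlgebraicClosure ℚ)) (hA : ∀ l ∈ Smin, (A l).LiesOverPrime l)
    (L : ∀ l : ℕ, Submodule k ((A l).decompositionSubgroup ℚ → Mat k))
    (hLB : ∀ l ∈ Smin, adB1 rb ((A l).decompositionSubgroup ℚ) ≤ L l)
    (Q : Finset ℕ) (hQ : ∀ q ∈ Q, q.Prime)
    (hno : h.fieldKF.NoChar h.rho (h.fieldKF.modulus Smin)
      (h.fieldKF.placesOver Q : Set (Ext.Place h.fieldKF.K)))
    {a : ℕ} (ha : a.Prime) (haS : a ∉ Smin) (haQ : a ∉ Q)
    (B : ValuationSubring (AlgebraicClosure ℚ)) (hB : B.LiesOverPrime a)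
    {φ : Gal} (hφ : B.IsFrobeniusAt φ a) (h10 : rb φ 1 0 = 0) (h00 : rb φ 0 0 = 1)
    (h11 : rb φ 1 1 = 1) (h01 : rb φ 0 1 ≠ 0) :
    ∃ c ∈ selmer rb Smin (insert a Q) A L, ∃ σ ∈ B.inertiaSubgroupIn ℚ, c σ ≠ 0 := by
  classical
  subst hp3
  have : Normal ℚ h.fieldKF.K := h.normal
  set w := placeIn h.fieldKF.K B ha hB
  let F₀ : sl2 k := ⟨!![0, 0; 1, 0], by
    show Matrix.trace (!![0, 0; 1, 0] : Mat k) = 0
    simp [Matrix.trace_fin_two]⟩
  obtain ⟨g, hg⟩ := h.exists_ray_normDiv_eq Q hno (Finsupp.single w F₀)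
  have hinK : ∀ {l : ℕ}, l.Prime → l ∉ Smin → ∀ B' : ValuationSubring Qb, B'.LiesOverPrime l →
      ∀ σ ∈ B'.inertiaSubgroupIn ℚ, σ ∈ h.fieldKF.K.fixingSubgroup := fun hl hlS B' hB' σ hσ =>
    h.mem_kerField.mpr (h.unramified _ hl hlS B' hB' σ hσ)
  have houtside : ∀ {l : ℕ} (hl : l.Prime) (B' : ValuationSubring Qb) (hB' : B'.LiesOverPrime l)
      (P : Finset ℕ), l ∉ P → placeIn h.fieldKF.K B' hl hB' ∉ h.fieldKF.placesOver P :=
    fun hl B' hB' P hlP hv => by
      obtain ⟨q, hq, hq', hqv⟩ := h.fieldKF.mem_placesOver.mp hv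
      exact hlP (eq_of_natCast_mem hq' hl _ hqv natCast_mem_placeIn ▸ hq)
  refine ⟨h.rayClass g, ⟨h.rayClass_mul g, fun σ => ?_, h.rayClass_isLevel g, fun l hl => ?_,
    fun l hl hlS hlQ B' hB' σ hσ => ?_⟩, ?_⟩
  · exact (corCocycle h.adF h.fieldKF.π_surj LinearMap.id (h.kumFun g) (h.inH σ)).2
  · obtain ⟨X, hX, hcX⟩ := h.rayClass_local g hl (hA l hl)
    exact hLB l hl ⟨X, hX, funext fun σ => (hcX σ σ.2).symm⟩
  · obtain ⟨hla, hlQ'⟩ := not_or.mp (Finset.mem_insert.not.mp hlQ)
    set v := placeIn h.fieldKF.K B' hl hB'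
    obtain ⟨π₀, hπ₀⟩ := Ext.exists_ord_eq_one v
    rw [h.rayClass_inertia g hl hlS hB' hπ₀ hσ (hinK hl hlS B' hB' σ hσ),
      hg v (houtside hl B' hB' _ hlS) (houtside hl B' hB' _ hlQ'), h.normDiv_apply,
      Finset.sum_eq_zero fun y _ => ?_, Submodule.coe_zero, smul_zero]
    rw [Finsupp.single_eq_of_ne, map_zero]
    intro he
    refine hla (eq_of_natCast_mem hl ha w ?_ natCast_mem_placeIn)
    rw [← he]
    exact (h.fieldKF.mem_smul_iff y⁻¹ v l).mpr natCast_mem_placeIn
  · obtain ⟨π₀, hπ₀⟩ := Ext.exists_ord_eq_one w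
    obtain ⟨σ, hσ, hne⟩ : ∃ σ : h.fieldKF.K.fixingSubgroup,
        (σ : Γ) ∈ B.inertiaSubgroupIn ℚ ∧ kum 3 h.fieldKF.ζ π₀ σ ≠ 0 := by
      by_contra hc
      push Not at hc
      have h1 : (((3 : ℕ) : ℤ)) ∣ Ext.ord w (π₀ : h.fieldKF.K) :=
        dvd_ord_of_kum_eq_zero h.fieldKF.hζ (hl := ha) (hA := hB) hc
      rw [hπ₀] at h1
      norm_num at h1
    refine ⟨σ, hσ, ?_⟩
    rw [h.rayClass_inertia g ha haS hB hπ₀ hσ σ.2, hg w (houtside ha B hB _ haS)
      (houtside ha B hB _ haQ)]
    refine smul_ne_zero ((map_ne_zero _).mpr hne) ?_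
    set u := h.fieldKF.π (h.inH φ)
    have h3 : (3 : k) = 0 := by exact_mod_cast CharP.cast_eq_zero k 3
    have hrb : rb φ = !![1, rb φ 0 1; 0, 1] := by
      ext i j; fin_cases i <;> fin_cases j <;> simp [h00, h10, h11]
    have hinv : rb φ⁻¹ = !![1, -rb φ 0 1; 0, 1] := by
      refine (left_inv_eq_right_inv (a := rb φ) (by rw [← map_mul, inv_mul_cancel, map_one]) ?_)
      conv_lhs => arg 1; rw [hrb]
      ext i j; fin_cases i <;> fin_cases j <;> simp [Matrix.mul_apply, Fin.sum_univ_two]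
    have hval : ∀ n : ℕ, ((h.rbF (u ^ n) : GL (Fin 2) k) : Mat k) =
        !![1, (n : k) * rb φ 0 1; 0, 1] := fun n => by
      rw [map_pow, Units.val_pow_eq_pow_val, h.coe_rbF_π]
      induction n with
      | zero => ext i j; fin_cases i <;> fin_cases j <;> simp
      | succ n ih =>
        rw [pow_succ, ih, hrb]
        ext i j
        fin_cases i <;> fin_cases j <;> simp [Matrix.mul_apply, Fin.sum_univ_two] <;> ring
    have hu3 : u ^ 3 = 1 := h.rbF_injective (Units.ext (by
      rw [hval, map_one, Units.val_one]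
      ext i j; fin_cases i <;> fin_cases j <;> simp [h3]))
    have hdist : ∀ m n : ℕ, u ^ m = u ^ n → (m : k) = n := fun m n e => by
      have := congrArg (fun c => ((h.rbF c : GL (Fin 2) k) : Mat k) 0 1) e
      simp only [hval] at this
      exact mul_right_cancel₀ h01 (by simpa using this)
    have hu0 : (1 : h.fieldKF.C) ≠ u := fun e => by
      have := hdist 0 1 (by simpa using e)
      simp at this
    have hu1 : (1 : h.fieldKF.C) ≠ u ^ 2 := fun e => by
      have := hdist 0 2 (by simpa using e)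
      push_cast at this
      exact one_ne_zero (α := k) (by linear_combination h3 + this)
    have hu2 : u ≠ u ^ 2 := fun e => by
      have := hdist 1 2 (by simpa using e)
      push_cast at this
      exact one_ne_zero (α := k) (by linear_combination -this)
    have hfix : u • w = w := h.smul_placeIn_of_decomposition ha hB hφ.mem_decompositionSubgroup
    have hstab : Finset.univ.filter (fun y : h.fieldKF.C => y⁻¹ • w = w) = {1, u, u ^ 2} := by
      ext y
      simp only [Finset.mem_filter, Finset.mem_univ, true_and, inv_smul_eq_iff,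
        Finset.mem_insert, Finset.mem_singleton]
      constructor
      · intro hy
        obtain ⟨d, hd, rfl⟩ := h.exists_decomposition_of_stabilizer ha hB hy.symm
        obtain ⟨n, ι, hι, hdι⟩ := Local.exists_frobenius_pow_mul ha hB hφ h.fieldKF.K hd
        have h1 : h.fieldKF.π (h.inH d) = u ^ n := by
          have hι1 : h.fieldKF.π (h.inH ι) = 1 := (h.fieldKF.π_ker _).mpr (hinK ha haS B hB ι hι)
          have h2 : h.fieldKF.π (h.inH (φ ^ n * ι)⁻¹ * h.inH d) = 1 := (h.fieldKF.π_ker _).mpr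
            ((IntermediateField.mem_fixingSubgroup_iff _ _).mpr fun x hx => by
              show (φ ^ n * ι)⁻¹ (d x) = x
              rw [hdι x hx]
              exact AlgEquiv.symm_apply_apply (φ ^ n * ι) x)
          rw [show h.inH (φ ^ n * ι)⁻¹ = (h.inH φ ^ n * h.inH ι)⁻¹ from
            Subtype.ext (by simp), map_mul, map_inv, inv_mul_eq_one] at h2
          rw [← h2, map_mul, map_pow, hι1, mul_one]
        rw [h1, ← Nat.mod_add_div n 3, pow_add, pow_mul, hu3, one_pow, mul_one]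
        have : n % 3 < 3 := Nat.mod_lt _ (by norm_num)
        interval_cases n % 3 <;> simp
      · rintro (rfl | rfl | rfl)
        · rw [one_smul]
        · exact hfix.symm
        · rw [sq, mul_smul, hfix, hfix]
    have hrho : ∀ n : ℕ, ∀ X : sl2 k, h.rho (u ^ n) X = adGL (h.rbF (u ^ n)) X := fun n X =>
      h.rho_of_det_one (by rw [hval]; simp [Matrix.det_fin_two]) X
    have hsum : h.normDiv w (Finsupp.single w F₀) =
        ∑ y ∈ ({1, u, u ^ 2} : Finset h.fieldKF.C), h.rho y F₀ := by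
      rw [h.normDiv_apply, ← hstab, Finset.sum_filter]
      refine Finset.sum_congr rfl fun y _ => ?_
      split_ifs with hy
      · rw [hy, Finsupp.single_eq_same]
      · rw [Finsupp.single_eq_of_ne hy, map_zero]
    rw [hsum, Finset.sum_insert (by simp [hu0, hu1]), Finset.sum_insert (by simp [hu2]),
      Finset.sum_singleton, map_one, Module.End.one_apply]
    have hr1 : ((h.rho u F₀ : sl2 k) : Mat k) = adAct rb φ F₀ := by
      have e := hrho 1 F₀
      rw [pow_one, ← h.adF_apply] at e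
      rw [e, h.coe_adF_π]
    have hr2 : ((h.rho (u ^ 2) F₀ : sl2 k) : Mat k) = adAct rb (φ * φ) F₀ := by
      rw [hrho 2 F₀, ← h.adF_apply, ← h.coe_adF_π, sq, ← map_mul]
      rfl
    intro hzero
    rw [Submodule.coe_add, Submodule.coe_add, hr1, hr2] at hzero
    have h4 := congrFun (congrFun hzero 0) 1
    simp only [adAct, mul_inv_rev, map_mul, hinv] at h4
    rw [hrb] at h4
    simp [Matrix.mul_apply, Fin.sum_univ_two, F₀] at h4
    exact mul_ne_zero h01 h01 (by linear_combination h4 + 2 * (rb φ 0 1) * (rb φ 0 1) * h3)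

end residue

end FLTAgent.TW
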