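import Fermat.Agent.TW.Mono.Local
import Fermat.Agent.TW.Mono.Counts
import Fermat.Agent.TW.Mono.PlaceCounts
import Fermat.Agent.TW.Mono.Residue
import Fermat.Agent.TW.Mono.Primes
import Fermat.Agent.TW.Mono.RelProjThree
import Fermat.Agent.TW.SelmerBound

/-!
# The Selmer bound in the monomial case
-/

set_option autoImplicit false
set_option linter.unusedSectionVars false
set_option maxHeartbeats 2000000
set_option synthInstance.maxHeartbeats 200000

open IsDedekindDomain NumberField Polynomial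
open scoped Pointwise Classical

noncomputable section

namespace FLTAgent.TW

open FLTAgent.Deformation FLTAgent.Frobenius

attribute [local irreducible] KField.eqHom

/-- An injective image of two finite spaces. -/
theorem finite_range_finrank {R U V M : Type} [Field R] [AddCommGroup U] [Module R U]
    [AddCommGroup V] [Module R V] [AddCommGroup M] [Module R M] [Module.Finite R U]
    [Module.Finite R V] (F : U × V →ₗ[R] M) (hF : Function.Injective F) :
    Module.Finite R (LinearMap.range F) ∧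
      Module.finrank R (LinearMap.range F) = Module.finrank R U + Module.finrank R V :=
  ⟨inferInstance, by
    have : Module.Free R U := Module.Free.of_divisionRing R U
    have : Module.Free R V := Module.Free.of_divisionRing R V
    rw [LinearMap.finrank_range_of_inj hF, Module.finrank_prod]⟩

variable {k : Type} [Field k] [Finite k] {p : ℕ} [hpf : Fact p.Prime] [CharP k p]
  [Algebra (ZMod p) k]
variable {rb : Gal →* Mat k} {Smin : Finset ℕ} (h : ResidualHyp p rb Smin)

local instance (priority := high) subFunMIGroup' {X : Type} (P : Submodule k (X → h.MI)) :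
    AddCommGroup P :=
  @Submodule.addCommGroup k (X → h.MI) _ (@Pi.addCommGroup X _ fun _ => Submodule.addCommGroup h.MI)
    (@Pi.module X (fun _ => ↥h.MI) k _ _ fun _ => Submodule.module h.MI) P

theorem ResidualHyp.invariants_chRep_eq_bot {χ : h.monoKF.C →* kˣ} (hχ : χ ≠ 1) :
    Representation.invariants (chRep χ) = ⊥ := by
  obtain ⟨c, hc⟩ : ∃ c, χ c ≠ 1 := not_forall.mp fun hall => hχ (MonoidHom.ext hall)
  rw [eq_bot_iff]
  intro x hx
  rw [Submodule.mem_bot]
  have h1 := hx c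
  rw [chRep_apply] at h1
  have h2 : (((χ c : kˣ) : k) - 1) * x = 0 := by rw [sub_mul, one_mul, h1, sub_self]
  exact (mul_eq_zero.mp h2).resolve_left (sub_ne_zero.mpr fun e => hc (Units.ext e))

section

variable {A : ℕ → ValuationSubring (AlgebraicClosure ℚ)}
  {L : ∀ l : ℕ, Submodule k ((A l).decompositionSubgroup ℚ → Mat k)}

include h in
/-- The Selmer space is finite. -/
theorem ResidualHyp.finite_selmer {P : Finset ℕ} :
    Module.Finite k (selmer rb Smin P A L) := by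
  set T := h.fieldKF.placesOver (Smin ∪ P)
  have hT := h.fieldKF.placesOver_stable (Smin ∪ P)
  have hpT : ∀ v : Ext.Place h.fieldKF.K, (p : 𝓞 h.fieldKF.K) ∈ v.asIdeal → v ∈ T := fun v hv =>
    h.fieldKF.mem_placesOver.mpr ⟨p, Finset.mem_union_left _ h.mem_p, hpf.out, hv⟩
  have := KField.finite_eqHom (ρ := h.rho) hT hpT
  set res := h.resSel (Q := P) (A := A) (L := L)
  have : Module.Finite k (LinearMap.range res) :=
    Submodule.finiteDimensional_of_le (S₂ := h.fieldKF.eqHom h.rho (T : Set (Ext.Place _))) (by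
      rintro _ ⟨c, rfl⟩
      exact h.resSel_mem c)
  have : Module.Finite k (selmer rb Smin P A L ⧸ LinearMap.ker res) :=
    Module.Finite.equiv res.quotKerEquivRange.symm
  have : Finite (LinearMap.ker res) := by
    refine Finite.of_injective (fun c : LinearMap.ker res => fun x : h.fieldKF.C =>
      (c.1.1 : Gal → Mat k) ((Function.surjInv h.fieldKF.π_surj x : h.fieldKF.H) : Γ))
      fun a b hab => Subtype.ext (Subtype.ext (funext fun g => ?_))
    have key : ∀ c : LinearMap.ker res, c.1.1 g = c.1.1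
        ((Function.surjInv h.fieldKF.π_surj (h.fieldKF.π (h.inH g)) : h.fieldKF.H) : Γ) := fun c =>
      congrArg (fun X : sl2 k => (X : Mat k)) ((h.isCocycle_selmer c.1).eq_of_map_eq
        (fun n hn => congrFun (LinearMap.mem_ker.mp c.2) ⟨(n : Γ), (h.fieldKF.π_ker n).mp hn⟩)
        (g := h.inH g) (Function.surjInv_eq h.fieldKF.π_surj _).symm)
    rw [key a, key b]
    exact congrFun hab _
  have : Module.Finite k (LinearMap.ker res) := Module.Finite.of_finite
  exact Module.Finite.of_submodule_quotient (LinearMap.ker res)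

end

section bound

/-- The fixed vectors as equivariant functions on places. -/
theorem ResidualHyp.sum_fixed_adI_eq {A : ℕ → ValuationSubring (AlgebraicClosure ℚ)}
    (hA : ∀ l ∈ Smin, (A l).LiesOverPrime l) :
    ∑ l : Smin, Module.finrank k (fixedBy' (W := h.MI) h.adI
      (MulAction.stabilizer h.fieldKF.C
        (placeIn h.fieldKF.K (A l) (h.prime l l.2) (hA l l.2)) : Set h.fieldKF.C)) =
      ∑ l ∈ Smin, Module.finrank k
        (eqFunOn (W := h.MI) h.adI (h.fieldKF.placesOver {l} : Set (Ext.Place h.fieldKF.K))) := by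
  rw [← Finset.sum_coe_sort Smin]
  refine Finset.sum_congr rfl fun l _ => ?_
  rw [h.finrank_eqFunOn_over (h.prime l l.2) (hA l l.2) (W := h.MI) h.adI]

variable (hp : p ≠ 2) (hu : ∃ u ∈ unipPart (imageGL rb), u ≠ 1)
  (hq : 3 < Nat.card (unipPart (imageGL rb)))
variable {A : ℕ → ValuationSubring (AlgebraicClosure ℚ)} (hA : ∀ l ∈ Smin, (A l).LiesOverPrime l)
  {L : ∀ l : ℕ, Submodule k ((A l).decompositionSubgroup ℚ → Mat k)}
  (hLB : ∀ l ∈ Smin, adB1 rb ((A l).decompositionSubgroup ℚ) ≤ L l)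
  (hLZ : ∀ l ∈ Smin, L l ≤ adZ1 rb ((A l).decompositionSubgroup ℚ))
  (hLfin : ∀ l ∈ Smin, Module.Finite k (L l))
variable {n : ℕ} {bad Q A₀ : Finset ℕ} (hbad : Smin ⊆ bad) (hA₀bad : A₀ ⊆ bad)
  (hQ : h.TWSet n bad Q)
  (hA₀ : ∀ a ∈ A₀, a.Prime ∧ a ∉ Smin ∧ ∃ (B : ValuationSubring Qb) (φ : Γ),
    B.LiesOverPrime a ∧ B.IsFrobeniusAt φ a ∧ rb φ 1 0 = 0 ∧ rb φ 0 0 = 1 ∧ rb φ 1 1 = 1 ∧
      rb φ 0 1 ≠ 0)
  (hno : ∀ j : Fin 3, h.monoKF.NoChar (h.rhoX j) (h.monoKF.modulus Smin)
    (h.monoKF.placesOver (if j = 2 then Q ∪ A₀ else Q) : Set (Ext.Place h.monoKF.K)))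

include hp hu hq hA hLB hLZ hLfin hbad hA₀bad hQ hA₀ hno

/-- The bound with the auxiliary primes allowed. -/
theorem ResidualHyp.selmer_mono_le :
    Module.finrank k (selmer rb Smin (Q ∪ A₀) A L) + ∑ l ∈ Smin, (if l = p then 4 else 3) ≤
      (Q ∪ A₀).card + 3 + ∑ l ∈ Smin, Module.finrank k (L l) := by
  choose hap haS B φ hB hφ h10 h00 h11 h01 using hA₀
  have hQp : ∀ q ∈ Q, q.Prime := fun q hq => (hQ q hq).1
  have hSQ : Disjoint Smin Q :=
    Finset.disjoint_right.mpr fun q hq => (hQ.prime_spec h hbad hq).2.2.1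
  have hQA : Disjoint Q A₀ := Finset.disjoint_left.mpr fun q hq ha => (hQ q hq).2.1 (hA₀bad ha)
  have hSA : Disjoint Smin A₀ := Finset.disjoint_right.mpr haS
  have hSP : Disjoint Smin (Q ∪ A₀) := Finset.disjoint_union_right.mpr ⟨hSQ, hSA⟩
  set P := Q ∪ A₀ with hPdef
  have hPp : ∀ l ∈ Smin ∪ P, l.Prime := fun l hl => by
    rcases Finset.mem_union.mp hl with hl | hl
    · exact h.prime l hl
    · exact (Finset.mem_union.mp hl).elim (hQp l) (hap l)
  -- the places allowed for the pieces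
  let aux : Set (Ext.Place h.monoKF.K) :=
    {v | ∃ a, ∃ ha : a ∈ A₀, v ∈ h.auxOrbit (hap a ha) (hB a ha)}
  have haux : ∀ (c : h.monoKF.C) v, c • v ∈ aux ↔ v ∈ aux := by
    have hfwd : ∀ (c : h.monoKF.C) v, v ∈ aux → c • v ∈ aux := fun c v ⟨a, ha, hv⟩ =>
      ⟨a, ha, MulAction.mem_orbit_of_mem_orbit c hv⟩
    exact fun c v => ⟨fun hv => inv_smul_smul c v ▸ hfwd c⁻¹ _ hv, hfwd c v⟩
  let TX : Fin 3 → Finset (Ext.Place h.monoKF.K) := fun j =>
    (h.monoKF.placesOver (Smin ∪ P)).filter fun v => j = 2 ∨ v ∉ aux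
  have hTXst : ∀ j, h.monoKF.IsStable (TX j : Set (Ext.Place h.monoKF.K)) := fun j c v hv => by
    simp only [TX, Finset.coe_filter, Set.mem_setOf_eq] at hv ⊢
    exact ⟨h.monoKF.placesOver_stable _ c v hv.1, hv.2.imp_right fun hn hcv => hn ((haux c v).mp hcv)⟩
  have hauxp : ∀ v ∈ aux, ∃ a ∈ A₀, a.Prime ∧ ((a : ℕ) : 𝓞 h.monoKF.K) ∈ v.asIdeal := by
    rintro v ⟨a, ha, c, rfl⟩
    exact ⟨a, ha, hap a ha, (h.monoKF.mem_smul_iff c _ _).mpr natCast_mem_placeIn⟩
  have hnotaux : ∀ {l : ℕ}, l.Prime → l ∉ A₀ → ∀ v : Ext.Place h.monoKF.K,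
      (l : 𝓞 h.monoKF.K) ∈ v.asIdeal → v ∉ aux := fun hl hlA v hlv hv => by
    obtain ⟨a, ha, hap', hav⟩ := hauxp v hv
    exact hlA (eq_of_natCast_mem hl hap' v hlv hav ▸ ha)
  have hpA : p ∉ A₀ := fun ha => haS p ha h.mem_p
  have hpTX : ∀ j, ∀ v : Ext.Place h.monoKF.K, (p : 𝓞 h.monoKF.K) ∈ v.asIdeal →
      v ∈ (TX j : Set (Ext.Place h.monoKF.K)) := fun j v hv => by
    simp only [TX, Finset.coe_filter, Set.mem_setOf_eq]
    exact ⟨h.monoKF.mem_placesOver.mpr ⟨p, Finset.mem_union_left _ h.mem_p, hpf.out, hv⟩,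
      Or.inr (hnotaux hpf.out hpA v hv)⟩
  have hmTX : ∀ j, ∀ v : Ext.Place h.monoKF.K, h.monoKF.modulus Smin ≤ v.asIdeal → v ∈ TX j :=
    fun j v hv => by
      obtain ⟨l, hl, hlp, hlv⟩ := h.monoKF.mem_placesOver.mp
        (h.monoKF.mem_placesOver_of_modulus_le h.prime hv)
      exact Finset.mem_filter.mpr ⟨h.monoKF.mem_placesOver.mpr
        ⟨l, Finset.mem_union_left _ hl, hlp, hlv⟩,
        Or.inr (hnotaux hlp (Finset.disjoint_left.mp hSA hl) v hlv)⟩
  have hQTX : ∀ j : Fin 3,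
      (h.monoKF.placesOver (if j = 2 then Q ∪ A₀ else Q) : Set (Ext.Place h.monoKF.K)) ⊆
        (TX j : Set (Ext.Place h.monoKF.K)) := fun j v hv => by
    obtain ⟨l, hl, hlp, hlv⟩ := h.monoKF.mem_placesOver.mp hv
    simp only [TX, Finset.coe_filter, Set.mem_setOf_eq]
    by_cases hj : j = 2
    · rw [if_pos hj] at hl
      exact ⟨h.monoKF.mem_placesOver.mpr ⟨l, Finset.mem_union_right _ hl, hlp, hlv⟩, Or.inl hj⟩
    · rw [if_neg hj] at hl
      exact ⟨h.monoKF.mem_placesOver.mpr ⟨l, Finset.mem_union_right _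
        (Finset.mem_union_left _ hl), hlp, hlv⟩,
        Or.inr (hnotaux hlp (Finset.disjoint_left.mp hQA hl) v hlv)⟩
  -- the classes
  set TF := h.fieldKF.placesOver (Smin ∪ P) with hTFdef
  have hTFst := h.fieldKF.placesOver_stable (Smin ∪ P)
  have hpTF : ∀ v : Ext.Place h.fieldKF.K, (p : 𝓞 h.fieldKF.K) ∈ v.asIdeal → v ∈ TF := fun v hv =>
    h.fieldKF.mem_placesOver.mpr ⟨p, Finset.mem_union_left _ h.mem_p, hpf.out, hv⟩
  have hSelfin := h.finite_selmer (P := P) (A := A) (L := L)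
  have hEfin : Module.Finite k
      (h.fieldKF.eqHom (W := h.MI) h.rhoI (TF : Set (Ext.Place h.fieldKF.K))) :=
    KField.finite_eqHom (W := h.MI) hTFst hpTF
  obtain ⟨hZfin, hZdim⟩ := finite_range_finrank
    (h.glob hu (Q := P) (A := A) (L := L) (TF := (TF : Set (Ext.Place h.fieldKF.K))))
    (h.glob_injective hu hp hq)
  obtain ⟨Λ, hΛfin, hΛmem, hΛdim⟩ := h.exists_monoLocImage hA hu hLB hLZ hLfin P TF hTFst hpTF
  have hUst := h.monoKF.placesOver_stable Smin
  have := h.monoKF.finite_locK Smin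
  have hImfin : ∀ j : Fin 3, Module.Finite k
      ↥(h.monoKF.eqHom (h.rhoX j) (TX j : Set (Ext.Place h.monoKF.K)) ⊓
        (Λ j).comap (KField.decRes (h.monoKF.placesOver Smin : Set (Ext.Place h.monoKF.K)))) :=
    fun j => by
      have := KField.finite_eqHom (ρ := h.rhoX j) (hTXst j) (hpTX j)
      exact Submodule.finiteDimensional_of_le inf_le_left
  set Z := LinearMap.range
    (h.glob hu (Q := P) (A := A) (L := L) (TF := (TF : Set (Ext.Place h.fieldKF.K))))
  have hZcoc : ∀ z ∈ Z, IsCocycle (borelπ rb) adGL z := by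
    rintro _ ⟨x, rfl⟩
    exact h.isCocycle_glob hu x
  have hIm : ∀ j : Fin 3, ∀ z ∈ Z ⊓ levFun rb (j : ℕ), h.pc j z ∈
      h.monoKF.eqHom (h.rhoX j) (TX j : Set (Ext.Place h.monoKF.K)) ⊓
        (Λ j).comap (KField.decRes (h.monoKF.placesOver Smin : Set (Ext.Place h.monoKF.K))) := by
    rintro j _ ⟨⟨x, rfl⟩, hlev⟩
    refine ⟨h.pc_mem_eqHom (hZcoc _ ⟨x, rfl⟩) (h.glob_level hu x) hlev ?_, hΛmem j x hlev⟩
    intro B' l hl hB' hv σ hσ
    simp only [TX, Finset.coe_filter, Set.mem_setOf_eq, not_and_or, not_or, not_not] at hv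
    rw [h.pc_apply]
    rcases hv with hv | ⟨hj, hv⟩
    · have hlS : l ∉ Smin ∪ P := fun hl' =>
        hv (h.monoKF.mem_placesOver.mpr ⟨l, hl', hl, natCast_mem_placeIn⟩)
      have hTF' : placeIn h.fieldKF.K B' hl hB' ∉ (TF : Set (Ext.Place h.fieldKF.K)) := fun hm => by
        obtain ⟨q, hq', hqp, hqv⟩ := h.fieldKF.mem_placesOver.mp hm
        exact hlS (eq_of_natCast_mem hl hqp _ natCast_mem_placeIn hqv ▸ hq')
      rw [Finset.mem_union, not_or] at hlS
      rw [h.glob_inertia hu x hl hlS.1 hlS.2 hB' hTF' hσ, map_zero]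
    · obtain ⟨a, ha, c, hc⟩ := hv
      obtain rfl : a = l := eq_of_natCast_mem (hap a ha) hl (placeIn h.monoKF.K B' hl hB')
        (hc ▸ (h.monoKF.mem_smul_iff c _ _).mpr natCast_mem_placeIn) natCast_mem_placeIn
      obtain ⟨g, hg, -⟩ := h.exists_borel_smul hl (hB a ha) hB' (c := c) hc
      set σ' := h.monoKF.conjK g⁻¹ σ with hσ'def
      have hσ' : (σ' : Γ) ∈ (B a ha).inertiaSubgroupIn ℚ := by
        have h1 := inertiaSubgroupIn_conj hσ (g : Γ)⁻¹
        rw [← hg, inv_smul_smul] at h1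
        exact h1
      have hz0 : h.coordH j (h.glob hu x) ⟨(σ' : Γ), h.monoKF.fix_le σ'.2⟩ = 0 := by
        have h2 := h.glob_inertia_aux hu hp x hl (haS a ha) (hB a ha) (hφ a ha) (h10 a ha)
          (h00 a ha) (h11 a ha) (h01 a ha) (σ := h.fixB σ') hσ'
        have hj2 : (j : ℕ) < 2 := by
          have := j.isLt
          have : (j : ℕ) ≠ 2 := fun e => hj (Fin.ext e)
          omega
        exact mem_lev.mp h2 j hj2
      have hcj := (h.isCocycle_coord (hZcoc _ ⟨x, rfl⟩) hlev).conj_ker g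
        (n := ⟨(σ' : Γ), h.monoKF.fix_le σ'.2⟩) ((h.monoKF.π_ker _).mpr σ'.2)
      rw [hz0, map_zero] at hcj
      rw [← h.pc_apply, ← h.coordH_fix]
      refine Eq.trans (congrArg _ (Subtype.ext ?_)) hcj
      show (σ : Γ) = (g : Γ) * (σ' : Γ) * (g : Γ)⁻¹
      rw [hσ'def, KField.coe_conjK, Subgroup.coe_inv]
      group
  -- the filtration
  have s0 := h.finrank_step_le Z hZcoc 0 _ (hIm 0)
  have s1 := h.finrank_step_le Z hZcoc 1 _ (hIm 1)
  have s2 := h.finrank_step_le Z hZcoc 2 _ (hIm 2)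
  have hz : Module.finrank k Z = Module.finrank k ↥(Z ⊓ levFun rb ((0 : Fin 3) : ℕ)) := by
    rw [Fin.val_zero, levFun_zero, inf_top_eq]
  have hz3 : Module.finrank k ↥(Z ⊓ levFun rb (((2 : Fin 3) : ℕ) + 1)) = 0 := by
    rw [Fin.val_two, levFun_three, inf_bot_eq, finrank_bot]
  simp only [show (0 : Fin 3) ≠ 1 by decide, show (2 : Fin 3) ≠ 1 by decide, if_false, if_true,
    Fin.val_zero, Fin.val_one, Fin.val_two] at s0 s1 s2 hz hz3
  have e01 : Module.finrank k ↥(Z ⊓ levFun rb (0 + 1)) = Module.finrank k ↥(Z ⊓ levFun rb 1) := rfl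
  have e12 : Module.finrank k ↥(Z ⊓ levFun rb (1 + 1)) = Module.finrank k ↥(Z ⊓ levFun rb 2) := rfl
  -- the pieces
  have hpiece : ∀ j : Fin 3, Module.finrank k
      ↥(h.monoKF.eqHom (h.rhoX j) (TX j : Set (Ext.Place h.monoKF.K)) ⊓
        (Λ j).comap (KField.decRes (h.monoKF.placesOver Smin : Set (Ext.Place h.monoKF.K)))) +
      cnt (h.rhoX j) (KField.locRep hUst) ≤
      Module.finrank k (eqFun (h.rhoX j) (InfinitePlace h.monoKF.K)) +
      Module.finrank k (eqFunOn (h.rhoX j) (TX j : Set (Ext.Place h.monoKF.K))) +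
      (if j = 1 then 1 else 0) + Module.finrank k (Λ j) := fun j => by
    have := hΛfin j
    have h1 := KField.selmer_count_le (ρ := h.rhoX j) (h.isRelProj_chRep (h.chR j)) (TX j) (hTXst j) hUst
      (hpTX j) (hmTX j) (hQTX j) (hno j)
      (fun v hv y hy => KField.valuation_lt_thr_of_mem_modulus hv hy) (Λ j)
    have h2 := h.monoKF.cnt_units (ρ := h.rhoX j) (h.isRelProj_chRep _) (TX j) (hTXst j)
    have h3 : Module.finrank k (Representation.invariants (h.rhoX j)) = 0 := by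
      rw [ResidualHyp.rhoX, h.invariants_chRep_eq_bot (h.chR_ne_one hp hu hq j), finrank_bot]
    have h4 : Module.finrank k (Representation.invariants (twistRep h.monoKF.eps (h.rhoX j))) ≤
        if j = 1 then 1 else 0 := by
      rw [h.twist_rhoX]
      split_ifs with hj
      · exact (Submodule.finrank_le _).trans_eq (Module.finrank_self k)
      · rw [ResidualHyp.adX, h.invariants_chRep_eq_bot (h.chX_ne_one hp hu hq hj), finrank_bot]
    unfold eqFunOn
    omega
  have p0 := hpiece 0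
  have p1 := hpiece 1
  have p2 := hpiece 2
  simp only [show (0 : Fin 3) ≠ 1 by decide, show (2 : Fin 3) ≠ 1 by decide, if_false, if_true]
    at p0 p1 p2
  -- places
  let E : Fin 3 → ℕ → ℕ := fun j l =>
    Module.finrank k (eqFunOn (h.rhoX j) (h.monoKF.placesOver {l} : Set (Ext.Place h.monoKF.K)))
  let E' : Fin 3 → ℕ → ℕ := fun j l =>
    Module.finrank k (eqFunOn (h.rhoX j)
      ((h.monoKF.placesOver {l} : Set (Ext.Place h.monoKF.K)) \ aux))
  let F : ℕ → ℕ := fun l =>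
    Module.finrank k
      (eqFunOn (W := h.MI) h.rhoI (h.fieldKF.placesOver {l} : Set (Ext.Place h.fieldKF.K)))
  have hTXle : ∀ j : Fin 3,
      Module.finrank k (eqFunOn (h.rhoX j) (TX j : Set (Ext.Place h.monoKF.K))) ≤
        ∑ l ∈ Smin, E j l + ∑ l ∈ Q, E j l + ∑ l ∈ A₀, (if j = 2 then E j l else E' j l) := by
    intro j
    have key := finrank_eqFunOn_le_sum (h.rhoX j) (Smin ∪ P)
      (fun l => if l ∈ A₀ ∧ j ≠ 2 then (h.monoKF.placesOver {l} : Set (Ext.Place h.monoKF.K)) \ aux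
        else (h.monoKF.placesOver {l} : Set (Ext.Place h.monoKF.K)))
      (fun l _ c v hv => by
        split_ifs at hv ⊢ with hl
        · exact ⟨h.monoKF.placesOver_stable _ c v hv.1, fun hn => hv.2 ((haux c v).mp hn)⟩
        · exact h.monoKF.placesOver_stable _ c v hv)
      (fun l _ => by
        split_ifs
        · exact (Finset.finite_toSet _).subset Set.sdiff_subset
        · exact Finset.finite_toSet _)
      (U := (TX j : Set (Ext.Place h.monoKF.K))) (fun v hv => by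
        simp only [TX, Finset.coe_filter, Set.mem_setOf_eq] at hv
        obtain ⟨l, hl, hlp, hlv⟩ := h.monoKF.mem_placesOver.mp hv.1
        have hm : v ∈ (h.monoKF.placesOver {l} : Set (Ext.Place h.monoKF.K)) :=
          h.monoKF.mem_placesOver.mpr ⟨l, Finset.mem_singleton_self l, hlp, hlv⟩
        refine Set.mem_iUnion₂.mpr ⟨l, hl, ?_⟩
        split_ifs with hl'
        · exact ⟨hm, hv.2.resolve_left hl'.2⟩
        · exact hm)
    refine key.trans (le_of_eq ?_)
    rw [Finset.sum_union hSP, Finset.sum_union hQA, ← add_assoc]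
    congr 1
    · congr 1 <;> refine Finset.sum_congr rfl fun l hl => ?_
      · rw [if_neg fun hh => Finset.disjoint_left.mp hSA hl hh.1]
      · rw [if_neg fun hh => Finset.disjoint_left.mp hQA hl hh.1]
    · refine Finset.sum_congr rfl fun a ha => ?_
      by_cases hj : j = 2
      · rw [if_pos hj, if_neg fun hh => hh.2 hj]
      · rw [if_neg hj, if_pos ⟨ha, hj⟩]
  have t0 := hTXle 0
  have t1 := hTXle 1
  have t2 := hTXle 2
  simp only [show (0 : Fin 3) ≠ 2 by decide, show (1 : Fin 3) ≠ 2 by decide, if_false, if_true]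
    at t0 t1 t2
  have hQle : ∑ l ∈ Q, E 0 l + ∑ l ∈ Q, E 1 l + ∑ l ∈ Q, E 2 l ≤ Q.card + ∑ l ∈ Q, F l := by
    rw [← Finset.sum_add_distrib, ← Finset.sum_add_distrib, Finset.card_eq_sum_ones,
      ← Finset.sum_add_distrib]
    refine Finset.sum_le_sum fun q hqQ => ?_
    obtain ⟨hq', -, hqS, -, -, hsp⟩ := hQ.prime_spec h hbad hqQ
    obtain ⟨B', φ', hB', hφ'⟩ := exists_liesOverPrime_isFrobeniusAt hq'
    obtain ⟨htw, hdet⟩ := (hsp B' hB').2 φ' hφ'
    have := h.sum_piece_tw_le hq' hB' hp hqS hφ' htw hdet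
    rwa [Fin.sum_univ_three] at this
  have hAle : ∑ l ∈ A₀, E' 0 l + ∑ l ∈ A₀, E' 1 l + ∑ l ∈ A₀, E 2 l ≤
      A₀.card + ∑ l ∈ A₀, F l := by
    rw [← Finset.sum_add_distrib, ← Finset.sum_add_distrib, Finset.card_eq_sum_ones,
      ← Finset.sum_add_distrib]
    refine Finset.sum_le_sum fun a ha => ?_
    have := h.sum_piece_aux_le (hap a ha) (hB a ha) (haS a ha) (hφ a ha) hu (h10 a ha) (h00 a ha)
      (h11 a ha) (h01 a ha) hp
    have hset : (h.monoKF.placesOver {a} : Set (Ext.Place h.monoKF.K)) \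
        h.auxOrbit (hap a ha) (hB a ha) =
        (h.monoKF.placesOver {a} : Set (Ext.Place h.monoKF.K)) \ aux := by
      refine Set.ext fun v => ⟨fun hv => ⟨hv.1, ?_⟩, fun hv => ⟨hv.1, fun hn => hv.2 ⟨a, ha, hn⟩⟩⟩
      rintro ⟨b, hb, hvb⟩
      refine hv.2 ?_
      obtain ⟨q, hq', hqp, hqv⟩ := h.monoKF.mem_placesOver.mp hv.1
      rw [Finset.mem_singleton] at hq'
      subst hq'
      obtain ⟨c, hc⟩ := hvb
      obtain rfl : b = q := eq_of_natCast_mem (hap b hb) hqp v
        (hc ▸ (h.monoKF.mem_smul_iff c _ _).mpr natCast_mem_placeIn) hqv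
      exact ⟨c, hc⟩
    rwa [hset] at this
  -- the kernel field
  have hI := h.fieldKF.cnt_units (W := h.MI) (ρ := h.rhoI) (h.isRelProj_rhoI hu) TF hTFst
  rw [h.invariants_rhoI_eq_bot hu hp hq, finrank_bot] at hI
  have hI' := h.fieldKF.cnt_units_le_finrank_eqHom (W := h.MI) (ρ := h.rhoI)
    (h.isRelProj_rhoI hu) TF hTFst hpTF
  have hTI : Module.finrank k
      (eqFunOn (W := h.MI) h.rhoI (TF : Set (Ext.Place h.fieldKF.K))) =
        ∑ l ∈ Smin, F l + ∑ l ∈ Q, F l + ∑ l ∈ A₀, F l := by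
    rw [hTFdef, h.finrank_eqFunOn_sum (W := h.MI) h.rhoI _ hPp, Finset.sum_union hSP,
      Finset.sum_union hQA, add_assoc]
  unfold eqFunOn at hTI
  have hinf := h.sum_piece_infinite_le hp
  rw [Fin.sum_univ_three] at hinf
  -- the local counts
  have l0 := h.cnt_locK_mono 0
  have l1 := h.cnt_locK_mono 1
  have l2 := h.cnt_locK_mono 2
  rw [Finset.sum_add_distrib] at l0 l1 l2
  have lI := h.cnt_locK_rhoI hu
  rw [Finset.sum_add_distrib] at lI
  have hMI := h.finrank_MI
  have hfix := h.sum_fixed_adI_eq hA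
  have hadX : ∀ j, Module.finrank k
      (eqFunOn (h.adX j) (h.monoKF.placesOver Smin : Set (Ext.Place h.monoKF.K))) ≤
      ∑ l ∈ Smin, Module.finrank k
        (eqFunOn (h.adX j) (h.monoKF.placesOver {l} : Set (Ext.Place h.monoKF.K))) := fun j =>
    h.monoKF.finrank_eqFunOn_placesOver_le (h.adX j) Smin
  have a0 := hadX 0
  have a1 := hadX 1
  have a2 := hadX 2
  rw [hfix, Fin.sum_univ_three, Fin.sum_univ_three] at hΛdim
  replace hΛdim : Module.finrank k (Λ 0) + Module.finrank k (Λ 1) + Module.finrank k (Λ 2) +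
      3 * Smin.card +
      ∑ l ∈ Smin, Module.finrank k
        (eqFunOn (W := h.MI) h.adI (h.fieldKF.placesOver {l} : Set (Ext.Place h.fieldKF.K))) ≤
      ∑ l ∈ Smin, Module.finrank k (L l) +
      cnt (W := h.MI) h.rhoI (KField.locRep (h.fieldKF.placesOver_stable Smin)) +
      (Module.finrank k (eqFunOn (h.adX 0) (h.monoKF.placesOver Smin : Set (Ext.Place h.monoKF.K))) +
       Module.finrank k (eqFunOn (h.adX 1) (h.monoKF.placesOver Smin : Set (Ext.Place h.monoKF.K))) +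
       Module.finrank k (eqFunOn (h.adX 2) (h.monoKF.placesOver Smin : Set (Ext.Place h.monoKF.K)))) :=
    hΛdim
  have hcap : ∑ l ∈ Smin, (if l = p then 4 else 3) = 3 * Smin.card + 1 := by
    rw [Finset.sum_congr rfl (g := fun l => 3 + (if l = p then 1 else 0)) fun l _ => by
      split_ifs <;> rfl, Finset.sum_add_distrib, Finset.sum_ite_eq' Smin p (fun _ => 1),
      if_pos h.mem_p, Finset.sum_const, smul_eq_mul, mul_comm]
  have hcard : P.card = Q.card + A₀.card := Finset.card_union_of_disjoint hQA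
  simp only [E, E', F] at t0 t1 t2 hQle hAle hTI
  unfold eqFunOn at p0 p1 p2 t0 t1 t2 hQle hAle hTI l0 l1 l2 lI hfix a0 a1 a2 hΛdim
  omega

end bound

section aux

variable (hu : ∃ u ∈ unipPart (imageGL rb), u ≠ 1)
variable {A : ℕ → ValuationSubring (AlgebraicClosure ℚ)} (hA : ∀ l ∈ Smin, (A l).LiesOverPrime l)
  {L : ∀ l : ℕ, Submodule k ((A l).decompositionSubgroup ℚ → Mat k)}
  (hLB : ∀ l ∈ Smin, adB1 rb ((A l).decompositionSubgroup ℚ) ≤ L l)

theorem selmer_mono {rb : Gal →* Mat k} {Smin P P' : Finset ℕ}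
    {A : ℕ → ValuationSubring (AlgebraicClosure ℚ)}
    {L : ∀ l : ℕ, Submodule k ((A l).decompositionSubgroup ℚ → Mat k)} (hP : P ⊆ P') :
    selmer rb Smin P A L ≤ selmer rb Smin P' A L := fun _ hc =>
  ⟨hc.1, hc.2.1, hc.2.2.1, hc.2.2.2.1,
    fun l hl hlS hlP => hc.2.2.2.2 l hl hlS fun h' => hlP (hP h')⟩

include h hA hLB in
/-- The auxiliary primes add their number of classes. -/
theorem ResidualHyp.selmer_add_card_le {Q A₀ : Finset ℕ} (hQ : ∀ q ∈ Q, q.Prime)
    (hQA : Disjoint Q A₀) (hcase : A₀ = ∅ ∨ p = 3)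
    (hA₀ : ∀ a ∈ A₀, a.Prime ∧ a ∉ Smin ∧ ∃ (B : ValuationSubring Qb) (φ : Γ),
      B.LiesOverPrime a ∧ B.IsFrobeniusAt φ a ∧ rb φ 1 0 = 0 ∧ rb φ 0 0 = 1 ∧ rb φ 1 1 = 1 ∧
        rb φ 0 1 ≠ 0)
    (hno : h.fieldKF.NoChar h.rho (h.fieldKF.modulus Smin)
      (h.fieldKF.placesOver Q : Set (Ext.Place h.fieldKF.K))) :
    Module.finrank k (selmer rb Smin Q A L) + A₀.card ≤
      Module.finrank k (selmer rb Smin (Q ∪ A₀) A L) := by
  have := h.finite_selmer (P := Q) (A := A) (L := L)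
  have := h.finite_selmer (P := Q ∪ A₀) (A := A) (L := L)
  have hex : ∀ a : A₀, ∃ (B : ValuationSubring Qb) (c : Gal → Mat k) (σ : Γ),
      B.LiesOverPrime (a : ℕ) ∧ c ∈ selmer rb Smin (insert (a : ℕ) Q) A L ∧
        σ ∈ B.inertiaSubgroupIn ℚ ∧ c σ ≠ 0 := fun a => by
    obtain ⟨ha, haS, B, φ, hB, hφ, e10, e00, e11, e01⟩ := hA₀ a a.2
    obtain ⟨c, hc, σ, hσ, hne⟩ := h.exists_residue_class
      (hcase.resolve_left fun e => by simpa [e] using a.2) A hA L hLB Q hQ hno ha haS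
      (Finset.disjoint_right.mp hQA a.2) B hB hφ e10 e00 e11 e01
    exact ⟨B, c, σ, hB, hc, hσ, hne⟩
  choose B c σ hB hc hσ hne using hex
  let Φ : selmer rb Smin Q A L × (A₀ → k) →ₗ[k] selmer rb Smin (Q ∪ A₀) A L :=
    LinearMap.coprod (Submodule.inclusion (selmer_mono Finset.subset_union_left))
      (∑ a : A₀, (LinearMap.proj (R := k) (φ := fun _ : A₀ => k) a).smulRight
        (⟨c a, selmer_mono (Finset.insert_subset (Finset.mem_union_right _ a.2)
          Finset.subset_union_left) (hc a)⟩ : selmer rb Smin (Q ∪ A₀) A L))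
  have hΦ : Function.Injective Φ := by
    refine (injective_iff_map_eq_zero Φ).mpr fun x hx => ?_
    have key : ∀ g : Gal, (x.1 : Gal → Mat k) g + ∑ a : A₀, x.2 a • c a g = 0 := fun g => by
      have := congrArg (fun y : selmer rb Smin (Q ∪ A₀) A L => (y : Gal → Mat k) g) hx
      simpa [Φ] using this
    have h2 : x.2 = 0 := funext fun a => by
      have hv : ∀ {P : Finset ℕ} {d : Gal → Mat k}, d ∈ selmer rb Smin P A L → (a : ℕ) ∉ P →
          d (σ a) = 0 := fun hd haP =>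
        hd.2.2.2.2 a (hA₀ a a.2).1 (hA₀ a a.2).2.1 haP (B a) (hB a) _ (hσ a)
      have h1 := key (σ a)
      rw [hv x.1.2 (Finset.disjoint_right.mp hQA a.2), zero_add,
        Finset.sum_eq_single a (fun b _ hb => by
          rw [hv (hc b) fun hm => (Finset.mem_insert.mp hm).elim
            (fun e => hb (Subtype.ext e.symm)) (Finset.disjoint_right.mp hQA a.2), smul_zero])
          (fun hn => (hn (Finset.mem_univ _)).elim)] at h1
      exact (smul_eq_zero.mp h1).resolve_right (hne a)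
    refine Prod.ext (Subtype.ext (funext fun g => ?_)) h2
    have h1 := key g
    simpa [h2] using h1
  have h1 := LinearMap.finrank_le_finrank_of_injective hΦ
  have : Module.Free k (selmer rb Smin Q A L) := Module.Free.of_divisionRing k _
  rwa [Module.finrank_prod, Module.finrank_fintype_fun_eq_card, Fintype.card_coe] at h1

end aux

/-- The monomial case. -/
theorem monoBound (hp : p ≠ 2) : MonoBound k p := by
  intro rb Smin h hu A hA L hLB hLZ hLfin hLdim S
  by_cases hq : 3 < Nat.card (unipPart (imageGL rb))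
  · obtain ⟨d, A₀, hcase, hA₀, hd⟩ := h.exists_mono_primes hp hu hq S
    suffices key : ∃ d : ℕ, ∀ n : ℕ, ∃ Q : Finset ℕ, Q.card ≤ d ∧
        h.TWSet n ((S ∪ A₀) ∪ Smin) Q ∧
        ∀ Q' : Finset ℕ, Q ⊆ Q' → h.TWSet n ((S ∪ A₀) ∪ Smin) Q' →
          Module.Finite k (selmer rb Smin Q' A L) ∧
            Module.finrank k (selmer rb Smin Q' A L) + ∑ l ∈ Smin, (if l = p then 4 else 3) ≤
              Q'.card + 3 + ∑ l ∈ Smin, Module.finrank k (L l) by
      obtain ⟨r, hr⟩ := h.exists_qv_of hp (S ∪ A₀) _ key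
      refine ⟨r, fun n => ?_⟩
      obtain ⟨qv, h1, h2, h3, Q', hQ', hc, hfin, hle⟩ := hr n
      subst hQ'
      exact ⟨qv, h1, fun i => ⟨(h2 i).1, fun hm => (h2 i).2.1 (Finset.mem_union_left _ hm),
        (h2 i).2.2⟩, h3, hfin, hle.trans_eq (by rw [hc])⟩
    refine ⟨d, fun n => ?_⟩
    obtain ⟨Q, hcard, hQ, hnoF, hnoX⟩ := hd n
    refine ⟨Q, hcard, Finset.union_right_comm S Smin A₀ ▸ hQ, fun Q' hsub hQ' => ?_⟩
    have hA₀bad : A₀ ⊆ (S ∪ A₀) ∪ Smin :=
      Finset.subset_union_right.trans Finset.subset_union_left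
    have hQA : Disjoint Q' A₀ :=
      Finset.disjoint_left.mpr fun q hq ha => (hQ' q hq).2.1 (hA₀bad ha)
    have hmonoP : ∀ (T : KField p) {P P' : Finset ℕ}, P ⊆ P' →
        (T.placesOver P : Set (Ext.Place T.K)) ⊆ (T.placesOver P' : Set (Ext.Place T.K)) :=
      fun T P P' hPP v hv => by
        obtain ⟨l, hl, h'⟩ := T.mem_placesOver.mp hv
        exact T.mem_placesOver.mpr ⟨l, hPP hl, h'⟩
    have hno : ∀ j : Fin 3, h.monoKF.NoChar (h.rhoX j) (h.monoKF.modulus Smin)
        (h.monoKF.placesOver (if j = 2 then Q' ∪ A₀ else Q') : Set (Ext.Place h.monoKF.K)) :=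
      fun j => (hnoX j).mono (hmonoP _ (by
        split_ifs
        · exact Finset.union_subset_union hsub subset_rfl
        · exact hsub))
    have h1 := h.selmer_mono_le hp hu hq hA hLB hLZ hLfin Finset.subset_union_right hA₀bad hQ' hA₀
      hno
    have h2 := h.selmer_add_card_le hA hLB (fun q hq => (hQ' q hq).1) hQA hcase hA₀
      (hnoF.mono (hmonoP _ hsub))
    refine ⟨h.finite_selmer, ?_⟩
    rw [Finset.card_union_of_disjoint hQA] at h1
    omega
  · exact h.exists_twPrimes_add_of_isRelProj hp (h.isRelProj_rho_of_card_unip hp hu hq) hA hLB hLZ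
      hLfin S

end FLTAgent.TW
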