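import Fermat.Agent.TW.Mono.Setting
import Fermat.Agent.TW.Cor
import Fermat.Agent.TW.SelmerCount

/-!
# The classes on the preimage of the Borel part and their graded pieces

A Selmer class and an induced class give a cocycle on `borelΓ rb`; its graded pieces restrict to
equivariant homomorphisms over the diagonal field.
-/

set_option autoImplicit false
set_option linter.unusedSectionVars false
set_option maxHeartbeats 600000

open IsDedekindDomain NumberField
open scoped Pointwise Classical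

noncomputable section

namespace FLTAgent.TW

open FLTAgent.Deformation FLTAgent.Frobenius

/-- Dimension through a map, a second map on its kernel, and the common kernel. -/
theorem finrank_le_three_step {R V A B : Type} [Field R] [AddCommGroup V] [Module R V]
    [AddCommGroup A] [Module R A] [AddCommGroup B] [Module R B] (f : V →ₗ[R] A) (g : V →ₗ[R] B)
    (N N' : Submodule R V) (Im : Submodule R A) (U : Submodule R B) [Module.Finite R N]
    [Module.Finite R N'] [Module.Finite R Im] [Module.Finite R U]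
    (hIm : ∀ z ∈ N, f z ∈ Im) (hU : ∀ z ∈ N, f z = 0 → g z ∈ U)
    (hN' : ∀ z ∈ N, f z = 0 → g z = 0 → z ∈ N') :
    Module.finrank R N ≤ Module.finrank R Im + Module.finrank R U + Module.finrank R N' := by
  let f' : N →ₗ[R] Im := (f.comp N.subtype).codRestrict Im fun z => hIm _ z.2
  let g' : LinearMap.ker f' →ₗ[R] U :=
    (g.comp (N.subtype.comp (LinearMap.ker f').subtype)).codRestrict U fun z =>
      hU _ z.1.2 (congrArg Subtype.val (LinearMap.mem_ker.mp z.2))
  let i' : LinearMap.ker g' →ₗ[R] N' :=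
    (N.subtype.comp ((LinearMap.ker f').subtype.comp (LinearMap.ker g').subtype)).codRestrict N'
      fun z => hN' _ z.1.1.2 (congrArg Subtype.val (LinearMap.mem_ker.mp z.1.2))
        (congrArg Subtype.val (LinearMap.mem_ker.mp z.2))
  have hi : Function.Injective i' := fun a b hab =>
    Subtype.ext (Subtype.ext (Subtype.ext (congrArg (fun y : N' => (y : V)) hab)))
  have h1 := LinearMap.finrank_range_add_finrank_ker f'
  have h2 := LinearMap.finrank_range_add_finrank_ker g'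
  have h3 := LinearMap.finrank_le_finrank_of_injective hi
  have h4 := Submodule.finrank_le (LinearMap.range f')
  have h5 := Submodule.finrank_le (LinearMap.range g')
  omega

attribute [local irreducible] KField.eqHom

variable {k : Type} [Field k] [Finite k] {p : ℕ} [hpf : Fact p.Prime] [CharP k p]
  [Algebra (ZMod p) k]
variable {rb : Gal →* Mat k} {Smin : Finset ℕ} (h : ResidualHyp p rb Smin)

/-- The representation on the preimage of the Borel part. -/
abbrev borelπ (rb : Gal →* Mat k) : borelΓ rb →* GL (Fin 2) k :=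
  (rbGL rb).comp (borelΓ rb).subtype

/-- The functions on the preimage of the Borel part with values in a step of the filtration. -/
def levFun (rb : Gal →* Mat k) (n : ℕ) : Submodule k (borelΓ rb → sl2 k) where
  carrier := {z | ∀ g, z g ∈ lev k n}
  zero_mem' := fun _ => zero_mem _
  add_mem' := fun ha hb g => add_mem (ha g) (hb g)
  smul_mem' := fun t _ ha g => Submodule.smul_mem _ t (ha g)

theorem mem_levFun {rb : Gal →* Mat k} {n : ℕ} {z : borelΓ rb → sl2 k} :
    z ∈ levFun rb n ↔ ∀ g, z g ∈ lev k n := Iff.rfl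

theorem levFun_zero (rb : Gal →* Mat k) : levFun rb 0 = ⊤ :=
  eq_top_iff.mpr fun _ _ g => by rw [lev_zero]; trivial

theorem levFun_three (rb : Gal →* Mat k) : levFun rb 3 = ⊥ :=
  eq_bot_iff.mpr fun z hz => by
    rw [Submodule.mem_bot]
    refine funext fun g => ?_
    have := hz g
    rwa [lev_three, Submodule.mem_bot] at this

theorem mem_levFun_succ {rb : Gal →* Mat k} {j : Fin 3} {z : borelΓ rb → sl2 k} :
    z ∈ levFun rb ((j : ℕ) + 1) ↔ z ∈ levFun rb (j : ℕ) ∧ ∀ g, coord j (z g) = 0 :=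
  ⟨fun hz => ⟨fun g => (mem_lev_succ.mp (hz g)).1, fun g => (mem_lev_succ.mp (hz g)).2⟩,
    fun hz g => mem_lev_succ.mpr ⟨hz.1 g, hz.2 g⟩⟩

section pieces

theorem ResidualHyp.fix_le_borel : h.monoKF.K.fixingSubgroup ≤ borelΓ rb := h.monoKF.fix_le

/-- An element of `G_K` in the preimage of the Borel part. -/
abbrev ResidualHyp.fixB : h.monoKF.K.fixingSubgroup →* borelΓ rb :=
  Subgroup.inclusion h.fix_le_borel

/-- An element of `H` as an element of the preimage of the Borel part. -/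
def ResidualHyp.hB : h.monoKF.H →* borelΓ rb where
  toFun g := ⟨(g : Γ), g.2⟩
  map_one' := rfl
  map_mul' _ _ := rfl

theorem ResidualHyp.coe_hB (g : h.monoKF.H) : ((h.hB g : borelΓ rb) : Γ) = (g : Γ) := rfl

/-- An element of the preimage of the Borel part as an element of `H`. -/
def ResidualHyp.bH : borelΓ rb →* h.monoKF.H where
  toFun g := ⟨(g : Γ), g.2⟩
  map_one' := rfl
  map_mul' _ _ := rfl

theorem ResidualHyp.hB_bH (g : borelΓ rb) : h.hB (h.bH g) = g := Subtype.ext rfl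

/-- The coordinate on `H`. -/
def ResidualHyp.coordH (j : Fin 3) : (borelΓ rb → sl2 k) →ₗ[k] (h.monoKF.H → k) :=
  LinearMap.pi fun g => (coord j).comp (LinearMap.proj (h.hB g))

theorem ResidualHyp.coordH_apply (j : Fin 3) (z : borelΓ rb → sl2 k) (g : h.monoKF.H) :
    h.coordH j z g = coord j (z (h.hB g)) := rfl

/-- A graded piece on the diagonal field. -/
def ResidualHyp.pc (j : Fin 3) :
    (borelΓ rb → sl2 k) →ₗ[k] (h.monoKF.K.fixingSubgroup → k) :=
  LinearMap.pi fun σ => (coord j).comp (LinearMap.proj (h.fixB σ))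

theorem ResidualHyp.pc_apply (j : Fin 3) (z : borelΓ rb → sl2 k)
    (σ : h.monoKF.K.fixingSubgroup) :
    h.pc j z σ = coord j (z (h.fixB σ)) := rfl

theorem ResidualHyp.coordH_fix (j : Fin 3) (z : borelΓ rb → sl2 k)
    (σ : h.monoKF.K.fixingSubgroup) :
    h.coordH j z ⟨(σ : Γ), h.monoKF.fix_le σ.2⟩ = h.pc j z σ := rfl

/-- The coordinate of a cocycle in a step of the filtration. -/
theorem ResidualHyp.isCocycle_coord {z : borelΓ rb → sl2 k}
    (hz : IsCocycle (borelπ rb) adGL z) {j : Fin 3} (hlev : z ∈ levFun rb (j : ℕ)) :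
    IsCocycle h.monoKF.π (h.adX j) (h.coordH j z) := fun g g' => by
  rw [h.coordH_apply, h.coordH_apply, h.coordH_apply, map_mul h.hB, hz (h.hB g) (h.hB g'),
    map_add (coord j)]
  congr 1
  exact h.coord_ad g j (hlev (h.hB g'))

theorem ResidualHyp.adX_π_eq_one (j : Fin 3) {n : h.monoKF.H}
    (hn : (n : Γ) ∈ h.monoKF.K.fixingSubgroup) (x : k) : h.adX j (h.monoKF.π n) x = x := by
  rw [(h.monoKF.π_ker n).mpr hn, map_one, Module.End.one_apply]

/-- A piece is an equivariant homomorphism. -/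
theorem ResidualHyp.pc_mem_eqHom {z : borelΓ rb → sl2 k} (hz : IsCocycle (borelπ rb) adGL z)
    (hlevel : ∃ L : IntermediateField ℚ Qb, FiniteDimensional ℚ L ∧
      ∀ g s : borelΓ rb, (∀ x ∈ L, (s : Γ) x = x) → z (g * s) = z g)
    {j : Fin 3} (hlev : z ∈ levFun rb (j : ℕ)) {T : Set (Ext.Place h.monoKF.K)}
    (hT : h.monoKF.InertiaKills T (h.pc j z)) :
    h.pc j z ∈ h.monoKF.eqHom (h.rhoX j) T := by
  have hc := h.isCocycle_coord hz hlev
  refine KField.mem_eqHom.mpr ⟨fun σ τ => ?_, ?_, fun g σ => ?_, hT⟩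
  · have h1 := hc ⟨σ, h.monoKF.fix_le σ.2⟩ ⟨τ, h.monoKF.fix_le τ.2⟩
    rw [h.adX_π_eq_one j σ.2] at h1
    exact h1
  · obtain ⟨L, hL, hs⟩ := hlevel
    refine ⟨L, hL, fun g s hsx => ?_⟩
    rw [h.pc_apply, h.pc_apply, map_mul h.fixB, hs _ _ hsx]
  · rw [h.twist_rhoX]
    exact hc.conj_ker g (n := ⟨σ, h.monoKF.fix_le σ.2⟩) ((h.monoKF.π_ker _).mpr σ.2)

/-- A cocycle with vanishing piece has a coboundary coordinate. -/
theorem ResidualHyp.coordH_mem_range {z : borelΓ rb → sl2 k}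
    (hz : IsCocycle (borelπ rb) adGL z) {j : Fin 3} (hlev : z ∈ levFun rb (j : ℕ))
    (h0 : h.pc j z = 0) :
    h.coordH j z ∈ LinearMap.range (cobd h.monoKF.π (h.adX j)) := by
  obtain ⟨θ, hθ⟩ := h.isRelProj_chRep (h.chX j)
  obtain ⟨X, hX⟩ := (h.isCocycle_coord hz hlev).exists_eq_cobd h.monoKF.π_surj hθ fun n hn =>
    congrFun h0 ⟨(n : Γ), (h.monoKF.π_ker n).mp hn⟩
  exact ⟨X, hX.symm⟩

theorem ResidualHyp.finrank_range_cobd_le (j : Fin 3) :
    Module.finrank k (LinearMap.range (cobd h.monoKF.π (h.adX j))) ≤ if j = 1 then 0 else 1 := by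
  split_ifs with hj
  · subst hj
    have : LinearMap.range (cobd h.monoKF.π (h.adX 1)) = ⊥ := by
      rw [LinearMap.range_eq_bot]
      refine LinearMap.ext fun x => funext fun g => ?_
      rw [cobd_apply, ResidualHyp.adX, chRep_apply]
      show ((diagChar k 1 (h.diagC (h.monoKF.π g)) : kˣ) : k) * x - x = 0
      rw [diagChar_one, Units.val_one, one_mul, sub_self]
    rw [this, finrank_bot]
  · exact (LinearMap.finrank_range_le _).trans_eq (Module.finrank_self k)

/-- One step of the filtration. -/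
theorem ResidualHyp.finrank_step_le (Z : Submodule k (borelΓ rb → sl2 k)) [Module.Finite k Z]
    (hZ : ∀ z ∈ Z, IsCocycle (borelπ rb) adGL z) (j : Fin 3)
    (Im : Submodule k (h.monoKF.K.fixingSubgroup → k)) [Module.Finite k Im]
    (hIm : ∀ z ∈ Z ⊓ levFun rb (j : ℕ), h.pc j z ∈ Im) :
    Module.finrank k ↥(Z ⊓ levFun rb (j : ℕ)) ≤
      Module.finrank k Im + (if j = 1 then 0 else 1) +
        Module.finrank k ↥(Z ⊓ levFun rb ((j : ℕ) + 1)) := by
  have : Module.Finite k ↥(Z ⊓ levFun rb (j : ℕ)) := Submodule.finiteDimensional_of_le inf_le_left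
  have : Module.Finite k ↥(Z ⊓ levFun rb ((j : ℕ) + 1)) :=
    Submodule.finiteDimensional_of_le inf_le_left
  have h1 := finrank_le_three_step (h.pc j) (h.coordH j) (Z ⊓ levFun rb (j : ℕ))
    (Z ⊓ levFun rb ((j : ℕ) + 1)) Im (LinearMap.range (cobd h.monoKF.π (h.adX j))) hIm
    (fun z hz h0 => h.coordH_mem_range (hZ z hz.1) hz.2 h0)
    (fun z hz _ h0 => ⟨hz.1, mem_levFun_succ.mpr ⟨hz.2, fun g => by
      have h2 := congrFun h0 (h.bH g)
      rwa [h.coordH_apply, h.hB_bH] at h2⟩⟩)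
  have h2 := h.finrank_range_cobd_le j
  omega

end pieces

section glob

variable (hu : ∃ u ∈ unipPart (imageGL rb), u ≠ 1)
variable {Q : Finset ℕ} {A : ℕ → ValuationSubring (AlgebraicClosure ℚ)}
  {L : ∀ l : ℕ, Submodule k ((A l).decompositionSubgroup ℚ → Mat k)}
  {TF : Set (Ext.Place h.fieldKF.K)}

/-- A trace-one endomorphism of `MI`. -/
def ResidualHyp.thetaI : h.MI →ₗ[k] h.MI := (h.exists_theta_adI hu).choose

theorem ResidualHyp.thetaI_spec :
    ∑ c : h.fieldKF.C, (h.adI c).comp ((h.thetaI hu).comp (h.adI c⁻¹)) = LinearMap.id :=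
  (h.exists_theta_adI hu).choose_spec

/-- Selmer classes on the preimage of the Borel part. -/
def selRes : selmer rb Smin Q A L →ₗ[k] (borelΓ rb → sl2 k) where
  toFun c g := ⟨c.1 g, selmer_trace c.2 g⟩
  map_add' _ _ := rfl
  map_smul' _ _ := rfl

theorem coe_selRes (c : selmer rb Smin Q A L) (g : borelΓ rb) :
    ((selRes c g : sl2 k) : Mat k) = c.1 g := rfl

/-- Induced classes on the preimage of the Borel part. -/
def ResidualHyp.indRes :
    h.fieldKF.eqHom (W := h.MI) h.rhoI TF →ₗ[k] (borelΓ rb → sl2 k) where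
  toFun f := h.evBase (h.fieldKF.cor (W := h.MI) h.adI (h.thetaI hu) f.1)
  map_add' f f' := by
    rw [Submodule.coe_add, map_add]
    rfl
  map_smul' t f := by
    rw [Submodule.coe_smul, map_smul]
    rfl

theorem ResidualHyp.indRes_apply (f : h.fieldKF.eqHom (W := h.MI) h.rhoI TF) :
    h.indRes hu f = h.evBase (h.fieldKF.cor (W := h.MI) h.adI (h.thetaI hu) f.1) := rfl

/-- The combined classes. -/
def ResidualHyp.glob :
    ↥(selmer rb Smin Q A L) × ↥(h.fieldKF.eqHom (W := h.MI) h.rhoI TF) →ₗ[k]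
      (borelΓ rb → sl2 k) :=
  LinearMap.coprod selRes (h.indRes hu)

theorem ResidualHyp.glob_apply
    (x : ↥(selmer rb Smin Q A L) × ↥(h.fieldKF.eqHom (W := h.MI) h.rhoI TF)) (g : borelΓ rb) :
    h.glob hu x g = selRes x.1 g +
      h.evBase (h.fieldKF.cor (W := h.MI) h.adI (h.thetaI hu) x.2.1) g := by
  rw [ResidualHyp.glob, LinearMap.coprod_apply, Pi.add_apply, h.indRes_apply]

theorem ResidualHyp.eqHomI_equivariant (f : ↥(h.fieldKF.eqHom (W := h.MI) h.rhoI TF))
    (g : h.fieldKF.H) (σ : h.fieldKF.K.fixingSubgroup) :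
    f.1 (h.fieldKF.conjK g σ) = h.adI (h.fieldKF.π g) (f.1 σ) := by
  rw [(KField.mem_eqHom.mp f.2).2.2.1 g σ, h.twist_rhoI]

theorem ResidualHyp.isCocycle_glob
    (x : ↥(selmer rb Smin Q A L) × ↥(h.fieldKF.eqHom (W := h.MI) h.rhoI TF)) :
    IsCocycle (borelπ rb) adGL (h.glob hu x) := fun g g' => by
  have hb := h.fieldKF.isCocycle_cor (W := h.MI) h.adI (h.thetaI hu) (KField.mem_eqHom.mp x.2.2).1
  have hs : selRes x.1 (g * g') = selRes x.1 g + adGL (borelπ rb g) (selRes x.1 g') :=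
    Subtype.ext (by
      rw [Submodule.coe_add, coe_adGL]
      show x.1.1 ((g : Γ) * g') = _
      rw [x.1.2.1, adAct, ← map_inv]
      rfl)
  rw [h.glob_apply, h.glob_apply, h.glob_apply, hs, map_add]
  have he : h.evBase (h.fieldKF.cor (W := h.MI) h.adI (h.thetaI hu) x.2.1) (g * g') =
      h.evBase (h.fieldKF.cor (W := h.MI) h.adI (h.thetaI hu) x.2.1) g +
        adGL (borelπ rb g)
          (h.evBase (h.fieldKF.cor (W := h.MI) h.adI (h.thetaI hu) x.2.1) g') := by
    show ((h.fieldKF.cor (W := h.MI) h.adI (h.thetaI hu) x.2.1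
      (h.inH (g : Γ) * h.inH (g' : Γ)) : h.MI) : h.Omega → sl2 k) (QuotientGroup.mk 1) = _
    rw [hb, Submodule.coe_add, Pi.add_apply, h.coe_adI, h.rbF_π]
    have hgB : h.fieldKF.π (h.inH (g : Γ)) ∈ h.borelF := by
      show h.rbF (h.fieldKF.π (h.inH (g : Γ))) ∈ borelGL k
      rw [h.rbF_π]; exact g.2
    rw [h.smul_base_of_mem_borelF (inv_mem hgB)]
    rfl
  rw [he]
  abel

theorem ResidualHyp.glob_fix
    (x : ↥(selmer rb Smin Q A L) × ↥(h.fieldKF.eqHom (W := h.MI) h.rhoI TF))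
    (σ : h.fieldKF.K.fixingSubgroup) (hσ : (σ : Γ) ∈ borelΓ rb) :
    h.glob hu x ⟨σ, hσ⟩ = h.resSel x.1 σ +
      ((x.2.1 σ : h.MI) : h.Omega → sl2 k) (QuotientGroup.mk 1) := by
  have h1 := h.fieldKF.cor_apply_fix (W := h.MI) h.adI (h.thetaI_spec hu)
    (h.eqHomI_equivariant x.2) σ
  rw [h.glob_apply, ← h1]
  rfl

theorem ResidualHyp.glob_level
    (x : ↥(selmer rb Smin Q A L) × ↥(h.fieldKF.eqHom (W := h.MI) h.rhoI TF)) :
    ∃ M : IntermediateField ℚ Qb, FiniteDimensional ℚ M ∧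
      ∀ g s : borelΓ rb, (∀ y ∈ M, (s : Γ) y = y) → h.glob hu x (g * s) = h.glob hu x g := by
  obtain ⟨-, -, ⟨M, hM, hc⟩, -⟩ := x.1.2
  obtain ⟨M', hM', hb⟩ := h.fieldKF.exists_level_cor (W := h.MI) h.adI (h.thetaI hu) (KField.mem_eqHom.mp x.2.2).1
    (KField.mem_eqHom.mp x.2.2).2.1
  refine ⟨M ⊔ M', IntermediateField.finiteDimensional_sup M M', fun g s hs => ?_⟩
  rw [h.glob_apply, h.glob_apply]
  congr 1
  · exact Subtype.ext (hc g s fun y hy => hs y (le_sup_left (b := M') hy))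
  · exact congrArg (fun b : h.MI => (b : h.Omega → sl2 k) (QuotientGroup.mk 1))
      (hb (h.inH (g : Γ)) (h.inH (s : Γ)) fun y hy => hs y (le_sup_right (a := M) hy))

include h hu in
theorem ResidualHyp.eq_zero_of_fixed_borel (hp : p ≠ 2)
    (hq : 3 < Nat.card (unipPart (imageGL rb))) {Y : sl2 k}
    (hY : ∀ g : borelΓ rb, adGL (borelπ rb g) Y = Y) : Y = 0 := by
  have htorus : ∀ j : Fin 3, j ≠ 1 → Y ∈ lev k (j : ℕ) → coord j Y = 0 := fun j hj hl => by
    have hex : ∃ c, h.chX j c ≠ 1 := not_forall.mp fun hall =>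
      h.chX_ne_one hp hu hq hj (MonoidHom.ext hall)
    obtain ⟨c, hc⟩ := hex
    obtain ⟨g, rfl⟩ := h.monoKF.π_surj c
    have h1 := h.coord_ad g j hl
    rw [show adGL (rbGL rb (g : Γ)) Y = Y from hY g, ResidualHyp.adX, chRep_apply] at h1
    have h2 : (((h.chX j (h.monoKF.π g) : kˣ) : k) - 1) * coord j Y = 0 := by
      rw [sub_mul, one_mul, ← h1, sub_self]
    exact (mul_eq_zero.mp h2).resolve_left
      (sub_ne_zero.mpr fun e => hc (Units.ext e))
  have l0 : Y ∈ lev k ((0 : Fin 3) : ℕ) := by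
    rw [Fin.val_zero, lev_zero]; trivial
  have c0 : (Y : Mat k) 1 0 = 0 := htorus 0 (by decide) l0
  obtain ⟨u, ⟨⟨σ, hσ⟩, h10, h00, h11⟩, hu1⟩ := hu
  subst hσ
  have h10' : rb σ 1 0 = 0 := h10
  have h00' : rb σ 0 0 = 1 := h00
  have h11' : rb σ 1 1 = 1 := h11
  have h01 : (rbGL rb σ : Mat k) 0 1 ≠ 0 := fun e => hu1 (Units.ext (Matrix.ext fun i j => by
    fin_cases i <;> fin_cases j <;> simp [h10, h00, h11, e]))
  have hm := congrArg (fun Z : sl2 k => (Z : Mat k) * (rbGL rb σ : Mat k)) (hY ⟨σ, h10⟩)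
  simp only [coe_adGL] at hm
  rw [mul_assoc] at hm
  simp only [MonoidHom.coe_comp, Subgroup.coe_subtype, Function.comp_apply] at hm
  rw [← Units.val_mul, inv_mul_cancel, Units.val_one, mul_one] at hm
  have hm' : rb σ * (Y : Mat k) = (Y : Mat k) * rb σ := hm
  have e01 := congrFun (congrFun hm' 0) 1
  simp [Matrix.mul_apply, Fin.sum_univ_two, h10', h00', h11', sl2_diag_neg, c0] at e01
  have c1 : (Y : Mat k) 0 0 = 0 := by
    have h5 : (2 : k) * (Y : Mat k) 0 0 * rb σ 0 1 = 0 := by linear_combination -e01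
    exact (mul_eq_zero.mp ((mul_eq_zero.mp h5).resolve_right h01)).resolve_left
      (two_ne_zero_of_charP (k := k) hp)
  have l2 : Y ∈ lev k ((2 : Fin 3) : ℕ) := mem_lev.mpr fun i hi => by
    fin_cases i
    · exact c0
    · exact c1
    · exact absurd hi (lt_irrefl _)
  have c2 : (Y : Mat k) 0 1 = 0 := htorus 2 (by decide) l2
  refine sl2_ext fun j => ?_
  fin_cases j <;> simp [coord_zero_apply, coord_one_apply, coord_two_apply, c0, c1, c2]

theorem ResidualHyp.glob_injective (hp : p ≠ 2) (hq : 3 < Nat.card (unipPart (imageGL rb))) :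
    Function.Injective (h.glob hu (Q := Q) (A := A) (L := L) (TF := TF)) := by
  suffices H : ∀ x, h.glob hu (Q := Q) (A := A) (L := L) (TF := TF) x = 0 → x = 0 by
    intro a b hab
    have h0 := H (a + (-1 : k) • b) (by
      rw [map_add, map_smul, hab]
      exact (fun v => by funext g; ext i j; simp :
        ∀ v : borelΓ rb → sl2 k, v + (-1 : k) • v = 0) _)
    have e1 := congrArg Subtype.val (congrArg Prod.fst h0)
    have e2 := congrArg Subtype.val (congrArg Prod.snd h0)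
    rw [Prod.fst_add, Prod.smul_fst, Submodule.coe_add, Submodule.coe_smul, Prod.fst_zero, Submodule.coe_zero,
      neg_one_smul, ← sub_eq_add_neg] at e1
    rw [Prod.snd_add, Prod.smul_snd, Submodule.coe_add, Submodule.coe_smul, Prod.snd_zero,
      Submodule.coe_zero] at e2
    replace e2 : (a.2.1 : h.fieldKF.K.fixingSubgroup → h.MI) - b.2.1 = 0 :=
      ((fun u v => by funext σ; ext ω i j; simp [sub_eq_add_neg] :
        ∀ u v : h.fieldKF.K.fixingSubgroup → h.MI, u - v = u + (-1 : k) • v) _ _).trans e2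
    exact Prod.ext (Subtype.ext (sub_eq_zero.mp e1)) (Subtype.ext (sub_eq_zero.mp e2))
  intro x hx
  obtain ⟨hb0, Y, hY⟩ := h.eq_zero_of_evBase_add hu (h.isCocycle_selmer x.1)
    (h.fieldKF.isCocycle_cor (W := h.MI) h.adI (h.thetaI hu) (KField.mem_eqHom.mp x.2.2).1) (X := 0) fun g => by
      rw [map_zero, sub_zero]
      exact congrFun hx g
  have hf : x.2 = 0 := Subtype.ext (funext fun σ => by
    rw [← h.fieldKF.cor_apply_fix (W := h.MI) h.adI (h.thetaI_spec hu)
      (h.eqHomI_equivariant x.2) σ, hb0 _ ((h.fieldKF.π_ker _).mpr σ.2)]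
    rfl)
  refine Prod.ext (Subtype.ext (funext fun g => ?_)) hf
  have hY0 : Y = 0 := h.eq_zero_of_fixed_borel hu hp hq fun g => by
    have h1 := congrFun hx g
    rw [h.glob_apply, hf] at h1
    have h2 : selRes x.1 g = 0 := by
      simpa [ResidualHyp.evBase, map_zero] using h1
    have h3 : selRes x.1 g = adGL (rbGL rb (g : Γ)) Y - Y := by
      refine (congrFun hY (h.inH (g : Γ))).trans ?_
      rw [cobd_apply, h.adF_apply, h.rbF_π]
    rw [h2] at h3
    exact sub_eq_zero.mp h3.symm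
  have h4 := congrArg Subtype.val (congrFun hY (h.inH g))
  rw [hY0, map_zero] at h4
  exact h4

/-- At an unramified place the classes vanish on inertia. -/
theorem ResidualHyp.glob_inertia
    (x : ↥(selmer rb Smin Q A L) × ↥(h.fieldKF.eqHom (W := h.MI) h.rhoI TF))
    {l : ℕ} (hl : l.Prime) (hlS : l ∉ Smin) (hlQ : l ∉ Q) {B : ValuationSubring Qb}
    (hB : B.LiesOverPrime l) (hTF : placeIn h.fieldKF.K B hl hB ∉ TF) {σ : borelΓ rb}
    (hσ : (σ : Γ) ∈ B.inertiaSubgroupIn ℚ) : h.glob hu x σ = 0 := by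
  have hF : (σ : Γ) ∈ h.fieldKF.K.fixingSubgroup :=
    h.mem_kerField.mpr (h.unramified l hl hlS B hB _ hσ)
  have h1 : h.resSel x.1 ⟨σ, hF⟩ = 0 := Subtype.ext (x.1.2.2.2.2.2 l hl hlS hlQ B hB _ hσ)
  have h2 : x.2.1 ⟨σ, hF⟩ = 0 := (KField.mem_eqHom.mp x.2.2).2.2.2 B l hl hB hTF ⟨σ, hF⟩ hσ
  show h.glob hu x ⟨((⟨σ, hF⟩ : h.fieldKF.K.fixingSubgroup) : Γ), σ.2⟩ = 0
  rw [h.glob_fix, h1, h2, zero_add]
  rfl

/-- At an auxiliary place with unipotent Frobenius the values on inertia are upper nilpotent. -/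
theorem ResidualHyp.glob_inertia_aux (hp : p ≠ 2)
    (x : ↥(selmer rb Smin Q A L) × ↥(h.fieldKF.eqHom (W := h.MI) h.rhoI TF))
    {l : ℕ} (hl : l.Prime) (hlS : l ∉ Smin) {B : ValuationSubring Qb} (hB : B.LiesOverPrime l)
    {φ : Γ} (hφ : B.IsFrobeniusAt φ l) (h10 : rb φ 1 0 = 0) (h00 : rb φ 0 0 = 1)
    (h11 : rb φ 1 1 = 1) (h01 : rb φ 0 1 ≠ 0) {σ : borelΓ rb}
    (hσ : (σ : Γ) ∈ B.inertiaSubgroupIn ℚ) : h.glob hu x σ ∈ lev k 2 := by
  have hlp : l ≠ p := fun e => hlS (e ▸ h.mem_p)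
  have hF : (σ : Γ) ∈ h.fieldKF.K.fixingSubgroup :=
    h.mem_kerField.mpr (h.unramified l hl hlS B hB _ hσ)
  have hdet : (rb φ).det = 1 := by rw [Matrix.det_fin_two, h10, h00, h11]; simp
  have heps : h.fieldKF.eps (h.fieldKF.π (h.inH φ)) = 1 :=
    Units.ext ((algebraMap (ZMod p) k).injective (by
      rw [h.algebraMap_eps, h.coe_rbF_π, hdet, Units.val_one, map_one]))
  obtain ⟨hadd, hlev, heq, -⟩ := KField.mem_eqHom.mp (h.resSel_mem x.1)
  have hc : adGL (rbGL rb φ) (h.resSel x.1 ⟨σ, hF⟩) = h.resSel x.1 ⟨σ, hF⟩ := by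
    have h1 := h.fieldKF.conj_inertia_eq hl hB hlp hadd hlev (h.inH φ)
      hφ.mem_decompositionSubgroup heps (σ := ⟨σ, hF⟩) hσ
    rwa [heq, h.twist_rho, h.adF_apply, h.rbF_π] at h1
  have hf : adGL (rbGL rb φ) (((x.2.1 ⟨σ, hF⟩ : h.MI) : h.Omega → sl2 k) (QuotientGroup.mk 1)) =
      ((x.2.1 ⟨σ, hF⟩ : h.MI) : h.Omega → sl2 k) (QuotientGroup.mk 1) := by
    have h1 := h.fieldKF.conj_inertia_eq (W := h.MI) hl hB hlp (KField.mem_eqHom.mp x.2.2).1 (KField.mem_eqHom.mp x.2.2).2.1 (h.inH φ)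
      hφ.mem_decompositionSubgroup heps (σ := ⟨σ, hF⟩) hσ
    rw [h.eqHomI_equivariant] at h1
    have h2 := congrArg (fun Y : h.MI => (Y : h.Omega → sl2 k) (QuotientGroup.mk 1)) h1
    change ((h.adI (h.fieldKF.π (h.inH φ)) (x.2.1 ⟨σ, hF⟩) : h.MI) : h.Omega → sl2 k)
      (QuotientGroup.mk 1) = _ at h2
    rw [h.coe_adI, h.rbF_π] at h2
    have hb : h.fieldKF.π (h.inH φ) ∈ h.borelF := by
      show h.rbF (h.fieldKF.π (h.inH φ)) ∈ borelGL k
      rw [h.rbF_π]; exact h10
    rwa [h.smul_base_of_mem_borelF (inv_mem hb)] at h2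
  show h.glob hu x ⟨((⟨σ, hF⟩ : h.fieldKF.K.fixingSubgroup) : Γ), σ.2⟩ ∈ lev k 2
  rw [h.glob_fix]
  set X := h.resSel x.1 ⟨σ, hF⟩ +
    ((x.2.1 ⟨σ, hF⟩ : h.MI) : h.Omega → sl2 k) (QuotientGroup.mk 1)
  have hX : adGL (rbGL rb φ) X = X := by rw [map_add, hc, hf]
  have hm := congrArg (fun Z : sl2 k => (Z : Mat k) * (rbGL rb φ : Mat k)) hX
  simp only [coe_adGL] at hm
  rw [mul_assoc, ← Units.val_mul, inv_mul_cancel, Units.val_one, mul_one] at hm
  have hm' : rb φ * (X : Mat k) = (X : Mat k) * rb φ := hm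
  have e00 := congrFun (congrFun hm' 0) 0
  have e01 := congrFun (congrFun hm' 0) 1
  simp [Matrix.mul_apply, Fin.sum_univ_two, h10, h00, h11, sl2_diag_neg] at e00 e01
  have c0 : (X : Mat k) 1 0 = 0 := e00.resolve_left h01
  have c1 : (X : Mat k) 0 0 = 0 := by
    have h5 : (2 : k) * (X : Mat k) 0 0 * rb φ 0 1 = 0 := by linear_combination -e01
    exact (mul_eq_zero.mp ((mul_eq_zero.mp h5).resolve_right h01)).resolve_left
      (two_ne_zero_of_charP (k := k) hp)
  refine mem_lev.mpr fun i hi => ?_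
  fin_cases i
  · exact c0
  · exact c1
  · exact absurd hi (lt_irrefl _)

end glob

end FLTAgent.TW
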