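import Fermat.Agent.TW.Mono.Global
import Fermat.Agent.TW.Mono.Residue
import Fermat.Agent.TW.EqFunTools
import Fermat.Agent.TW.Restrict
import Fermat.Agent.TW.Counts.Units
import Fermat.Agent.TW.Counts.Local

/-!
# The local image of the classes over the diagonal field

The classes restricted to the decomposition groups of the places over `Smin` lie in a space built
from the local conditions and the localisations over the kernel field; its graded pieces bound the
local images of the pieces.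
-/

set_option autoImplicit false
set_option linter.unusedSectionVars false
set_option maxHeartbeats 800000
set_option synthInstance.maxHeartbeats 200000

open IsDedekindDomain NumberField
open scoped Pointwise Classical

noncomputable section

namespace FLTAgent.TW

open FLTAgent.Deformation FLTAgent.Frobenius

attribute [local irreducible] KField.eqHom

/-- Adding the range of a map to a subspace containing the image of a part. -/
theorem finrank_sup_range_add_le {R V M : Type} [Field R] [AddCommGroup V] [Module R V]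
    [AddCommGroup M] [Module R M] [Module.Finite R V] (W : Submodule R M) [Module.Finite R W]
    (F : V →ₗ[R] M) (K : Submodule R V) (hK : K ≤ W.comap F) :
    Module.finrank R ↥(W ⊔ LinearMap.range F) + Module.finrank R K ≤
      Module.finrank R W + Module.finrank R V := by
  have h1 := Submodule.finrank_sup_add_finrank_inf_eq W (LinearMap.range F)
  have h2 := LinearMap.finrank_range_add_finrank_ker F
  have h3 := LinearMap.finrank_range_add_finrank_ker (F.domRestrict K)
  have h4 : Module.finrank R (LinearMap.range (F.domRestrict K)) ≤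
      Module.finrank R ↥(W ⊓ LinearMap.range F) := Submodule.finrank_mono (by
    rintro _ ⟨x, rfl⟩
    exact ⟨hK x.2, x.1, rfl⟩)
  have h5 : Module.finrank R (LinearMap.ker (F.domRestrict K)) ≤
      Module.finrank R (LinearMap.ker F) :=
    LinearMap.finrank_le_finrank_of_injective
      (f := (K.subtype.comp (LinearMap.ker (F.domRestrict K)).subtype).codRestrict _ fun x =>
        LinearMap.mem_ker.mpr (LinearMap.mem_ker.mp x.2))
      fun a b hab => Subtype.ext (Subtype.ext (congrArg (fun y : LinearMap.ker F => (y : V)) hab))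
  omega

/-- The image of a subspace and a part of the kernel inside it. -/
theorem finrank_map_add_le {R V M : Type} [Field R] [AddCommGroup V] [Module R V]
    [AddCommGroup M] [Module R M] (f : V →ₗ[R] M) (N : Submodule R V) [Module.Finite R N]
    (K : Submodule R V) (hK : K ≤ N ⊓ LinearMap.ker f) :
    Module.finrank R (N.map f) + Module.finrank R K ≤ Module.finrank R N := by
  have h1 := LinearMap.finrank_range_add_finrank_ker (f.domRestrict N)
  have h2 : LinearMap.range (f.domRestrict N) = N.map f := by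
    rw [LinearMap.domRestrict, LinearMap.range_comp, Submodule.range_subtype]
  rw [h2] at h1
  have h3 : Module.finrank R K ≤ Module.finrank R (LinearMap.ker (f.domRestrict N)) :=
    LinearMap.finrank_le_finrank_of_injective
      (f := ((Submodule.inclusion (hK.trans inf_le_left)).codRestrict
        (LinearMap.ker (f.domRestrict N)) fun x => LinearMap.mem_ker.mpr
          (LinearMap.mem_ker.mp (hK x.2).2)))
      fun a b hab => Subtype.ext (congrArg (fun y : LinearMap.ker (f.domRestrict N) =>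
        ((y : N) : V)) hab)
  omega

/-- A linear map with trivial kernel is injective. -/
theorem injective_of_map_eq_zero {R V M : Type} [Field R] [AddCommGroup V] [Module R V]
    [AddCommGroup M] [Module R M] (f : V →ₗ[R] M) (h : ∀ x, f x = 0 → x = 0) :
    Function.Injective f := (injective_iff_map_eq_zero f).mpr h

section generic

variable {p : ℕ} [Fact p.Prime] {S : KField p} {k : Type} [Field k] [Algebra (ZMod p) k]
variable {W : Type} [AddCommGroup W] [Module k W] [Module (ZMod p) W] [IsScalarTower (ZMod p) k W]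
  [Finite W] {ρ : Representation k S.C W}

/-- Equivariant homomorphisms unramified outside a finite set form a finite space. -/
theorem KField.finite_eqHom {T : Finset (Ext.Place S.K)} (hT : S.IsStable (T : Set _))
    (hp : ∀ v : Ext.Place S.K, (p : 𝓞 S.K) ∈ v.asIdeal → v ∈ T) :
    Module.Finite k (S.eqHom ρ (T : Set (Ext.Place S.K))) := by
  have : Finite (Module.Dual (ZMod p) (S.XT (T : Set (Ext.Place S.K)))) :=
    Finite.of_injective _ DFunLike.coe_injective
  have : Finite (eqMaps ρ (KField.xtRep hT).dual) :=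
    Finite.of_injective (fun M => (M.1 : _ → W)) fun a b hab =>
      Subtype.ext (DFunLike.coe_injective hab)
  exact Module.Finite.equiv (LinearEquiv.ofBijective _ (KField.ofMaps_bijective hT hp))

/-- The localisations at `U` are bounded by the local count. -/
theorem KField.finrank_range_decRes_le {T : Finset (Ext.Place S.K)} (hT : S.IsStable (T : Set _))
    (hp : ∀ v : Ext.Place S.K, (p : 𝓞 S.K) ∈ v.asIdeal → v ∈ T) {U : Set (Ext.Place S.K)}
    (hU : S.IsStable U) [Finite (S.LocK U)] :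
    Module.finrank k (S.eqHom ρ (T : Set (Ext.Place S.K))) ≤ cnt ρ (KField.locRep hU) +
      Module.finrank k (LinearMap.ker ((KField.decRes (k := k) (W := W) U).comp
        (S.eqHom ρ (T : Set (Ext.Place S.K))).subtype)) := by
  have := KField.finite_eqHom (ρ := ρ) hT hp
  rw [← LinearMap.finrank_range_add_finrank_ker ((KField.decRes (k := k) (W := W) U).comp
      (S.eqHom ρ (T : Set (Ext.Place S.K))).subtype)]
  refine Nat.add_le_add_right ?_ _
  have : Finite (Module.Dual (ZMod p) (S.LocK U)) := Finite.of_injective _ DFunLike.coe_injective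
  have : Finite (eqMaps ρ (KField.locRep hU).dual) :=
    Finite.of_injective (fun M => (M.1 : _ → W)) fun a b hab =>
      Subtype.ext (DFunLike.coe_injective hab)
  refine le_trans (Submodule.finrank_mono ?_)
    (LinearMap.finrank_range_le (KField.locFun (k := k) (ρ := ρ) hU))
  rintro _ ⟨f, rfl⟩
  obtain ⟨M, rfl⟩ := (KField.ofMaps_bijective (ρ := ρ) hT hp).2 f
  exact ⟨_, (KField.ofMaps_decRes hT hU hp M).symm⟩

end generic

variable {k : Type} [Field k] [Finite k] {p : ℕ} [hpf : Fact p.Prime] [CharP k p]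
  [Algebra (ZMod p) k]
variable {rb : Gal →* Mat k} {Smin : Finset ℕ} (h : ResidualHyp p rb Smin)

local instance (priority := high) subMIGroup (P : Submodule k h.MI) : AddCommGroup P :=
  @Submodule.addCommGroup k h.MI _ (Submodule.addCommGroup h.MI) (Submodule.module h.MI) P

local instance (priority := high) subFunMIGroup {X : Type} (P : Submodule k (X → h.MI)) :
    AddCommGroup P :=
  @Submodule.addCommGroup k (X → h.MI) _ (@Pi.addCommGroup X _ fun _ => Submodule.addCommGroup h.MI)
    (@Pi.module X (fun _ => ↥h.MI) k _ _ fun _ => Submodule.module h.MI) P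

/-- Places of the diagonal field in one orbit come from valuations conjugate over the Borel
part. -/
theorem ResidualHyp.exists_borel_smul {B B' : ValuationSubring Qb} {l : ℕ} (hl : l.Prime)
    (hB : B.LiesOverPrime l) (hB' : B'.LiesOverPrime l) {c : h.monoKF.C}
    (e : c • placeIn h.monoKF.K B hl hB = placeIn h.monoKF.K B' hl hB') :
    ∃ g : h.monoKF.H, (g : Γ) • B = B' ∧ h.monoKF.π g = c := by
  obtain ⟨g₀, rfl⟩ := h.monoKF.π_surj c
  rw [← h.monoKF.placeIn_smul_π g₀ hl hB] at e
  obtain ⟨τ, hτ, hτe⟩ :=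
    exists_fix_smul_eq h.monoKF.K (congrArg HeightOneSpectrum.asIdeal e)
  refine ⟨⟨τ, h.monoKF.fix_le hτ⟩ * g₀, ?_, ?_⟩
  · show (τ * (g₀ : Γ)) • B = B'
    rw [mul_smul]
    exact hτe
  · rw [map_mul, (h.monoKF.π_ker ⟨τ, h.monoKF.fix_le hτ⟩).mpr hτ, one_mul]

/-- Representatives of the places of the diagonal field over `Smin`. -/
structure MonoReps (A : ℕ → ValuationSubring Qb) where
  /-- The orbits. -/
  ι : Type
  [fin : Fintype ι]
  /-- The residue characteristic. -/
  pr : ι → ℕ
  mem : ∀ i, pr i ∈ Smin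
  /-- The conjugating elements. -/
  g : ι → Γ
  lies : ∀ i, (g i • A (pr i)).LiesOverPrime (pr i)
  cov : ∀ (B : ValuationSubring Qb) (l : ℕ), l.Prime → B.LiesOverPrime l → l ∈ Smin →
    ∃ i, pr i = l ∧ ∃ hh : h.monoKF.H, (hh : Γ) • (g i • A l) = B
  uniq : ∀ i j, ∀ hh : h.monoKF.H, (hh : Γ) • (g i • A (pr i)) = g j • A (pr j) → i = j

attribute [instance] MonoReps.fin

variable {A : ℕ → ValuationSubring Qb}

theorem ResidualHyp.exists_monoReps (hA : ∀ l ∈ Smin, (A l).LiesOverPrime l) :
    Nonempty (MonoReps h A) := by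
  let U : Type := {v : Ext.Place h.monoKF.K // v ∈ h.monoKF.placesOver Smin}
  let s : Setoid U := (MulAction.orbitRel h.monoKF.C (Ext.Place h.monoKF.K)).comap Subtype.val
  have key : ∀ q : Quotient s, ∃ (l : ℕ) (g : Γ), ∃ hl : l.Prime, l ∈ Smin ∧
      ∃ hB : (g • A l).LiesOverPrime l,
        placeIn h.monoKF.K (g • A l) hl hB = (q.out : U).1 := fun q => by
    obtain ⟨l, hlS, hl, hlv⟩ := h.monoKF.mem_placesOver.mp q.out.2
    obtain ⟨B, hB, he⟩ := exists_placeIn h.monoKF.K _ hl hlv
    obtain ⟨g, rfl⟩ := exists_smul_eq hl (hA l hlS) hB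
    exact ⟨l, g, hl, hlS, hB, he⟩
  choose pr g hpr hmem hov hplace using key
  have : Fintype U := Fintype.ofFinite _
  refine ⟨{ ι := Quotient s, pr := pr, mem := hmem, g := g, lies := hov, cov := ?_, uniq := ?_ }⟩
  · intro B l hl hB hlS
    have hv : placeIn h.monoKF.K B hl hB ∈ h.monoKF.placesOver Smin :=
      h.monoKF.mem_placesOver.mpr ⟨l, hlS, hl, natCast_mem_placeIn⟩
    obtain ⟨q, hq⟩ : ∃ q : Quotient s, q = Quotient.mk s ⟨_, hv⟩ := ⟨_, rfl⟩
    obtain ⟨c, hc⟩ : placeIn h.monoKF.K B hl hB ∈ MulAction.orbit h.monoKF.C (q.out : U).1 := by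
      have h1 : s ⟨_, hv⟩ q.out := Quotient.exact (hq.symm.trans (Quotient.out_eq q).symm)
      exact MulAction.orbitRel_apply.mp h1
    have hpl : pr q = l := by
      refine eq_of_natCast_mem (hpr q) hl _ natCast_mem_placeIn
        ((h.monoKF.mem_smul_iff c (placeIn h.monoKF.K (g q • A (pr q)) (hpr q) (hov q)) l).mp ?_)
      rw [hplace q]
      show (l : 𝓞 h.monoKF.K) ∈ (c • (q.out : U).1).asIdeal
      rw [show c • (q.out : U).1 = placeIn h.monoKF.K B hl hB from hc]
      exact natCast_mem_placeIn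
    refine ⟨q, hpl, ?_⟩
    subst hpl
    obtain ⟨hh, h1, -⟩ := h.exists_borel_smul (hpr q) (hov q) hB (c := c)
      (by rw [hplace q]; exact hc)
    exact ⟨hh, h1⟩
  · intro i j hh e
    have hor : MulAction.orbitRel h.monoKF.C (Ext.Place h.monoKF.K) (j.out : U).1 (i.out : U).1 := by
      refine MulAction.orbitRel_apply.mpr ⟨h.monoKF.π hh, ?_⟩
      show h.monoKF.π hh • (i.out : U).1 = (j.out : U).1
      have hij : pr j = pr i := by
        refine eq_of_natCast_mem (hpr j) (hpr i) (placeIn h.monoKF.K (g j • A (pr j)) (hpr j) (hov j))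
          natCast_mem_placeIn ?_
        have h2 := liesOverPrime_smul (hov i) (hh : Γ)
        rw [e] at h2
        exact natCast_mem_centreIn h.monoKF.K h2
      rw [← hplace i, ← hplace j, ← h.monoKF.placeIn_smul_π hh (hpr i) (hov i)]
      refine HeightOneSpectrum.ext ?_
      show centreIn h.monoKF.K ((hh : Γ) • g i • A (pr i)) = centreIn h.monoKF.K (g j • A (pr j))
      rw [e]
    have : s j.out i.out := hor
    exact (Quotient.out_equiv_out.mp this).symm

namespace MonoReps

variable {h} (R : MonoReps h A)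

/-- The valuation of a representative. -/
abbrev val (i : R.ι) : ValuationSubring Qb := R.g i • A (R.pr i)

theorem prime (i : R.ι) : (R.pr i).Prime := h.prime _ (R.mem i)

/-- The decomposition group of a representative in the preimage of the Borel part. -/
def dec (i : R.ι) : Subgroup (borelΓ rb) :=
  ((R.val i).decompositionSubgroup ℚ).comap (borelΓ rb).subtype

/-- Functions on the decomposition groups of the representatives. -/
abbrev Loc : Type := ∀ i, R.dec i → sl2 k

/-- Restriction to the decomposition groups. -/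
def res : (borelΓ rb → sl2 k) →ₗ[k] R.Loc :=
  LinearMap.pi fun i => LinearMap.funLeft k (sl2 k) Subtype.val

theorem res_apply (z : borelΓ rb → sl2 k) (i : R.ι) (τ : R.dec i) :
    R.res z i τ = z (τ : borelΓ rb) := rfl

/-- Coboundaries at the representatives. -/
def cob : (R.ι → sl2 k) →ₗ[k] R.Loc :=
  LinearMap.pi fun i => LinearMap.pi fun τ =>
    (adGL (rbGL rb ((τ : borelΓ rb) : Γ)) - LinearMap.id).comp (LinearMap.proj i)

theorem cob_apply (Y : R.ι → sl2 k) (i : R.ι) (τ : R.dec i) :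
    R.cob Y i τ = adGL (rbGL rb ((τ : borelΓ rb) : Γ)) (Y i) - Y i := rfl

/-- The element of the chosen decomposition group. -/
def back (i : R.ι) (τ : R.dec i) : (A (R.pr i)).decompositionSubgroup ℚ :=
  ⟨(R.g i)⁻¹ * ((τ : borelΓ rb) : Γ) * R.g i, MulAction.mem_stabilizer_iff.mpr (by
    have h1 : ((τ : borelΓ rb) : Γ) • R.g i • A (R.pr i) = R.g i • A (R.pr i) :=
      MulAction.mem_stabilizer_iff.mp τ.2
    rw [mul_smul, mul_smul, h1, inv_smul_smul])⟩

theorem coe_back (i : R.ι) (τ : R.dec i) :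
    ((R.back i τ : (A (R.pr i)).decompositionSubgroup ℚ) : Γ) =
      (R.g i)⁻¹ * ((τ : borelΓ rb) : Γ) * R.g i := rfl

theorem ad_back (i : R.ι) (τ : R.dec i) (X : sl2 k) :
    adGL (rbGL rb (R.g i)) (adGL (rbGL rb (R.back i τ : Γ)) X) =
      adGL (rbGL rb ((τ : borelΓ rb) : Γ)) (adGL (rbGL rb (R.g i)) X) := by
  rw [← Module.End.mul_apply, ← Module.End.mul_apply, ← map_mul, ← map_mul, ← map_mul, ← map_mul,
    R.coe_back, mul_assoc, mul_inv_cancel_left]

/-- Elements of `G_K` in a decomposition group over `Smin` are conjugate into the chosen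
ones. -/
theorem exists_conj
    (σ : h.monoKF.InDec (h.monoKF.placesOver Smin : Set (Ext.Place h.monoKF.K))) :
    ∃ (i : R.ι) (hh : h.monoKF.H) (τ : R.dec i),
      ((τ : borelΓ rb) : Γ) ∈ h.monoKF.K.fixingSubgroup ∧
      ((σ.1 : h.monoKF.K.fixingSubgroup) : Γ) =
        (hh : Γ) * ((τ : borelΓ rb) : Γ) * (hh : Γ)⁻¹ := by
  obtain ⟨B, l, hl, hB, hv, hD⟩ := σ.2
  obtain ⟨q, hq, hqp, hqv⟩ := h.monoKF.mem_placesOver.mp hv
  obtain rfl := eq_of_natCast_mem hl hqp _ natCast_mem_placeIn hqv
  obtain ⟨i, hi, hh, e⟩ := R.cov B l hl hB hq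
  subst hi
  have hfix : (hh : Γ)⁻¹ * ((σ.1 : h.monoKF.K.fixingSubgroup) : Γ) * (hh : Γ) ∈
      h.monoKF.K.fixingSubgroup := by
    have := (h.monoKF.conjK hh⁻¹ σ.1).2
    rwa [KField.coe_conjK, Subgroup.coe_inv, inv_inv] at this
  refine ⟨i, hh, ⟨⟨_, h.monoKF.fix_le hfix⟩, ?_⟩, hfix, by group⟩
  show ((hh : Γ)⁻¹ * ((σ.1 : h.monoKF.K.fixingSubgroup) : Γ) * (hh : Γ)) ∈
    (R.val i).decompositionSubgroup ℚ
  refine MulAction.mem_stabilizer_iff.mpr ?_
  rw [mul_smul, mul_smul, e, MulAction.mem_stabilizer_iff.mp hD, ← e, inv_smul_smul]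

/-- The piece of a local function. -/
def piece (j : Fin 3) :
    R.Loc →ₗ[k] (h.monoKF.InDec (h.monoKF.placesOver Smin : Set (Ext.Place h.monoKF.K)) → k) where
  toFun x σ := ((h.chX j (h.monoKF.π (R.exists_conj σ).choose_spec.choose) : kˣ) : k) *
    coord j (x (R.exists_conj σ).choose (R.exists_conj σ).choose_spec.choose_spec.choose)
  map_add' a b := funext fun σ => by simp only [Pi.add_apply, map_add, mul_add]
  map_smul' t a := funext fun σ => by
    simp only [Pi.smul_apply, map_smul, smul_eq_mul, RingHom.id_apply]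
    exact mul_left_comm _ _ _

theorem decRes_pc {j : Fin 3} {z : borelΓ rb → sl2 k} (hz : IsCocycle (borelπ rb) adGL z)
    (hlev : z ∈ levFun rb (j : ℕ)) :
    KField.decRes (k := k) _ (h.pc j z) = R.piece j (R.res z) := by
  refine funext fun σ => ?_
  obtain ⟨hfix, he⟩ := (R.exists_conj σ).choose_spec.choose_spec.choose_spec
  set hh := (R.exists_conj σ).choose_spec.choose
  set τ := (R.exists_conj σ).choose_spec.choose_spec.choose
  show h.pc j z σ.1 = ((h.chX j (h.monoKF.π hh) : kˣ) : k) * coord j (z (τ : borelΓ rb))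
  have hc := (h.isCocycle_coord hz hlev).conj_ker hh
    (n := ⟨((τ : borelΓ rb) : Γ), h.monoKF.fix_le hfix⟩) ((h.monoKF.π_ker _).mpr hfix)
  rw [← h.coordH_fix j z σ.1]
  refine Eq.trans (congrArg _ (Subtype.ext he)) (hc.trans ?_)
  rw [ResidualHyp.adX, chRep_apply, h.coordH_apply]
  rfl

/-- The steps of the filtration on local functions. -/
def levLoc (n : ℕ) : Submodule k R.Loc where
  carrier := {x | ∀ i τ, x i τ ∈ lev k n}
  zero_mem' := fun _ _ => zero_mem _
  add_mem' := fun ha hb i τ => add_mem (ha i τ) (hb i τ)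
  smul_mem' := fun t _ ha i τ => Submodule.smul_mem _ t (ha i τ)

/-- The representatives with trivial character. -/
def triv (j : Fin 3) : Set R.ι :=
  {i | ∀ τ : R.dec i, h.chX j (h.monoKF.π (h.bH (τ : borelΓ rb))) = 1}

theorem card_triv_le (j : Fin 3) :
    Nat.card (R.triv j) ≤ Module.finrank k
      (eqFunOn (h.adX j) (h.monoKF.placesOver Smin : Set (Ext.Place h.monoKF.K))) := by
  rw [finrank_eqFunOn (h.adX j) (h.monoKF.placesOver_stable Smin)
    (fun i => placeIn h.monoKF.K (R.val i) (R.prime i) (R.lies i))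
    (fun i => h.monoKF.mem_placesOver.mpr ⟨R.pr i, R.mem i, R.prime i, natCast_mem_placeIn⟩)
    (fun v hv => by
      obtain ⟨l, hlS, hl, hlv⟩ := h.monoKF.mem_placesOver.mp hv
      obtain ⟨B, hB, rfl⟩ := exists_placeIn h.monoKF.K v hl hlv
      obtain ⟨i, hi, hh, e⟩ := R.cov B l hl hB hlS
      subst hi
      refine ⟨i, h.monoKF.π hh, ?_⟩
      rw [← h.monoKF.placeIn_smul_π hh (R.prime i) (R.lies i)]
      refine HeightOneSpectrum.ext ?_
      show centreIn h.monoKF.K ((hh : Γ) • R.g i • A (R.pr i)) = centreIn h.monoKF.K B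
      rw [e])
    (fun i i' c hc => by
      have hm : ((R.pr i : ℕ) : 𝓞 h.monoKF.K) ∈
          (placeIn h.monoKF.K (R.val i') (R.prime i') (R.lies i')).asIdeal :=
        hc ▸ (h.monoKF.mem_smul_iff c _ _).mpr natCast_mem_placeIn
      have hp' := eq_of_natCast_mem (R.prime i) (R.prime i') _ hm natCast_mem_placeIn
      obtain ⟨g, hg, -⟩ := h.exists_borel_smul (R.prime i) (R.lies i) (B' := R.val i')
        (hp'.symm ▸ R.lies i') (c := c) (by rw [hc]; exact HeightOneSpectrum.ext rfl)
      exact R.uniq i i' g hg)]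
  refine le_trans ?_ (Finset.sum_le_sum fun i _ =>
    (?_ : (if i ∈ R.triv j then 1 else 0 : ℕ) ≤ _))
  · rw [Finset.sum_boole, Nat.cast_id, Nat.card_eq_fintype_card, Fintype.card_subtype]
  · split_ifs with hi
    · rw [show fixedBy' (h.adX j) _ = ⊤ from eq_top_iff.mpr fun x _ c hc => ?_]
      · rw [finrank_top, Module.finrank_self]
      · obtain ⟨g, hg, rfl⟩ := h.exists_borel_smul (R.prime i) (R.lies i) (R.lies i)
          (c := c) (MulAction.mem_stabilizer_iff.mp hc)
        have h1 := hi ⟨h.hB g, MulAction.mem_stabilizer_iff.mpr hg⟩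
        rw [ResidualHyp.adX, chRep_apply, show g = h.bH (h.hB g) from Subtype.ext rfl, h1,
          Units.val_one, one_mul]
    · exact Nat.zero_le _

theorem piece_step (W : Submodule k R.Loc) [Module.Finite k W] (hW : LinearMap.range R.cob ≤ W)
    (j : Fin 3) :
    Module.finrank k ((W ⊓ R.levLoc (j : ℕ)).map (R.piece j)) + Fintype.card R.ι +
        Module.finrank k ↥(W ⊓ R.levLoc ((j : ℕ) + 1)) ≤
      Module.finrank k ↥(W ⊓ R.levLoc (j : ℕ)) + Nat.card (R.triv j) := by
  set N := W ⊓ R.levLoc (j : ℕ)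
  set N' := W ⊓ R.levLoc ((j : ℕ) + 1)
  have : Module.Finite k N := Submodule.finiteDimensional_of_le inf_le_left
  have : Module.Finite k N' := Submodule.finiteDimensional_of_le inf_le_left
  let I : ({i // i ∉ R.triv j} → k) →ₗ[k] (R.ι → sl2 k) := LinearMap.pi fun i =>
    if hi : i ∈ R.triv j then 0 else (LinearMap.proj (R := k) (φ := fun _ => k) (⟨i, hi⟩ :
      {i // i ∉ R.triv j})).smulRight (coordVec (k := k) j)
  have hI : ∀ t i, I t i = (if hi : i ∈ R.triv j then (0 : k) else t ⟨i, hi⟩) • coordVec j :=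
    fun t i => by
      by_cases hi : i ∈ R.triv j
      · simp only [I, LinearMap.pi_apply, dif_pos hi, LinearMap.zero_apply, zero_smul]
      · simp only [I, LinearMap.pi_apply, dif_neg hi]; rfl
  have hIlev : ∀ t i, I t i ∈ lev k (j : ℕ) := fun t i => by
    rw [hI]; exact Submodule.smul_mem _ _ (coordVec_mem_lev j)
  have hcoord : ∀ t i (τ : R.dec i), coord j (R.cob (I t) i τ) =
      (((h.chX j (h.monoKF.π (h.bH (τ : borelΓ rb))) : kˣ) : k) - 1) *
        (if hi : i ∈ R.triv j then (0 : k) else t ⟨i, hi⟩) := fun t i τ => by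
    rw [R.cob_apply, map_sub,
      show adGL (rbGL rb ((τ : borelΓ rb) : Γ)) (I t i) =
        adGL (rbGL rb ((h.bH (τ : borelΓ rb) : h.monoKF.H) : Γ)) (I t i) from rfl,
      h.coord_ad _ j (hIlev t i), ResidualHyp.adX, chRep_apply, hI, map_smul, coord_coordVec,
      if_pos rfl, smul_eq_mul, mul_one, sub_mul, one_mul]
  have hlev : ∀ t, R.cob (I t) ∈ N := fun t => ⟨hW ⟨_, rfl⟩, fun i τ =>
    sub_mem (h.ad_mem_lev (h.bH (τ : borelΓ rb)) (hIlev t i)) (hIlev t i)⟩
  have hker : ∀ t, R.piece j (R.cob (I t)) = 0 := fun t => funext fun σ => by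
    obtain ⟨hfix, -⟩ := (R.exists_conj σ).choose_spec.choose_spec.choose_spec
    show _ * coord j (R.cob (I t) (R.exists_conj σ).choose
      (R.exists_conj σ).choose_spec.choose_spec.choose) = 0
    rw [hcoord, (h.monoKF.π_ker (h.bH _)).mpr hfix, map_one, Units.val_one, sub_self, zero_mul,
      mul_zero]
  have hker' : ∀ y ∈ N', R.piece j y = 0 := fun y hy => funext fun σ => by
    show _ * coord j (y _ _) = 0
    rw [(mem_lev_succ.mp (hy.2 _ _)).2, mul_zero]
  have hle : N' ≤ N := fun y hy => ⟨hy.1, fun i τ => (mem_lev_succ.mp (hy.2 i τ)).1⟩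
  let Φ : N' × ({i // i ∉ R.triv j} → k) →ₗ[k] R.Loc :=
    LinearMap.coprod N'.subtype (R.cob.comp I)
  have hΦ : Function.Injective Φ := by
    refine injective_of_map_eq_zero (V := ↥N' × ({i // i ∉ R.triv j} → k)) (M := R.Loc) Φ fun x hx => ?_
    have e : (x.1 : R.Loc) + R.cob (I x.2) = 0 := hx
    have h2 : x.2 = 0 := funext fun i => by
      obtain ⟨τ, hτ⟩ := not_forall.mp i.2
      have e1 := congrArg (coord j) (congrFun (congrFun e i.1) τ)
      rw [Pi.add_apply, Pi.add_apply, map_add, (mem_lev_succ.mp (x.1.2.2 _ _)).2, zero_add,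
        hcoord, dif_neg i.2, Pi.zero_apply, Pi.zero_apply, map_zero] at e1
      exact (mul_eq_zero.mp e1).resolve_left (sub_ne_zero.mpr fun h' => hτ (Units.ext h'))
    rw [h2, map_zero, map_zero, add_zero] at e
    exact Prod.ext (Subtype.ext e) h2
  have h1 := finrank_map_add_le (R.piece j) N (LinearMap.range Φ) (by
    rintro _ ⟨x, rfl⟩
    refine ⟨add_mem (hle x.1.2) (hlev x.2), LinearMap.mem_ker.mpr ?_⟩
    show R.piece j ((x.1 : R.Loc) + R.cob (I x.2)) = 0
    rw [map_add, hker, hker' _ x.1.2, add_zero])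
  have : Module.Free k N' := Module.Free.of_divisionRing k N'
  rw [LinearMap.finrank_range_of_inj hΦ, Module.finrank_prod,
    Module.finrank_fintype_fun_eq_card] at h1
  have h4 : Fintype.card {i // i ∉ R.triv j} + Nat.card (R.triv j) = Fintype.card R.ι := by
    rw [Fintype.card_subtype_compl, Nat.card_eq_fintype_card]
    exact Nat.sub_add_cancel (Fintype.card_subtype_le _)
  omega

theorem sum_piece_le (W : Submodule k R.Loc) [Module.Finite k W]
    (hW : LinearMap.range R.cob ≤ W) :
    ∑ j : Fin 3, Module.finrank k ((W ⊓ R.levLoc (j : ℕ)).map (R.piece j)) +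
        3 * Fintype.card R.ι ≤
      Module.finrank k W + ∑ j : Fin 3, Module.finrank k
        (eqFunOn (h.adX j) (h.monoKF.placesOver Smin : Set (Ext.Place h.monoKF.K))) := by
  have a0 : Module.finrank k ((W ⊓ R.levLoc 0).map (R.piece 0)) + Fintype.card R.ι +
      Module.finrank k ↥(W ⊓ R.levLoc 1) ≤
      Module.finrank k ↥(W ⊓ R.levLoc 0) + Nat.card (R.triv 0) := R.piece_step W hW 0
  have a1 : Module.finrank k ((W ⊓ R.levLoc 1).map (R.piece 1)) + Fintype.card R.ι +
      Module.finrank k ↥(W ⊓ R.levLoc 2) ≤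
      Module.finrank k ↥(W ⊓ R.levLoc 1) + Nat.card (R.triv 1) := R.piece_step W hW 1
  have a2 : Module.finrank k ((W ⊓ R.levLoc 2).map (R.piece 2)) + Fintype.card R.ι +
      Module.finrank k ↥(W ⊓ R.levLoc 3) ≤
      Module.finrank k ↥(W ⊓ R.levLoc 2) + Nat.card (R.triv 2) := R.piece_step W hW 2
  have c0 := R.card_triv_le 0
  have c1 := R.card_triv_le 1
  have c2 := R.card_triv_le 2
  have e0 : Module.finrank k ↥(W ⊓ R.levLoc 0) ≤ Module.finrank k W :=
    Submodule.finrank_mono inf_le_left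
  rw [Fin.sum_univ_three, Fin.sum_univ_three]
  simp only [Fin.val_zero, Fin.val_one, Fin.val_two]
  omega

section image

variable (hA : ∀ l ∈ Smin, (A l).LiesOverPrime l)
variable {L : ∀ l : ℕ, Submodule k ((A l).decompositionSubgroup ℚ → Mat k)}
  (hLZ : ∀ l ∈ Smin, L l ≤ adZ1 rb ((A l).decompositionSubgroup ℚ))

/-- A value of a local condition. -/
def valL (i : R.ι) (τ : R.dec i) : L (R.pr i) →ₗ[k] sl2 k :=
  ((LinearMap.proj (R := k) (φ := fun _ : (A (R.pr i)).decompositionSubgroup ℚ => Mat k)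
    (R.back i τ)).comp (L (R.pr i)).subtype).codRestrict (sl2 k)
      fun x => (hLZ (R.pr i) (R.mem i) x.2).2.1 _

/-- The local conditions at the representatives. -/
def trans : (∀ l : Smin, L l) →ₗ[k] R.Loc :=
  LinearMap.pi fun i =>
    (LinearMap.pi fun τ => (adGL (rbGL rb (R.g i))).comp (R.valL hLZ i τ)).comp
      (LinearMap.proj (R := k) (φ := fun l : Smin => ↥(L l)) (⟨R.pr i, R.mem i⟩ : Smin))

theorem res_selRes {Q : Finset ℕ} (c : selmer rb Smin Q A L) :
    R.res (selRes c) ∈ LinearMap.range R.cob ⊔ LinearMap.range (R.trans hLZ) := by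
  rw [Submodule.mem_sup]
  refine ⟨_, ⟨fun i => -⟨c.1 (R.g i), selmer_trace c.2 _⟩, rfl⟩, _,
    ⟨fun l => ⟨fun d => c.1 d, c.2.2.2.2.1 l l.2⟩, rfl⟩, funext fun i => funext fun τ => ?_⟩
  refine Subtype.ext ?_
  set g := R.g i
  set t : Γ := ((τ : borelΓ rb) : Γ) with ht
  have hd : ((R.back i τ : (A (R.pr i)).decompositionSubgroup ℚ) : Γ) = g⁻¹ * t * g := rfl
  rw [Pi.add_apply, Pi.add_apply, R.cob_apply, R.res_apply, coe_selRes, ← ht, Submodule.coe_add,
    Submodule.coe_sub, map_neg, Submodule.coe_neg, Submodule.coe_neg, coe_adGL]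
  show -((rbGL rb t : Mat k) * c.1 g * ((rbGL rb t)⁻¹ : GL (Fin 2) k)) - -c.1 g +
    (rbGL rb g : Mat k) * c.1 (R.back i τ : Γ) * ((rbGL rb g)⁻¹ : GL (Fin 2) k) = c.1 t
  rw [hd, ← map_inv, ← map_inv]
  show -adAct rb t (c.1 g) - -c.1 g + adAct rb g (c.1 (g⁻¹ * t * g)) = c.1 t
  have h1 := c.2.1 g (g⁻¹ * t * g)
  rw [show g * (g⁻¹ * t * g) = t * g by group, c.2.1 t g] at h1
  rw [eq_sub_of_add_eq h1]
  abel

theorem res_indRes (hu : ∃ u ∈ unipPart (imageGL rb), u ≠ 1)
    {TF : Set (Ext.Place h.fieldKF.K)} (f : h.fieldKF.eqHom (W := h.MI) h.rhoI TF)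
    (hf : KField.decRes (k := k) (h.fieldKF.placesOver Smin : Set (Ext.Place h.fieldKF.K)) f.1 = 0) :
    R.res (h.indRes hu f) ∈ LinearMap.range R.cob := by
  have hadd := (KField.mem_eqHom.mp f.2).1
  have key : ∀ i, ∃ X : h.MI, ∀ g ∈ ((R.val i).decompositionSubgroup ℚ).comap
      h.fieldKF.H.subtype, h.fieldKF.cor (W := h.MI) h.adI (h.thetaI hu) f.1 g =
        cobd h.fieldKF.π h.adI X g := fun i => by
    refine exists_corCocycle_eq_cobd (V := h.MI) h.fieldKF.π_surj h.adI (h.thetaI hu) (fun m n hm hn => ?_) _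
      fun t n hn hn1 => ?_
    · rw [h.fieldKF.extendFix_apply f.1 ((h.fieldKF.π_ker m).mp hm),
        h.fieldKF.extendFix_apply f.1 ((h.fieldKF.π_ker n).mp hn),
        h.fieldKF.extendFix_apply f.1 ((h.fieldKF.π_ker (m * n)).mp
          (by rw [map_mul, hm, hn, one_mul])), ← hadd]
      rfl
    · have hfix : ((t⁻¹ * n * t : h.fieldKF.H) : Γ) ∈ h.fieldKF.K.fixingSubgroup :=
        (h.fieldKF.π_ker _).mp (by rw [map_mul, map_mul, hn1, mul_one, map_inv, inv_mul_cancel])
      rw [h.fieldKF.extendFix_apply f.1 hfix]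
      refine congrFun hf ⟨⟨_, hfix⟩, (t : Γ)⁻¹ • R.val i, R.pr i, R.prime i,
        liesOverPrime_smul (R.lies i) _, h.fieldKF.mem_placesOver.mpr
          ⟨R.pr i, R.mem i, R.prime i, natCast_mem_placeIn⟩, MulAction.mem_stabilizer_iff.mpr ?_⟩
      show ((t : Γ)⁻¹ * (n : Γ) * (t : Γ)) • (t : Γ)⁻¹ • R.val i = (t : Γ)⁻¹ • R.val i
      have hn' : (n : Γ) • R.val i = R.val i := MulAction.mem_stabilizer_iff.mp hn
      rw [mul_smul, mul_smul, smul_inv_smul, hn']
  choose X hX using key
  refine ⟨fun i => ((X i : h.MI) : h.Omega → sl2 k) (QuotientGroup.mk 1), funext fun i =>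
    funext fun τ => ?_⟩
  rw [R.cob_apply, R.res_apply, h.indRes_apply]
  show _ = ((h.fieldKF.cor (W := h.MI) h.adI (h.thetaI hu) f.1
    (h.inH ((τ : borelΓ rb) : Γ)) : h.MI) : h.Omega → sl2 k) (QuotientGroup.mk 1)
  rw [hX i (h.inH ((τ : borelΓ rb) : Γ)) τ.2, cobd_apply, Submodule.coe_sub, Pi.sub_apply,
    h.coe_adI, h.rbF_π]
  have hb : h.fieldKF.π (h.inH ((τ : borelΓ rb) : Γ)) ∈ h.borelF := by
    show h.rbF (h.fieldKF.π (h.inH ((τ : borelΓ rb) : Γ))) ∈ borelGL k
    rw [h.rbF_π]; exact (τ : borelΓ rb).2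
  rw [h.smul_base_of_mem_borelF (inv_mem hb)]

include hA in
/-- The fixed vectors over the kernel field and of the decomposition groups give local
invariants. -/
theorem sum_fixed_le (hu : ∃ u ∈ unipPart (imageGL rb), u ≠ 1) :
    ∑ l : Smin, (Module.finrank k (fixedBy' (W := h.MI) h.adI
        (MulAction.stabilizer h.fieldKF.C
          (placeIn h.fieldKF.K (A l) (h.prime l l.2) (hA l l.2)) : Set h.fieldKF.C)) +
      Module.finrank k (adH0 rb ((A l).decompositionSubgroup ℚ))) ≤
      Module.finrank k (LinearMap.ker R.cob) := by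
  let P : Smin → Submodule k h.MI := fun l => fixedBy' (W := h.MI) h.adI
    (MulAction.stabilizer h.fieldKF.C
      (placeIn h.fieldKF.K (A l) (h.prime l l.2) (hA l l.2)) : Set h.fieldKF.C)
  let H0 : Smin → Submodule k (Mat k) := fun l => adH0 rb ((A l).decompositionSubgroup ℚ)
  let ω : R.ι → h.Omega := fun i =>
    (h.fieldKF.π (h.inH (R.g i)))⁻¹ • (QuotientGroup.mk 1 : h.Omega)
  let Φ : (∀ l : Smin, P l × H0 l) →ₗ[k] (R.ι → sl2 k) := LinearMap.pi fun i =>
    (adGL (rbGL rb (R.g i))).comp ((LinearMap.coprod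
      (((LinearMap.proj (ω i)).comp h.MI.subtype).comp (P ⟨R.pr i, R.mem i⟩).subtype)
      ((H0 ⟨R.pr i, R.mem i⟩).subtype.codRestrict (sl2 k) fun X => X.2.1)).comp
        (LinearMap.proj (⟨R.pr i, R.mem i⟩ : Smin)))
  have hH : ∀ (l : Smin) (X : H0 l) (d : (A l).decompositionSubgroup ℚ),
      adGL (rbGL rb (d : Γ)) (⟨X.1, X.2.1⟩ : sl2 k) = ⟨X.1, X.2.1⟩ := fun l X d =>
    Subtype.ext (by
      rw [coe_adGL, ← map_inv]
      exact sub_eq_zero.mp (congrFun (LinearMap.mem_ker.mp X.2.2) d))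
  have hY : ∀ (l : Smin) (Y : P l) (d : (A l).decompositionSubgroup ℚ) (ν : h.Omega),
      adGL (rbGL rb (d : Γ)) (((Y : h.MI) : h.Omega → sl2 k)
        ((h.fieldKF.π (h.inH (d : Γ)))⁻¹ • ν)) = ((Y : h.MI) : h.Omega → sl2 k) ν := fun l Y d ν => by
    have h1 := congrArg (fun y : h.MI => (y : h.Omega → sl2 k) ν)
      (Y.2 _ (h.smul_placeIn_of_decomposition (h.prime l l.2) (hA l l.2) d.2))
    rwa [h.coe_adI, h.rbF_π] at h1
  have hmem : ∀ x, R.cob (Φ x) = 0 := fun x => funext fun i => funext fun τ => by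
    rw [R.cob_apply, Pi.zero_apply, Pi.zero_apply, sub_eq_zero]
    show adGL (rbGL rb ((τ : borelΓ rb) : Γ)) (adGL (rbGL rb (R.g i)) (_ + _)) =
      adGL (rbGL rb (R.g i)) (_ + _)
    rw [← R.ad_back]
    congr 1
    rw [map_add]
    congr 1
    · have hω : (h.fieldKF.π (h.inH (R.back i τ : Γ)))⁻¹ • ω i = ω i := by
        have hb : h.fieldKF.π (h.inH ((τ : borelΓ rb) : Γ)) ∈ h.borelF := by
          show h.rbF (h.fieldKF.π (h.inH ((τ : borelΓ rb) : Γ))) ∈ borelGL k
          rw [h.rbF_π]; exact (τ : borelΓ rb).2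
        show _ • (h.fieldKF.π (h.inH (R.g i)))⁻¹ • _ = (h.fieldKF.π (h.inH (R.g i)))⁻¹ • _
        rw [show h.inH (R.back i τ : Γ) =
          (h.inH (R.g i))⁻¹ * h.inH ((τ : borelΓ rb) : Γ) * h.inH (R.g i) from rfl, map_mul,
          map_mul, map_inv, _root_.mul_inv_rev, _root_.mul_inv_rev, inv_inv, mul_smul, mul_smul,
          smul_inv_smul, h.smul_base_of_mem_borelF (inv_mem hb)]
      have h1 := hY ⟨R.pr i, R.mem i⟩ (x ⟨R.pr i, R.mem i⟩).1 (R.back i τ) (ω i)
      rw [hω] at h1
      exact h1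
    · exact hH ⟨R.pr i, R.mem i⟩ (x ⟨R.pr i, R.mem i⟩).2 (R.back i τ)
  let Φ' := Φ.codRestrict (LinearMap.ker R.cob) fun x => LinearMap.mem_ker.mpr (hmem x)
  have hinj : Function.Injective Φ' := by
    refine (injective_iff_map_eq_zero Φ').mpr fun x hx => funext fun l => ?_
    obtain ⟨l, hl⟩ := l
    set Y := (x ⟨l, hl⟩).1
    set X : sl2 k := ⟨(x ⟨l, hl⟩).2.1, (x ⟨l, hl⟩).2.2.1⟩
    have hconst : ∀ ν : h.Omega, ((Y : h.MI) : h.Omega → sl2 k) ν = -X := fun ν => by
      induction ν using QuotientGroup.induction_on with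
      | H y =>
      obtain ⟨gy, rfl⟩ := h.fieldKF.π_surj y
      obtain ⟨i, hi, hh, e⟩ := R.cov (((gy : Γ))⁻¹ • A l) l (h.prime l hl)
        (liesOverPrime_smul (hA l hl) _) hl
      subst hi
      have h0 : adGL (rbGL rb (R.g i)) (((Y : h.MI) : h.Omega → sl2 k) (ω i) + X) = 0 :=
        congrFun (congrArg Subtype.val hx) i
      have h0' : ((Y : h.MI) : h.Omega → sl2 k) (ω i) + X = 0 :=
        ((adGL (k := k)).apply_bijective (rbGL rb (R.g i))).1 (h0.trans (map_zero _).symm)
      let d : (A (R.pr i)).decompositionSubgroup ℚ :=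
        ⟨((hh : Γ) * R.g i)⁻¹ * (gy : Γ)⁻¹, MulAction.mem_stabilizer_iff.mpr (by
          rw [mul_smul, ← e, ← mul_smul (hh : Γ), inv_smul_smul])⟩
      have hb : h.fieldKF.π (h.inH (hh : Γ)) ∈ h.borelF := by
        show h.rbF (h.fieldKF.π (h.inH (hh : Γ))) ∈ borelGL k
        rw [h.rbF_π]; exact hh.2
      have hν : (h.fieldKF.π (h.inH (d : Γ)))⁻¹ • ω i = QuotientGroup.mk (h.fieldKF.π gy) := by
        rw [← h.smul_base (h.fieldKF.π gy)]
        show _ • (h.fieldKF.π (h.inH (R.g i)))⁻¹ • _ = _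
        rw [show h.inH (d : Γ) = (h.inH (hh : Γ) * h.inH (R.g i))⁻¹ * gy⁻¹ from rfl]
        simp only [map_mul, map_inv, _root_.mul_inv_rev, inv_inv, mul_smul, smul_inv_smul]
        rw [h.smul_base_of_mem_borelF hb]
      have h1 := hY ⟨R.pr i, hl⟩ Y d (ω i)
      rw [hν, eq_neg_of_add_eq_zero_left h0'] at h1
      have h2 : -X = adGL (rbGL rb (d : Γ)) (-X) := by
        rw [map_neg]
        exact congrArg Neg.neg (hH ⟨R.pr i, hl⟩ (x ⟨R.pr i, hl⟩).2 d).symm
      exact ((adGL (k := k)).apply_bijective (rbGL rb (d : Γ))).1 (h1.trans h2)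
    have hsum := h.mem_MI.mp (Y : h.MI).2
    simp only [hconst, Finset.sum_const, Finset.card_univ, ← Nat.cast_smul_eq_nsmul k,
      smul_eq_zero, h.card_Omega_ne_zero hu, false_or, neg_eq_zero] at hsum
    refine Prod.ext (Subtype.ext (Subtype.ext (funext fun ν => ?_))) (Subtype.ext ?_)
    · rw [hconst, hsum, neg_zero]; rfl
    · exact congrArg (fun Z : sl2 k => (Z : Mat k)) hsum
  have : ∀ l : Smin, Module.Free k (P l) := fun l => Module.Free.of_divisionRing k ↥(P l)
  have : ∀ l : Smin, Module.Free k (H0 l) := fun l => Module.Free.of_divisionRing k ↥(H0 l)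
  have h1 := LinearMap.finrank_le_finrank_of_injective hinj
  rw [Module.finrank_pi_fintype] at h1
  exact le_of_eq_of_le (Finset.sum_congr rfl fun l _ =>
    (Module.finrank_prod (R := k) (M := P l) (M' := H0 l)).symm) h1

end image

end MonoReps

/-- The local images of the pieces. -/
theorem ResidualHyp.exists_monoLocImage (hA : ∀ l ∈ Smin, (A l).LiesOverPrime l)
    (hu : ∃ u ∈ unipPart (imageGL rb), u ≠ 1)
    {L : ∀ l : ℕ, Submodule k ((A l).decompositionSubgroup ℚ → Mat k)}
    (hLB : ∀ l ∈ Smin, adB1 rb ((A l).decompositionSubgroup ℚ) ≤ L l)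
    (hLZ : ∀ l ∈ Smin, L l ≤ adZ1 rb ((A l).decompositionSubgroup ℚ))
    (hLfin : ∀ l ∈ Smin, Module.Finite k (L l)) (Q : Finset ℕ)
    (TF : Finset (Ext.Place h.fieldKF.K)) (hTF : h.fieldKF.IsStable (TF : Set _))
    (hpT : ∀ v : Ext.Place h.fieldKF.K, (p : 𝓞 h.fieldKF.K) ∈ v.asIdeal → v ∈ TF) :
    ∃ Λ : Fin 3 → Submodule k
        (h.monoKF.InDec (h.monoKF.placesOver Smin : Set (Ext.Place h.monoKF.K)) → k),
      (∀ j, Module.Finite k (Λ j)) ∧
      (∀ (j : Fin 3) (x : ↥(selmer rb Smin Q A L) ×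
          ↥(h.fieldKF.eqHom (W := h.MI) h.rhoI (TF : Set (Ext.Place h.fieldKF.K)))),
        h.glob hu x ∈ levFun rb (j : ℕ) →
          KField.decRes (k := k) _ (h.pc j (h.glob hu x)) ∈ Λ j) ∧
      ∑ j, Module.finrank k (Λ j) + 3 * Smin.card +
          ∑ l : Smin, Module.finrank k (fixedBy' (W := h.MI) h.adI
            (MulAction.stabilizer h.fieldKF.C
              (placeIn h.fieldKF.K (A l) (h.prime l l.2) (hA l l.2)) : Set h.fieldKF.C)) ≤
        ∑ l ∈ Smin, Module.finrank k (L l) +
          cnt (W := h.MI) h.rhoI (KField.locRep (h.fieldKF.placesOver_stable Smin)) +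
          ∑ j, Module.finrank k
            (eqFunOn (h.adX j) (h.monoKF.placesOver Smin : Set (Ext.Place h.monoKF.K))) := by
  obtain ⟨R⟩ := h.exists_monoReps hA
  have hLf : ∀ l : Smin, Module.Finite k (L l) := fun l => hLfin l l.2
  have hLKfin := h.fieldKF.finite_locK Smin
  have hEfin : Module.Finite k
      (h.fieldKF.eqHom (W := h.MI) h.rhoI (TF : Set (Ext.Place h.fieldKF.K))) :=
    KField.finite_eqHom (W := h.MI) hTF hpT
  -- the localisation has small range
  have hD := KField.finrank_range_decRes_le (W := h.MI) (ρ := h.rhoI) hTF hpT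
      (h.fieldKF.placesOver_stable Smin)
  let T' := R.trans hLZ
  let W₁ := LinearMap.range R.cob ⊔ LinearMap.range T'
  let J := R.res.comp (h.indRes hu (TF := (TF : Set (Ext.Place h.fieldKF.K))))
  let W := W₁ ⊔ LinearMap.range J
  refine ⟨fun j => (W ⊓ R.levLoc (j : ℕ)).map (R.piece j), fun j => ?_, fun j x hx => ?_, ?_⟩
  · have : Module.Finite k ↥(W ⊓ R.levLoc (j : ℕ)) :=
      Submodule.finiteDimensional_of_le inf_le_left
    exact Module.Finite.map _ _
  · rw [R.decRes_pc (h.isCocycle_glob hu x) hx]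
    refine ⟨R.res (h.glob hu x), ⟨?_, fun i τ => hx (τ : borelΓ rb)⟩, rfl⟩
    rw [ResidualHyp.glob, LinearMap.coprod_apply, map_add]
    exact add_mem (Submodule.mem_sup_left (R.res_selRes hLZ x.1))
      (Submodule.mem_sup_right ⟨x.2, rfl⟩)
  · have h0 := R.sum_piece_le W (le_sup_left.trans le_sup_left)
    -- the coboundaries
    have hc := LinearMap.finrank_range_add_finrank_ker R.cob
    rw [Module.finrank_pi_fintype, Finset.sum_const, Finset.card_univ, finrank_sl2,
      smul_eq_mul] at hc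
    have hfix := R.sum_fixed_le hA hu
    rw [Finset.sum_add_distrib] at hfix
    -- the local conditions
    let B : ∀ l : Smin, Submodule k (L l) := fun l =>
      (adB1 rb ((A l).decompositionSubgroup ℚ)).comap (L l).subtype
    let ι₁ : (∀ l : Smin, B l) →ₗ[k] (∀ l : Smin, L l) :=
      LinearMap.pi fun l => (B l).subtype.comp (LinearMap.proj l)
    have hι₁ : Function.Injective ι₁ := fun a b hab => funext fun l =>
      Subtype.ext (congrFun hab l)
    have h1 := finrank_sup_range_add_le (LinearMap.range R.cob) T' (LinearMap.range ι₁) (by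
      rintro _ ⟨x, rfl⟩
      have : ∀ l : Smin, ∃ X ∈ sl2 k, adDelta rb ((A l).decompositionSubgroup ℚ) X =
          (((x l).1 : L l) : (A l).decompositionSubgroup ℚ → Mat k) := fun l => (x l).2
      choose X hX hXe using this
      refine ⟨fun i => adGL (rbGL rb (R.g i)) ⟨X ⟨R.pr i, R.mem i⟩, hX _⟩,
        funext fun i => funext fun τ => ?_⟩
      rw [R.cob_apply, ← R.ad_back, ← map_sub]
      show adGL _ _ = adGL _ _
      congr 1
      refine Subtype.ext ?_
      rw [Submodule.coe_sub, coe_adGL, ← map_inv]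
      exact congrFun (hXe ⟨R.pr i, R.mem i⟩) (R.back i τ))
    have : ∀ l : Smin, Module.Free k (B l) := fun l => Module.Free.of_divisionRing k ↥(B l)
    rw [LinearMap.finrank_range_of_inj hι₁, Module.finrank_pi_fintype,
      Module.finrank_pi_fintype] at h1
    have hB : ∀ l : Smin, Module.finrank k (B l) +
        Module.finrank k (adH0 rb ((A l).decompositionSubgroup ℚ)) = 3 := fun l => by
      rw [LinearEquiv.finrank_eq (Submodule.comapSubtypeEquivOfLe (hLB l l.2)), finrank_adB1_add]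
    have hB' : ∑ l : Smin, Module.finrank k (B l) +
        ∑ l : Smin, Module.finrank k (adH0 rb ((A l).decompositionSubgroup ℚ)) =
          3 * Smin.card := by
      rw [← Finset.sum_add_distrib, Finset.sum_congr rfl fun l _ => hB l, Finset.sum_const,
        Finset.card_univ, Fintype.card_coe, smul_eq_mul, mul_comm]
    -- the induced classes
    have h2 := finrank_sup_range_add_le W₁ J
      (LinearMap.ker ((KField.decRes (k := k) (W := h.MI)
        (h.fieldKF.placesOver Smin : Set (Ext.Place h.fieldKF.K))).comp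
          (h.fieldKF.eqHom (W := h.MI) h.rhoI (TF : Set (Ext.Place h.fieldKF.K))).subtype))
      fun f hf => Submodule.mem_sup_left (R.res_indRes hu f (LinearMap.mem_ker.mp hf))
    rw [← Finset.sum_coe_sort Smin (fun l => Module.finrank k (L l))]
    simp only [W, W₁] at h0 h2 ⊢
    omega

end FLTAgent.TW
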