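import Fermat.Agent.TW.Mono.Setting
import Fermat.Agent.TW.Orbits

/-!
# Graded pieces inside the functions on the cosets

A family of equivariant functions on places, one for each graded piece, embeds into the functions
on the cosets fixed by a stabiliser, as soon as the orbits admit weights of sum one.
-/

set_option autoImplicit false
set_option linter.unusedSectionVars false

open IsDedekindDomain NumberField
open scoped Pointwise

noncomputable section

namespace FLTAgent.TW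

open scoped Classical

open FLTAgent.Deformation

variable {k : Type} [Field k] [Finite k] {p : ℕ} [hpf : Fact p.Prime] [CharP k p]
  [Algebra (ZMod p) k]
variable {rb : Gal →* Mat k} {Smin : Finset ℕ} (h : ResidualHyp p rb Smin)

/-- The base coset. -/
abbrev ResidualHyp.base : h.Omega := QuotientGroup.mk 1

theorem ResidualHyp.mem_borelF_of_smul_base {c : h.fieldKF.C} (hc : c • h.base = h.base) :
    c ∈ h.borelF := by
  rw [h.smul_base] at hc
  have h1 := QuotientGroup.eq.mp hc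
  rwa [mul_one, inv_mem_iff] at h1

theorem ResidualHyp.borelF_inv_smul_base (b : h.borelF) :
    (b : h.fieldKF.C)⁻¹ • h.base = h.base :=
  h.smul_base_of_mem_borelF (inv_mem b.2)

/-- The twisted action on functions on the cosets. -/
def ResidualHyp.rhoΩ : Representation k h.fieldKF.C (h.Omega → sl2 k) :=
  twistRep (W := h.Omega → sl2 k) h.fieldKF.eps⁻¹ h.adΩ

theorem ResidualHyp.rhoΩ_apply (c : h.fieldKF.C) (Y : h.Omega → sl2 k) (ω : h.Omega) :
    h.rhoΩ c Y ω = h.rho c (Y (c⁻¹ • ω)) := rfl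

theorem ResidualHyp.mem_borelF' {g : Γ} (hg : g ∈ borelΓ rb) :
    h.fieldKF.π (h.inH g) ∈ h.borelF := by
  show h.rbF (h.fieldKF.π (h.inH g)) ∈ borelGL k
  rw [h.rbF_π]
  exact hg

theorem ResidualHyp.borelRes_mem (b : h.borelF) :
    borelDiag k ⟨h.rbF (b : h.fieldKF.C), b.2⟩ ∈ (diagΓ rb).range := by
  obtain ⟨g, hg⟩ := h.fieldKF.π_surj (b : h.fieldKF.C)
  have hgB : rbGL rb (g : Γ) ∈ borelGL k := by rw [← h.rbF_π, hg]; exact b.2
  refine ⟨⟨(g : Γ), hgB⟩, congrArg (borelDiag k) (Subtype.ext ?_)⟩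
  show rbGL rb (g : Γ) = h.rbF (b : h.fieldKF.C)
  rw [← hg, h.rbF_π]

/-- The Borel part of the Galois group of the kernel field maps to `C`. -/
def ResidualHyp.toMono : h.borelF →* h.monoKF.C where
  toFun b := ⟨borelDiag k ⟨h.rbF (b : h.fieldKF.C), b.2⟩, h.borelRes_mem b⟩
  map_one' := Subtype.ext (by
    show borelDiag k _ = 1
    rw [← map_one (borelDiag k)]
    exact congrArg _ (Subtype.ext (map_one h.rbF)))
  map_mul' a b := Subtype.ext (by
    show borelDiag k _ = borelDiag k ⟨h.rbF (a : h.fieldKF.C), a.2⟩ *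
      borelDiag k ⟨h.rbF (b : h.fieldKF.C), b.2⟩
    rw [← map_mul]
    exact congrArg _ (Subtype.ext (map_mul h.rbF _ _)))

theorem ResidualHyp.diagC_toMono (b : h.borelF) :
    h.diagC (h.toMono b) = borelDiag k ⟨h.rbF (b : h.fieldKF.C), b.2⟩ := rfl

theorem ResidualHyp.toMono_π (g : h.monoKF.H) :
    h.toMono ⟨h.fieldKF.π (h.inH (g : Γ)), h.mem_borelF' g.2⟩ = h.monoKF.π g :=
  h.diagC_injective (by
    rw [h.diagC_toMono, h.diagC_π]
    exact congrArg (borelDiag k) (Subtype.ext (h.rbF_π _)))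

/-- The twisted action of the Borel part on a graded piece. -/
theorem ResidualHyp.coord_rho (b : h.borelF) (j : Fin 3) {X : sl2 k}
    (hX : X ∈ lev k (j : ℕ)) :
    coord j (h.rho (b : h.fieldKF.C) X) =
      ((h.chR j (h.toMono b) : kˣ) : k) * coord j X := by
  have hdet : ((h.rbF (b : h.fieldKF.C) : GL (Fin 2) k) : Mat k).det =
      ((diagDet k (h.diagC (h.toMono b)) : kˣ) : k) := by
    have h10 : ((h.rbF (b : h.fieldKF.C) : GL (Fin 2) k) : Mat k) 1 0 = 0 := b.2
    rw [h.diagC_toMono, diagDet_apply, Matrix.det_fin_two, h10, mul_zero, sub_zero]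
    rfl
  rw [ResidualHyp.rho, twistRep_apply, map_smul, MonoidHom.inv_apply, map_units_inv,
    h.algebraMap_eps, hdet, smul_eq_mul, h.adF_apply,
    show h.rbF (b : h.fieldKF.C) = ((⟨h.rbF (b : h.fieldKF.C), b.2⟩ : borelGL k) : GL (Fin 2) k)
      from rfl, coord_adGL _ j hX, ← mul_assoc]
  congr 1
  rw [← Units.val_inv_eq_inv_val, ← Units.val_mul, mul_comm, ← div_eq_mul_inv]
  rfl

theorem ResidualHyp.rho_mem_lev (b : h.borelF) {n : ℕ} {X : sl2 k} (hX : X ∈ lev k n) :
    h.rho (b : h.fieldKF.C) X ∈ lev k n := by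
  rw [ResidualHyp.rho, twistRep_apply, h.adF_apply]
  exact Submodule.smul_mem _ _ (adGL_mem_lev (⟨h.rbF (b : h.fieldKF.C), b.2⟩ : borelGL k) hX)

section embed

variable {V : Type} [MulAction h.monoKF.C V] (v : h.fieldKF.C → V)
  (D : Subgroup h.fieldKF.C) (Ω₁ : Set h.Omega) (w : h.Omega → k)
  (hvb : ∀ (b : h.borelF) (x : h.fieldKF.C), v ((b : h.fieldKF.C) * x) = h.toMono b • v x)
  (hvd : ∀ (x : h.fieldKF.C), ∀ d ∈ D, v (x * d) = v x)
  (hΩ₁ : ∀ d ∈ D, ∀ ω ∈ Ω₁, d • ω ∈ Ω₁)
  (hw : ∀ ω ∈ Ω₁, ∑ d : D, w ((d : h.fieldKF.C)⁻¹ • ω) = 1)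

include hvb hvd hΩ₁ hw

/-- The graded pieces embed into the fixed functions supported on `Ω₁`. -/
theorem ResidualHyp.exists_piece_embedding :
    ∃ Φ : (∀ j : Fin 3, eqFunOn (h.rhoX j) (v '' {x | x⁻¹ • h.base ∈ Ω₁})) →ₗ[k]
        (h.Omega → sl2 k),
      Function.Injective Φ ∧ (∀ T, ∀ d ∈ D, h.rhoΩ d (Φ T) = Φ T) ∧
        ∀ T, ∀ ω ∉ Ω₁, Φ T ω = 0 := by
  set U₁ : Set V := v '' {x | x⁻¹ • h.base ∈ Ω₁}
  let xr : h.Omega → h.fieldKF.C := fun ω => ω.out⁻¹
  have hxr : ∀ ω, (xr ω)⁻¹ • h.base = ω := fun ω => by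
    show (ω.out⁻¹)⁻¹ • h.base = ω
    rw [inv_inv, h.smul_base, QuotientGroup.out_eq']
  let P : h.Omega → (∀ j : Fin 3, eqFunOn (h.rhoX j) U₁) →ₗ[k] sl2 k := fun ω =>
    ∑ j, ((LinearMap.proj (v (xr ω))).comp
      ((eqFunOn (h.rhoX j) U₁).subtype.comp (LinearMap.proj j))).smulRight (coordVec j)
  let Y₀ : (∀ j : Fin 3, eqFunOn (h.rhoX j) U₁) →ₗ[k] (h.Omega → sl2 k) :=
    LinearMap.pi fun ω => if ω ∈ Ω₁ then w ω • (h.rho (xr ω)⁻¹).comp (P ω) else 0
  have hY₀ : ∀ T ω, Y₀ T ω = if ω ∈ Ω₁ then w ω • h.rho (xr ω)⁻¹ (P ω T) else 0 := fun T ω => by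
    show (if ω ∈ Ω₁ then w ω • (h.rho (xr ω)⁻¹).comp (P ω) else 0 :
      (∀ j : Fin 3, eqFunOn (h.rhoX j) U₁) →ₗ[k] sl2 k) T = _
    split_ifs <;> rfl
  refine ⟨∑ d : D, (h.rhoΩ (d : h.fieldKF.C)).comp Y₀, ?_, fun T d hd => ?_, fun T ω hω => ?_⟩
  · refine (injective_iff_map_eq_zero _).mpr fun T hT => ?_
    have hP : ∀ (j : Fin 3) ω, (∀ i : Fin 3, (i : ℕ) < j → T i = 0) →
        P ω T ∈ lev k (j : ℕ) ∧
          coord j (P ω T) = (T j : V → k) (v (xr ω)) := fun j ω hlt => by
      have e : P ω T = ∑ i, (T i : V → k) (v (xr ω)) • coordVec i := by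
        simp [P, LinearMap.sum_apply]
      constructor
      · refine mem_lev.mpr fun i hi => ?_
        rw [e, map_sum, Finset.sum_eq_single i (fun b _ hb => by
          rw [map_smul, coord_coordVec, if_neg (Ne.symm hb), smul_zero])
          (fun hn => (hn (Finset.mem_univ _)).elim), hlt i hi]
        simp
      · rw [e, map_sum, Finset.sum_eq_single j (fun b _ hb => by
          rw [map_smul, coord_coordVec, if_neg (Ne.symm hb), smul_zero])
          (fun hn => (hn (Finset.mem_univ _)).elim), map_smul, coord_coordVec, if_pos rfl,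
          smul_eq_mul, mul_one]
    -- the graded values of the spread function
    have key : ∀ (j : Fin 3), (∀ i : Fin 3, (i : ℕ) < j → T i = 0) → ∀ y : h.fieldKF.C,
        y⁻¹ • h.base ∈ Ω₁ →
        h.rho y (Y₀ T (y⁻¹ • h.base)) ∈ lev k (j : ℕ) ∧
          coord j (h.rho y (Y₀ T (y⁻¹ • h.base))) =
            w (y⁻¹ • h.base) * (T j : V → k) (v y) := fun j hlt y hy => by
      set ω := y⁻¹ • h.base with hω
      have hb : y * (xr ω)⁻¹ ∈ h.borelF := h.mem_borelF_of_smul_base (by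
        rw [mul_smul, hxr, hω, smul_inv_smul])
      have e : h.rho y (Y₀ T ω) =
          w ω • h.rho ((⟨y * (xr ω)⁻¹, hb⟩ : h.borelF) : h.fieldKF.C) (P ω T) := by
        rw [hY₀, if_pos hy, map_smul, ← Module.End.mul_apply (h.rho y), ← map_mul]
      obtain ⟨h1, h2⟩ := hP j ω hlt
      rw [e]
      refine ⟨Submodule.smul_mem _ _ (h.rho_mem_lev _ h1), ?_⟩
      rw [map_smul, h.coord_rho _ j h1, h2, smul_eq_mul]
      congr 1
      have h3 := (mem_eqFunOn.mp (T j).2).1 (h.toMono ⟨y * (xr ω)⁻¹, hb⟩) (v (xr ω))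
      rw [← hvb, inv_mul_cancel_right] at h3
      rw [h3]; rfl
    suffices hall : ∀ n : ℕ, ∀ j : Fin 3, (j : ℕ) < n → T j = 0 from
      funext fun j => hall 3 j j.isLt
    intro n
    induction n with
    | zero => exact fun j hj => absurd hj (Nat.not_lt_zero _)
    | succ n ih =>
      intro j hj
      rcases Nat.lt_succ_iff_lt_or_eq.mp hj with hlt | heq
      · exact ih j hlt
      subst heq
      refine Subtype.ext (funext fun z => ?_)
      show (T j : V → k) z = 0
      by_cases hz : z ∈ U₁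
      · obtain ⟨y, hy, rfl⟩ := hz
        have h1 : ∀ d : D, (y * (d : h.fieldKF.C))⁻¹ • h.base ∈ Ω₁ := fun d => by
          rw [mul_inv_rev, mul_smul]
          exact hΩ₁ _ (inv_mem d.2) _ hy
        have h2 : h.rho y ((∑ d : D, (h.rhoΩ (d : h.fieldKF.C)).comp Y₀) T (y⁻¹ • h.base)) = 0 := by
          rw [hT]
          exact map_zero _
        rw [LinearMap.sum_apply, Finset.sum_apply, map_sum] at h2
        have h3 : ∀ d : D, h.rho y (((h.rhoΩ (d : h.fieldKF.C)).comp Y₀) T (y⁻¹ • h.base)) =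
            h.rho (y * (d : h.fieldKF.C)) (Y₀ T ((y * (d : h.fieldKF.C))⁻¹ • h.base)) := fun d => by
          rw [LinearMap.comp_apply, h.rhoΩ_apply, map_mul, Module.End.mul_apply, mul_inv_rev,
            mul_smul]
        rw [Finset.sum_congr rfl fun d _ => h3 d] at h2
        have h4 := congrArg (coord j) h2
        rw [map_zero, map_sum, Finset.sum_congr rfl fun d _ => (key j ih _ (h1 d)).2] at h4
        rw [Finset.sum_congr rfl fun (d : D) _ => by
          rw [hvd y _ d.2, mul_inv_rev, mul_smul], ← Finset.sum_mul, hw _ hy, one_mul] at h4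
        exact h4
      · exact (mem_eqFunOn.mp (T j).2).2 z hz
  · simp only [LinearMap.sum_apply, map_sum, LinearMap.comp_apply]
    refine Fintype.sum_equiv (Equiv.mulLeft ⟨d, hd⟩) _ _ fun e => ?_
    rw [Equiv.coe_mulLeft, Subgroup.coe_mul, map_mul h.rhoΩ, Module.End.mul_apply]
  · simp only [LinearMap.sum_apply, Finset.sum_apply, LinearMap.comp_apply]
    refine Finset.sum_eq_zero fun d _ => ?_
    have hn : (d : h.fieldKF.C)⁻¹ • ω ∉ Ω₁ := fun hm => hω (by
      simpa using hΩ₁ _ d.2 _ hm)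
    rw [h.rhoΩ_apply, hY₀, if_neg hn, map_zero]

/-- The count of the graded pieces. -/
theorem ResidualHyp.sum_piece_le :
    ∑ j : Fin 3, Module.finrank k
        (eqFunOn (h.rhoX j) (v '' {x | x⁻¹ • h.base ∈ Ω₁}) : Submodule k (V → k)) ≤
      Module.finrank k (fixedBy' h.rhoΩ (D : Set h.fieldKF.C)) := by
  obtain ⟨Φ, hinj, hfix, -⟩ := h.exists_piece_embedding v D Ω₁ w hvb hvd hΩ₁ hw
  let f := Φ.codRestrict (fixedBy' h.rhoΩ (D : Set h.fieldKF.C)) fun T d hd => hfix T d hd
  have hf : Function.Injective f := fun a b hab =>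
    hinj (congrArg (fun z : fixedBy' h.rhoΩ (D : Set h.fieldKF.C) =>
      (z : h.Omega → sl2 k)) hab)
  have : Module.Finite k (∀ j : Fin 3,
      (eqFunOn (h.rhoX j) (v '' {x | x⁻¹ • h.base ∈ Ω₁}) : Submodule k (V → k))) :=
    Module.Finite.of_injective f hf
  have hfin : ∀ j : Fin 3, Module.Finite k
      (eqFunOn (h.rhoX j) (v '' {x | x⁻¹ • h.base ∈ Ω₁}) : Submodule k (V → k)) := fun j =>
    Module.Finite.of_surjective (LinearMap.proj (R := k) (φ := fun j : Fin 3 =>
      ↥(eqFunOn (h.rhoX j) (v '' {x | x⁻¹ • h.base ∈ Ω₁}))) j) (Function.surjective_eval j)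
  rw [← Module.finrank_pi_fintype k]
  exact LinearMap.finrank_le_finrank_of_injective hf

/-- The count of the graded pieces with one more for the base coset. -/
theorem ResidualHyp.sum_piece_succ_le (hbase : h.base ∉ Ω₁)
    (hD : ∀ d ∈ D, d ∈ h.borelF ∧ h.rho d (coordVec 2) = coordVec 2) :
    ∑ j : Fin 3, Module.finrank k
        (eqFunOn (h.rhoX j) (v '' {x | x⁻¹ • h.base ∈ Ω₁}) : Submodule k (V → k)) + 1 ≤
      Module.finrank k (fixedBy' h.rhoΩ (D : Set h.fieldKF.C)) := by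
  classical
  obtain ⟨Φ, hinj, hfix, hoff⟩ := h.exists_piece_embedding v D Ω₁ w hvb hvd hΩ₁ hw
  set E : h.Omega → sl2 k := Pi.single h.base (coordVec 2)
  have hE : ∀ d ∈ D, h.rhoΩ d E = E := fun d hd => funext fun ω => by
    rw [h.rhoΩ_apply]
    have hdb : d • h.base = h.base := h.smul_base_of_mem_borelF (hD d hd).1
    by_cases hω : ω = h.base
    · subst hω
      rw [inv_smul_eq_iff.mpr hdb.symm]
      simp [E, (hD d hd).2]
    · have hne : d⁻¹ • ω ≠ h.base := fun he => hω (by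
        rw [← smul_inv_smul d ω, he, hdb])
      simp [E, hω, hne]
  let f := ((Φ.comp (LinearMap.fst k _ k)) + ((LinearMap.snd k _ k).smulRight E)).codRestrict
    (fixedBy' h.rhoΩ (D : Set h.fieldKF.C)) fun T d hd => by
      rw [LinearMap.add_apply, map_add, LinearMap.comp_apply, LinearMap.smulRight_apply, map_smul,
        hfix _ d hd, hE d hd]
  have hf : Function.Injective f := by
    refine (injective_iff_map_eq_zero f).mpr fun T hT => ?_
    have h1 : Φ T.1 + T.2 • E = 0 :=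
      congrArg (fun z : fixedBy' h.rhoΩ (D : Set h.fieldKF.C) => (z : h.Omega → sl2 k)) hT
    have h2 := congrArg (coord (k := k) 2) (congrFun h1 h.base)
    rw [Pi.add_apply, hoff _ _ hbase, zero_add, Pi.smul_apply, Pi.zero_apply, map_zero, map_smul]
      at h2
    simp [E, coord_coordVec] at h2
    rw [h2, zero_smul, add_zero] at h1
    exact Prod.ext ((injective_iff_map_eq_zero Φ).mp hinj _ h1) h2
  have hfin : Module.Finite k (∀ j : Fin 3,
      (eqFunOn (h.rhoX j) (v '' {x | x⁻¹ • h.base ∈ Ω₁}) : Submodule k (V → k))) :=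
    Module.Finite.of_injective (f.comp (LinearMap.inl k _ k)) (hf.comp LinearMap.inl_injective)
  have hfin' : ∀ j : Fin 3, Module.Finite k
      (eqFunOn (h.rhoX j) (v '' {x | x⁻¹ • h.base ∈ Ω₁}) : Submodule k (V → k)) := fun j =>
    Module.Finite.of_surjective (LinearMap.proj (R := k) (φ := fun j : Fin 3 =>
      ↥(eqFunOn (h.rhoX j) (v '' {x | x⁻¹ • h.base ∈ Ω₁}))) j) (Function.surjective_eval j)
  have h3 := LinearMap.finrank_le_finrank_of_injective hf
  rwa [Module.finrank_prod, Module.finrank_pi_fintype, Module.finrank_self] at h3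

end embed

/-- Fixed functions split into the constants and the functions of sum zero. -/
theorem ResidualHyp.finrank_fixed_rhoΩ_le (s : Set h.fieldKF.C) :
    Module.finrank k (fixedBy' h.rhoΩ s) ≤
      Module.finrank k (fixedBy' h.rho s) + Module.finrank k (fixedBy' (W := h.MI) h.rhoI s) := by
  let f : fixedBy' h.rhoΩ s →ₗ[k] sl2 k :=
    (∑ ω : h.Omega, LinearMap.proj ω).comp (fixedBy' h.rhoΩ s).subtype
  have hr : LinearMap.range f ≤ fixedBy' h.rho s := by
    rintro _ ⟨Y, rfl⟩ c hc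
    simp only [f, LinearMap.comp_apply, LinearMap.sum_apply, LinearMap.proj_apply, map_sum,
      Submodule.subtype_apply]
    refine Fintype.sum_equiv (MulAction.toPerm c) _ _ fun ω => ?_
    conv_rhs => rw [← Y.2 c hc]
    rw [h.rhoΩ_apply, MulAction.toPerm_apply, inv_smul_smul]
  let g : LinearMap.ker f →ₗ[k] fixedBy' (W := h.MI) h.rhoI s :=
    (((fixedBy' h.rhoΩ s).subtype.comp (LinearMap.ker f).subtype).codRestrict h.MI
      fun Y => Y.2).codRestrict _ fun Y c hc => Subtype.ext (Y.1.2 c hc)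
  have hg : Function.Injective g := fun a b hab =>
    Subtype.ext (Subtype.ext (congrArg (fun z : fixedBy' (W := h.MI) h.rhoI s =>
      ((z : h.MI) : h.Omega → sl2 k)) hab))
  have h1 := LinearMap.finrank_range_add_finrank_ker (K := k) (V := ↥(fixedBy' h.rhoΩ s)) f
  have h2 := Submodule.finrank_mono hr
  have h3 := LinearMap.finrank_le_finrank_of_injective hg
  omega

end FLTAgent.TW
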