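import Fermat.Agent.TW.Mono.Coord
import Fermat.Agent.TW.Mono.Induced

/-!
# The field over which the Borel part acts through the diagonal, with its characters

`H = borelΓ rb` acts on the fixed field `K` of its unitriangular part through the diagonal, so the
group `C` of `K` is a finite subgroup of `kˣ × kˣ`; its order is prime to `p`.
-/

set_option autoImplicit false
set_option linter.unusedSectionVars false

open IsDedekindDomain NumberField Matrix
open scoped Pointwise

noncomputable section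

namespace FLTAgent.TW

open FLTAgent.Deformation

/-- A character as a one-dimensional representation. -/
def chRep {C : Type} [Group C] {k : Type} [Field k] (χ : C →* kˣ) : Representation k C k where
  toFun c := ((χ c : kˣ) : k) • LinearMap.id
  map_one' := by rw [map_one, Units.val_one, one_smul]; rfl
  map_mul' c d := LinearMap.ext fun x => by simp [mul_assoc, mul_left_comm]

theorem chRep_apply {C : Type} [Group C] {k : Type} [Field k] (χ : C →* kˣ) (c : C) (x : k) :
    chRep χ c x = ((χ c : kˣ) : k) * x := rfl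

variable {k : Type} [Field k]

theorem mem_borelΓ_iff {rb : Gal →* Mat k} {g : Γ} :
    g ∈ borelΓ rb ↔ rbGL rb g ∈ borelGL k := Iff.rfl

/-- An element of the preimage of the Borel part inside the Borel group. -/
def borelRes (rb : Gal →* Mat k) : borelΓ rb →* borelGL k :=
  ((rbGL rb).comp (borelΓ rb).subtype).codRestrict (borelGL k) fun g => g.2

@[simp] theorem coe_borelRes (rb : Gal →* Mat k) (g : borelΓ rb) :
    ((borelRes rb g : borelGL k) : GL (Fin 2) k) = rbGL rb (g : Γ) := rfl

/-- The diagonal of the residual representation. -/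
def diagΓ (rb : Gal →* Mat k) : borelΓ rb →* kˣ × kˣ := (borelDiag k).comp (borelRes rb)

theorem diagΓ_eq_one {rb : Gal →* Mat k} {g : borelΓ rb} :
    diagΓ rb g = 1 ↔ rb (g : Γ) 0 0 = 1 ∧ rb (g : Γ) 1 1 = 1 := by
  rw [Prod.ext_iff, Units.ext_iff, Units.ext_iff]
  rfl

/-- The elements with unitriangular image. -/
def unipΓ (rb : Gal →* Mat k) : Subgroup Γ := (diagΓ rb).ker.map (borelΓ rb).subtype

theorem mem_unipΓ {rb : Gal →* Mat k} {g : Γ} :
    g ∈ unipΓ rb ↔ rb g 1 0 = 0 ∧ rb g 0 0 = 1 ∧ rb g 1 1 = 1 := by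
  constructor
  · rintro ⟨x, hx, rfl⟩
    exact ⟨x.2, diagΓ_eq_one.mp hx⟩
  · rintro ⟨h, h'⟩
    exact ⟨⟨g, h⟩, diagΓ_eq_one.mpr h', rfl⟩

theorem det_eq_one_of_mem_unipΓ {rb : Gal →* Mat k} {g : Γ} (hg : g ∈ unipΓ rb) :
    (rb g).det = 1 := by
  obtain ⟨h10, h00, h11⟩ := mem_unipΓ.mp hg
  rw [Matrix.det_fin_two, h10, h00, h11]
  simp

theorem le_unipΓ (rb : Gal →* Mat k) : (rbGL rb).ker ≤ unipΓ rb := fun g hg => by
  have h : rb g = 1 := congrArg Units.val (MonoidHom.mem_ker.mp hg)
  rw [mem_unipΓ, h]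
  simp

variable {p : ℕ} [hpf : Fact p.Prime] [CharP k p]
variable {rb : Gal →* Mat k} {Smin : Finset ℕ} (h : ResidualHyp p rb Smin)

include h in
theorem ResidualHyp.fixing_unipField :
    (IntermediateField.fixedField (unipΓ rb)).fixingSubgroup = unipΓ rb := by
  obtain ⟨L, hL, hrb⟩ := h.level
  have hle : L.fixingSubgroup ≤ unipΓ rb := fun σ hσ => le_unipΓ rb (MonoidHom.mem_ker.mpr
    (Units.ext (hrb σ fun x hx => apply_eq_of_mem_fixing hσ hx)))
  have hop : IsOpen (unipΓ rb : Set Γ) :=
    Subgroup.isOpen_mono hle (IntermediateField.fixingSubgroup_isOpen L)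
  exact InfiniteGalois.fixingSubgroup_fixedField ⟨unipΓ rb, Subgroup.isClosed_of_isOpen _ hop⟩

theorem unipField_le_kerField (rb : Gal →* Mat k) :
    IntermediateField.fixedField (unipΓ rb) ≤ kerField rb := fun _ hx σ =>
  hx ⟨σ.1, le_unipΓ rb σ.2⟩

/-- The field of the diagonal of the Borel part. -/
def ResidualHyp.monoKF [Finite k] : KField p :=
  haveI := h.finiteDimensional
  { K := IntermediateField.fixedField (unipΓ rb)
    fd := FiniteDimensional.of_injective
      (IntermediateField.inclusion (unipField_le_kerField rb)).toLinearMap (RingHom.injective _)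
    ζ := ⟨(h.exists_zeta.choose : Qb), fun σ =>
      mem_fixing_muField.mp ((h.det_eq_one_iff σ.1).mp (det_eq_one_of_mem_unipΓ σ.2)) _ (by
        exact_mod_cast congrArg (fun x : kerField rb => (x : Qb))
          h.exists_zeta.choose_spec.pow_eq_one)⟩
    hζ := IsPrimitiveRoot.of_map_of_injective
      (f := (IntermediateField.fixedField (unipΓ rb)).val)
      (h.exists_zeta.choose_spec.map_of_injective (f := (kerField rb).val)
        (kerField rb).val.injective) (IntermediateField.fixedField (unipΓ rb)).val.injective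
    H := borelΓ rb
    fix_le := fun g hg => by
      rw [h.fixing_unipField] at hg
      exact (mem_unipΓ.mp hg).1
    stable := fun g hg x hx τ => by
      have h1 : g⁻¹ * τ.1 * g ∈ unipΓ rb := by
        obtain ⟨t, ht, ht'⟩ := τ.2
        refine ⟨⟨g, hg⟩⁻¹ * t * ⟨g, hg⟩, ?_, by rw [← ht']; rfl⟩
        have ht1 : diagΓ rb t = 1 := ht
        show diagΓ rb _ = 1
        rw [map_mul, map_mul, ht1, mul_one, map_inv, inv_mul_cancel]
      have h2 : (g⁻¹ * τ.1 * g) x = x := hx ⟨_, h1⟩
      show τ.1 (g x) = g x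
      conv_rhs => rw [← h2]
      exact (AlgEquiv.apply_symm_apply g _).symm
    C := (diagΓ rb).range
    fin := Fintype.ofFinite _
    π := (diagΓ rb).rangeRestrict
    π_surj := (diagΓ rb).rangeRestrict_surjective
    π_ker := fun g => by
      rw [h.fixing_unipField, mem_unipΓ, ← MonoidHom.mem_ker, MonoidHom.ker_rangeRestrict,
        MonoidHom.mem_ker, diagΓ_eq_one]
      exact ⟨fun hh => ⟨g.2, hh⟩, fun hh => hh.2⟩ }

variable [Finite k]

theorem ResidualHyp.fixing_monoKF : h.monoKF.K.fixingSubgroup = unipΓ rb := h.fixing_unipField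

theorem ResidualHyp.monoKF_K_le : h.monoKF.K ≤ h.fieldKF.K := unipField_le_kerField rb

theorem ResidualHyp.mem_monoKF_fixing {g : Γ} :
    g ∈ h.monoKF.K.fixingSubgroup ↔ rb g 1 0 = 0 ∧ rb g 0 0 = 1 ∧ rb g 1 1 = 1 := by
  rw [h.fixing_monoKF, mem_unipΓ]

theorem ResidualHyp.fieldKF_fixing_le :
    h.fieldKF.K.fixingSubgroup ≤ h.monoKF.K.fixingSubgroup :=
  IntermediateField.fixingSubgroup_antitone h.monoKF_K_le

/-- An element of the preimage of the Borel part as an element of `H`. -/
abbrev ResidualHyp.inB {g : Γ} (hg : g ∈ borelΓ rb) : h.monoKF.H := ⟨g, hg⟩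

/-- The diagonal of an element of `C`. -/
def ResidualHyp.diagC : h.monoKF.C →* kˣ × kˣ := (diagΓ rb).range.subtype

theorem ResidualHyp.diagC_π (g : h.monoKF.H) : h.diagC (h.monoKF.π g) = diagΓ rb g := rfl

theorem ResidualHyp.diagC_injective : Function.Injective h.diagC := Subtype.val_injective

theorem ResidualHyp.card_monoC_ne_zero : (Fintype.card h.monoKF.C : k) ≠ 0 := by
  classical
  have : Fintype k := Fintype.ofFinite k
  obtain ⟨m, hm⟩ : Fintype.card h.monoKF.C ∣ Fintype.card (kˣ × kˣ) := by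
    rw [← Nat.card_eq_fintype_card, ← Nat.card_eq_fintype_card]
    exact Subgroup.card_subgroup_dvd_card (diagΓ rb).range
  intro h0
  have h1 : ((Fintype.card (kˣ × kˣ) : ℕ) : k) = 0 := by rw [hm, Nat.cast_mul, h0, zero_mul]
  rw [Fintype.card_prod, Fintype.card_units, Nat.cast_mul, mul_self_eq_zero,
    Nat.cast_sub Fintype.card_pos, FiniteField.cast_card_eq_zero] at h1
  simp at h1

variable [Algebra (ZMod p) k]

/-- The characters of the pieces. -/
def ResidualHyp.chX (j : Fin 3) : h.monoKF.C →* kˣ := (diagChar k j).comp h.diagC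

/-- The twists of the characters of the pieces. -/
def ResidualHyp.chR (j : Fin 3) : h.monoKF.C →* kˣ := h.chX j / (diagDet k).comp h.diagC

/-- The pieces twisted by the inverse cyclotomic character. -/
def ResidualHyp.rhoX (j : Fin 3) : Representation k h.monoKF.C k := chRep (h.chR j)

/-- The pieces. -/
def ResidualHyp.adX (j : Fin 3) : Representation k h.monoKF.C k := chRep (h.chX j)

theorem ResidualHyp.algebraMap_eps_mono (c : h.monoKF.C) :
    algebraMap (ZMod p) k (h.monoKF.eps c) = ((diagDet k (h.diagC c) : kˣ) : k) := by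
  obtain ⟨g, rfl⟩ := h.monoKF.π_surj c
  have hdet : ((diagDet k (h.diagC (h.monoKF.π g)) : kˣ) : k) = (rb (g : Γ)).det := by
    have hg : rb (g : Γ) 1 0 = 0 := g.2
    rw [Matrix.det_fin_two, hg, mul_zero, sub_zero]
    rfl
  rw [hdet]
  have hz := h.monoKF.coe_act_π g h.monoKF.ζ
  rw [KField.act_zeta'] at hz
  have hprim := coe_zeta_isPrimitiveRoot h.monoKF.hζ
  rw [h.det (g : Γ) (h.monoKF.eps (h.monoKF.π g) : ZMod p).val fun μ hμ => ?_,
    ← map_natCast (algebraMap (ZMod p) k), ZMod.natCast_zmod_val]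
  have : NeZero p := ⟨hpf.out.ne_zero⟩
  obtain ⟨i, -, rfl⟩ := hprim.eq_pow_of_pow_eq_one hμ
  rw [map_pow, ← hz]
  push_cast
  rw [← pow_mul, ← pow_mul, mul_comm]

theorem ResidualHyp.twist_rhoX (j : Fin 3) :
    twistRep h.monoKF.eps (h.rhoX j) = h.adX j :=
  MonoidHom.ext fun c => LinearMap.ext fun x => by
    rw [twistRep_apply, ResidualHyp.rhoX, ResidualHyp.adX, chRep_apply, chRep_apply,
      h.algebraMap_eps_mono, smul_eq_mul, ← mul_assoc, ← Units.val_mul]
    congr 2
    exact mul_div_cancel _ _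

theorem ResidualHyp.isRelProj_chRep (χ : h.monoKF.C →* kˣ) : IsRelProj (chRep χ) :=
  isRelProj_of_card_ne_zero h.card_monoC_ne_zero

/-- The graded action of an element of `H`. -/
theorem ResidualHyp.coord_ad (g : h.monoKF.H) (j : Fin 3) {X : sl2 k} (hX : X ∈ lev k (j : ℕ)) :
    coord j (adGL (rbGL rb (g : Γ)) X) = h.adX j (h.monoKF.π g) (coord j X) :=
  coord_adGL (borelRes rb g) j hX

theorem ResidualHyp.ad_mem_lev (g : h.monoKF.H) {n : ℕ} {X : sl2 k} (hX : X ∈ lev k n) :
    adGL (rbGL rb (g : Γ)) X ∈ lev k n :=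
  adGL_mem_lev (borelRes rb g) hX

section Mono

variable (hp : p ≠ 2) (hu : ∃ u ∈ unipPart (imageGL rb), u ≠ 1)

include hp hu

/-- A determinant one element of the Borel part with distinct diagonal entries. -/
theorem ResidualHyp.exists_torus (hq : 3 < Nat.card (unipPart (imageGL rb))) :
    ∃ c : h.monoKF.C, (h.diagC c).1 * (h.diagC c).2 = 1 ∧ (h.diagC c).1 ≠ (h.diagC c).2 := by
  have := h.finite_imageGL
  obtain ⟨t, ht, ht10, htne⟩ := GroupLemma.exists_chi_ne_one p hp h.split h.irred hu hq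
  rw [GroupLemma.mem_detOne] at ht
  obtain ⟨⟨σ, rfl⟩, hdet⟩ := ht
  refine ⟨h.monoKF.π (h.inB (g := σ) ht10), Units.ext ?_, fun e => htne ?_⟩
  · rw [Units.val_mul, Units.val_one, ← hdet, Matrix.det_fin_two, ht10, mul_zero, sub_zero]
    rfl
  · exact congrArg Units.val e

/-- The nontriviality of the characters. -/
theorem ResidualHyp.chX_ne_one (hq : 3 < Nat.card (unipPart (imageGL rb))) {j : Fin 3}
    (hj : j ≠ 1) : h.chX j ≠ 1 := by
  obtain ⟨c, -, hne⟩ := h.exists_torus hp hu hq
  intro e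
  have h1 : diagChar k j (h.diagC c) = 1 := DFunLike.congr_fun e c
  fin_cases j
  · exact hne (div_eq_one.mp h1).symm
  · exact hj rfl
  · exact hne (div_eq_one.mp h1)

theorem ResidualHyp.chR_ne_one (hq : 3 < Nat.card (unipPart (imageGL rb))) (j : Fin 3) :
    h.chR j ≠ 1 := by
  intro e
  by_cases hj : j = 1
  · subst hj
    have heps : h.monoKF.eps = 1 := MonoidHom.ext fun c => Units.ext ((algebraMap (ZMod p) k).injective
      (by
        have h1 : diagChar k 1 (h.diagC c) / diagDet k (h.diagC c) = 1 := DFunLike.congr_fun e c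
        rw [diagChar_one, div_eq_one] at h1
        rw [h.algebraMap_eps_mono, ← h1, MonoidHom.one_apply, Units.val_one, Units.val_one,
          map_one]))
    have : Finite (imageGL rb) := h.finite_imageGL
    obtain ⟨σ, hσ⟩ : ∃ σ : Γ, (rb σ).det ≠ 1 := by
      obtain ⟨a, ha, hne⟩ : ∃ a : ℕ, ¬ p ∣ a ∧ (a : k) ≠ 1 := by
        refine ⟨p - 1, fun hd => ?_, fun h1 => ?_⟩
        · have := hpf.out.two_le
          have := Nat.le_of_dvd (by omega) hd
          omega
        · rw [Nat.cast_sub hpf.out.one_le, CharP.cast_eq_zero, zero_sub, Nat.cast_one] at h1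
          exact two_ne_zero_of_charP (k := k) hp (by linear_combination -h1)
      obtain ⟨_, ⟨σ, rfl⟩, hd⟩ := h.hasCyclotomicDet.2 a ha
      exact ⟨σ, fun h1 => hne (hd.symm.trans h1)⟩
    obtain ⟨b, ⟨hb, hb10⟩, hbd⟩ := exists_borel_det_eq p (imageGL rb) hp h.split h.irred
      h.hasCyclotomicDet hu (g := rbGL rb σ) ⟨σ, rfl⟩
    obtain ⟨τ, rfl⟩ := hb
    refine hσ (hbd.symm.trans ?_)
    have h2 := h.algebraMap_eps_mono (h.monoKF.π (h.inB (g := τ) hb10))
    rw [heps, MonoidHom.one_apply, Units.val_one, map_one] at h2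
    rw [Matrix.det_fin_two, hb10, mul_zero, sub_zero, h2]
    rfl
  · obtain ⟨c, hdet, hne⟩ := h.exists_torus hp hu hq
    have h1 : diagChar k j (h.diagC c) / diagDet k (h.diagC c) = 1 := DFunLike.congr_fun e c
    rw [diagDet_apply, hdet, div_one] at h1
    fin_cases j
    · exact hne (div_eq_one.mp h1).symm
    · exact hj rfl
    · exact hne (div_eq_one.mp h1)

end Mono

end FLTAgent.TW
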